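import Fermat.Agent.IntStr.Basic
import Fermat.Prelude.Def_CuspForm_HeckeLocal
import Fermat.Prelude.Def_CuspForm_HeckeEvalForms

/-!
# Integral forms as functionals on the lattice Hecke algebra

`latPairing`: `f ↦ (t ↦ a₁(t f))`. An operator killed by every pairing is zero
(`eq_zero_of_latPairing`) and every functional comes from an integral form
(`latPairing_surjective`).
-/

set_option autoImplicit false
set_option quotPrecheck false
set_option linter.unusedSectionVars false

noncomputable section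

open CongruenceSubgroup ModularFormClass CuspForm

namespace FLTAgent.Eisen

variable (N : ℕ) [NeZero N]

/-- The integral coefficient of a lattice element. -/
def coeffInt (n : ℕ) (f : ↥(intLattice N 2)) : ℤ :=
  ((IntStr.mem_intLattice_iff (f : CuspForm (Gamma0 N) 2)).mp f.2 n).choose

theorem coeffInt_spec (n : ℕ) (f : ↥(intLattice N 2)) :
    qCoeff (f : CuspForm (Gamma0 N) 2) n = (coeffInt N n f : ℂ) :=
  ((IntStr.mem_intLattice_iff (f : CuspForm (Gamma0 N) 2)).mp f.2 n).choose_spec

theorem coeffInt_eq {n : ℕ} {f : ↥(intLattice N 2)} {a : ℤ}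
    (h : qCoeff (f : CuspForm (Gamma0 N) 2) n = (a : ℂ)) : coeffInt N n f = a := by
  have := coeffInt_spec N n f
  rw [h] at this
  exact_mod_cast this.symm

/-- The coefficient as a linear map on the lattice. -/
def coeffIntLin (n : ℕ) : ↥(intLattice N 2) →ₗ[ℤ] ℤ where
  toFun := coeffInt N n
  map_add' f g := coeffInt_eq N (by
    rw [Submodule.coe_add, IntStr.qCoeff_add', coeffInt_spec, coeffInt_spec]; push_cast; rfl)
  map_smul' c f := coeffInt_eq N (by
    rw [Submodule.coe_smul, IntStr.qCoeff_zsmul', coeffInt_spec, RingHom.id_apply, smul_eq_mul]; push_cast; rfl)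

theorem coeffIntLin_apply (n : ℕ) (f : ↥(intLattice N 2)) : coeffIntLin N n f = coeffInt N n f :=
  rfl

local notation "𝕋" => ↥(heckeLatticeAlgebra N ∅)
local notation "𝕃" => ↥(intLattice N 2)

theorem coe_latticeRestrictHom_apply (t : heckeAlgebra N 2 ∅) (f : 𝕃) :
    ((((latticeRestrictHom N ∅ t : 𝕋) : Module.End ℤ 𝕃) f : 𝕃) : CuspForm (Gamma0 N) 2) =
      (t : Module.End ℂ (CuspForm (Gamma0 N) 2)) (f : CuspForm (Gamma0 N) 2) := rfl

/-- The pairing `f ↦ (t ↦ a₁(t f))`. -/
def latPairing : 𝕃 →ₗ[ℤ] (𝕋 →ₗ[ℤ] ℤ) where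
  toFun f :=
    { toFun := fun t => coeffInt N 1 ((t : Module.End ℤ 𝕃) f)
      map_add' := fun s t => by
        simp only [Subalgebra.coe_add, LinearMap.add_apply]
        exact map_add (coeffIntLin N 1) _ _
      map_smul' := fun c t => by
        simp only [Subalgebra.coe_smul, LinearMap.smul_apply, RingHom.id_apply]
        exact map_smul (coeffIntLin N 1) c _ }
  map_add' f g := LinearMap.ext fun t => by
    simp only [LinearMap.coe_mk, AddHom.coe_mk, map_add, LinearMap.add_apply]
    exact map_add (coeffIntLin N 1) _ _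
  map_smul' c f := LinearMap.ext fun t => by
    simp only [LinearMap.coe_mk, AddHom.coe_mk, map_smul, LinearMap.smul_apply, RingHom.id_apply]
    exact map_smul (coeffIntLin N 1) c _

theorem latPairing_apply (f : 𝕃) (t : 𝕋) :
    latPairing N f t = coeffInt N 1 ((t : Module.End ℤ 𝕃) f) := rfl

theorem latPairing_restrict (t : heckeAlgebra N 2 ∅) (f : 𝕃) :
    ((latPairing N f (latticeRestrictHom N ∅ t) : ℤ) : ℂ) =
      qCoeff ((t : Module.End ℂ (CuspForm (Gamma0 N) 2)) (f : CuspForm (Gamma0 N) 2)) 1 := by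
  rw [latPairing_apply, ← coeffInt_spec N 1, coe_latticeRestrictHom_apply]

/-- Every `n`-th coefficient functional on the lattice is pairing with a Hecke operator. -/
theorem exists_lattice_op (n : ℕ) (hn : n ≠ 0) :
    ∃ t : 𝕋, ∀ f : 𝕃, coeffInt N n f = latPairing N f t := by
  obtain ⟨t, ht, hspec⟩ :=
    IntStr.exists_heckeAlgebra_qCoeff_one (N := N) (k := 2) (by norm_num) n hn
  let t' : heckeAlgebra N 2 ∅ := ⟨t, ht⟩
  refine ⟨latticeRestrictHom N ∅ t', fun f => coeffInt_eq N ?_⟩
  rw [latPairing_restrict]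
  exact (hspec (f : CuspForm (Gamma0 N) 2)).symm

/-- An operator killed by every pairing is zero. -/
theorem eq_zero_of_latPairing (t : 𝕋) (h : ∀ f : 𝕃, latPairing N f t = 0) : t = 0 := by
  refine Subtype.ext (LinearMap.ext fun f => Subtype.ext ?_)
  refine IntStr.eq_zero_of_qCoeff _ fun n => ?_
  rcases eq_or_ne n 0 with rfl | hn
  · exact IntStr.qCoeff_index_zero _
  obtain ⟨s, hs⟩ := exists_lattice_op N n hn
  rw [coeffInt_spec, hs, latPairing_apply]
  have hcomm : (s : Module.End ℤ 𝕃) ((t : Module.End ℤ 𝕃) f) =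
      (t : Module.End ℤ 𝕃) ((s : Module.End ℤ 𝕃) f) :=
    LinearMap.congr_fun (congrArg Subtype.val (mul_comm s t)) f
  have := h ((s : Module.End ℤ 𝕃) f)
  rw [latPairing_apply] at this
  rw [hcomm, this, Int.cast_zero]

/-- Every functional on the lattice Hecke algebra is `t ↦ a₁(t f)` for an integral form `f`. -/
theorem latPairing_surjective : Function.Surjective (latPairing N) := by
  intro φ
  obtain ⟨m, hm, f, hf⟩ : ∃ m : ℤ, m ≠ 0 ∧ ∃ f, latPairing N f = m • φ := by
    by_contra hcon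
    push Not at hcon
    let Q := (𝕋 →ₗ[ℤ] ℤ) ⧸ LinearMap.range (latPairing N)
    let Q' := Q ⧸ Submodule.torsion ℤ Q
    have : Module.Free ℤ Q' := Module.free_of_finite_type_torsion_free'
    let π : (𝕋 →ₗ[ℤ] ℤ) →ₗ[ℤ] Q' :=
      (Submodule.torsion ℤ Q).mkQ ∘ₗ (LinearMap.range (latPairing N)).mkQ
    have hne : π φ ≠ 0 := by
      intro h0
      rw [LinearMap.comp_apply, Submodule.mkQ_apply, Submodule.mkQ_apply,
        Submodule.Quotient.mk_eq_zero, Submodule.mem_torsion_iff] at h0
      obtain ⟨⟨m, hm⟩, hmφ⟩ := h0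
      have hmφ' : Submodule.Quotient.mk (p := LinearMap.range (latPairing N)) (m • φ) = 0 := hmφ
      rw [Submodule.Quotient.mk_eq_zero] at hmφ'
      obtain ⟨f, hf⟩ := hmφ'
      exact hcon m (nonZeroDivisors.ne_zero hm) f hf
    obtain ⟨lam, hlam⟩ : ∃ lam : Q' →ₗ[ℤ] ℤ, lam (π φ) ≠ 0 := by
      by_contra hall
      push Not at hall
      exact hne ((Module.Free.chooseBasis ℤ Q').forall_coord_eq_zero_iff.mp fun i =>
        hall ((Module.Free.chooseBasis ℤ Q').coord i))
    obtain ⟨t, ht⟩ := (Module.bijective_dual_eval ℤ 𝕋).2 (lam ∘ₗ π)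
    have ht0 : t = 0 := eq_zero_of_latPairing N t fun f => by
      have := LinearMap.congr_fun ht (latPairing N f)
      simp only [Module.Dual.eval_apply, LinearMap.comp_apply] at this
      rw [this]
      have hzero : π (latPairing N f) = 0 := by
        have h1 : (LinearMap.range (latPairing N)).mkQ (latPairing N f) = 0 :=
          (Submodule.Quotient.mk_eq_zero _).mpr (LinearMap.mem_range_self _ f)
        rw [LinearMap.comp_apply, h1, map_zero]
      rw [hzero, map_zero]
    apply hlam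
    have := LinearMap.congr_fun ht φ
    simp only [LinearMap.comp_apply, ht0, map_zero] at this
    exact this.symm
  have hcoef : ∀ n, ∃ a : ℤ, qCoeff (f : CuspForm (Gamma0 N) 2) n = (m : ℂ) * a := by
    intro n
    rcases eq_or_ne n 0 with rfl | hn
    · exact ⟨0, by rw [IntStr.qCoeff_index_zero]; simp⟩
    obtain ⟨t, ht⟩ := exists_lattice_op N n hn
    exact ⟨φ t, by rw [coeffInt_spec, ht, hf, LinearMap.smul_apply, smul_eq_mul]; push_cast; rfl⟩
  choose a ha using hcoef
  have hm' : (m : ℂ) ≠ 0 := Int.cast_ne_zero.mpr hm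
  let g : 𝕃 := ⟨(m : ℂ)⁻¹ • (f : CuspForm (Gamma0 N) 2),
    (IntStr.mem_intLattice_iff _).mpr fun n => ⟨a n, by
      rw [IntStr.qCoeff_smul', ha, ← mul_assoc, inv_mul_cancel₀ hm', one_mul]⟩⟩
  have hg : m • g = f := Subtype.ext (by
    show (m • ((m : ℂ)⁻¹ • (f : CuspForm (Gamma0 N) 2))) = _
    rw [← Int.cast_smul_eq_zsmul ℂ, smul_smul, mul_inv_cancel₀ hm', one_smul])
  refine ⟨g, smul_right_injective _ hm ?_⟩
  show m • latPairing N g = m • φ
  rw [← map_smul, hg, hf]

end FLTAgent.Eisen
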