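import Mathlib

/-!
# Functions on `ℍ` given by power series in `exp (2πiτ/h)`

`HasQ h f P`: `f` is the sum of the series `P`. It gives holomorphy, boundedness at infinity,
periodicity and uniqueness of `P`, is closed under the ring operations, and holds for periodic
holomorphic bounded functions (`hasQ_qExpansion`).
-/

set_option autoImplicit false

open UpperHalfPlane Filter Topology Function
open scoped Manifold

noncomputable section

namespace FLTAgent.Eisen

/-- `f τ = ∑ coeff m P · q_h(τ)^m` for every `τ`. -/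
def HasQ (h : ℝ) (f : ℍ → ℂ) (P : PowerSeries ℂ) : Prop :=
  ∀ τ : ℍ, HasSum (fun m : ℕ => PowerSeries.coeff m P * Periodic.qParam h τ ^ m) (f τ)

variable {h : ℝ} {f g : ℍ → ℂ} {P Q : PowerSeries ℂ}

theorem exists_tau_of_norm_lt (hh : 0 < h) {q : ℂ} (hq : ‖q‖ < 1) (hq0 : q ≠ 0) :
    ∃ τ : ℍ, Periodic.qParam h τ = q :=
  ⟨⟨Periodic.invQParam h q, Periodic.im_invQParam_pos_of_norm_lt_one hh hq hq0⟩,
    Periodic.qParam_right_inv hh.ne' hq0⟩

theorem mem_unit_eball {x : ℂ} (hx : ‖x‖ < 1) : x ∈ Metric.eball (0 : ℂ) 1 := by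
  rw [← ENNReal.coe_one, Metric.eball_coe, mem_ball_zero_iff]
  simpa using hx

namespace HasQ

theorem congr (hf : HasQ h f P) (e : f = g) : HasQ h g P := e ▸ hf

theorem summable_norm (hh : 0 < h) (hf : HasQ h f P) {q : ℂ} (hq : ‖q‖ < 1) :
    Summable fun m : ℕ => ‖PowerSeries.coeff m P * q ^ m‖ := by
  rcases eq_or_ne q 0 with rfl | hq0
  · exact summable_of_ne_finset_zero (s := {0}) fun m hm => by
      simp only [Finset.mem_singleton] at hm; simp [hm]
  · obtain ⟨τ, rfl⟩ := exists_tau_of_norm_lt hh hq hq0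
    exact (hf τ).summable.norm

/-- The sum of the series. -/
def sumFun (P : PowerSeries ℂ) : ℂ → ℂ :=
  (FormalMultilinearSeries.ofScalars ℂ fun m => PowerSeries.coeff m P).sum

theorem hasFPowerSeries (hh : 0 < h) (hf : HasQ h f P) :
    HasFPowerSeriesOnBall (sumFun P)
      (FormalMultilinearSeries.ofScalars ℂ fun m => PowerSeries.coeff m P) 0 1 := by
  set S := FormalMultilinearSeries.ofScalars ℂ fun m => PowerSeries.coeff m P
  have hr : 1 ≤ S.radius := by
    refine le_of_forall_lt_imp_le_of_dense fun r hr ↦ ?_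
    lift r to NNReal using hr.ne_top
    apply FormalMultilinearSeries.le_radius_of_summable
    have := hf.summable_norm hh (q := ((r : ℝ) : ℂ)) (by simpa using hr)
    simpa [S, norm_mul] using this
  exact (S.hasFPowerSeriesOnBall (lt_of_lt_of_le zero_lt_one hr)).mono zero_lt_one hr

theorem eq_sumFun (hh : 0 < h) (hf : HasQ h f P) (τ : ℍ) :
    f τ = sumFun P (Periodic.qParam h τ) := by
  have hs := (hf.hasFPowerSeries hh).hasSum (y := Periodic.qParam h τ)
    (mem_unit_eball (Periodic.norm_qParam_lt_one hh τ.im_pos))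
  rw [zero_add] at hs
  refine (hf τ).unique (hs.congr_fun fun m => ?_)
  simp [FormalMultilinearSeries.ofScalars, mul_comm]

theorem mdiff (hh : 0 < h) (hf : HasQ h f P) : MDiff f := by
  rw [UpperHalfPlane.mdifferentiable_iff]
  intro z hz
  have hd : DifferentiableAt ℂ (fun w => sumFun P (Periodic.qParam h w)) z := by
    refine DifferentiableAt.comp z ?_ (Periodic.differentiable_qParam z)
    refine ((hf.hasFPowerSeries hh).differentiableOn _ ?_).differentiableAt
      (Metric.isOpen_eball.mem_nhds ?_)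
    all_goals exact mem_unit_eball (Periodic.norm_qParam_lt_one hh hz)
  refine (hd.congr_of_eventuallyEq ?_).differentiableWithinAt
  filter_upwards [(isOpen_lt continuous_const Complex.continuous_im).mem_nhds hz] with w hw
  simp only [comp_apply, ofComplex_apply_of_im_pos hw]
  exact hf.eq_sumFun hh ⟨w, hw⟩

theorem isBoundedAtImInfty (hh : 0 < h) (hf : HasQ h f P) : IsBoundedAtImInfty f :=
  isBoundedAtImInfty_of_hasSum_qExpansion hh fun τ => by simpa [smul_eq_mul] using hf τ

theorem periodic (hh : 0 < h) (hf : HasQ h f P) : Periodic (f ∘ ofComplex) h := by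
  intro w
  rcases le_or_gt w.im 0 with hw | hw
  · have : (w + h).im ≤ 0 := by simpa using hw
    simp only [comp_apply, ofComplex_apply_of_im_nonpos hw, ofComplex_apply_of_im_nonpos this]
  · have hw' : 0 < (w + h).im := by simpa using hw
    simp only [comp_apply, ofComplex_apply_of_im_pos hw, ofComplex_apply_of_im_pos hw',
      hf.eq_sumFun hh]
    congr 1
    show Periodic.qParam h (w + h) = Periodic.qParam h w
    simp only [Periodic.qParam]
    rw [show 2 * (Real.pi : ℂ) * Complex.I * (w + h) / h =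
      2 * Real.pi * Complex.I * w / h + 2 * Real.pi * Complex.I by
        have : (h : ℂ) ≠ 0 := Complex.ofReal_ne_zero.mpr hh.ne'
        field_simp]
    exact Complex.exp_periodic _

theorem qExpansion_eq (hh : 0 < h) (hf : HasQ h f P) : qExpansion h f = P := by
  ext m
  have han := UpperHalfPlane.analyticAt_cuspFunction_zero hh (hf.periodic hh) (hf.mdiff hh)
    (hf.isBoundedAtImInfty hh)
  have h1 := (hasFPowerSeriesOnBall_cuspFunction hh han
    (c := fun m => PowerSeries.coeff m P)
    (fun τ => by simpa [smul_eq_mul] using hf τ)).hasFPowerSeriesAt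
  have h2 := congr_arg (FormalMultilinearSeries.coeff · m)
    (h1.eq_formalMultilinearSeries han.hasFPowerSeriesAt)
  simp only [FormalMultilinearSeries.coeff_ofScalars] at h2
  rw [h2, qExpansion_coeff]
  ring

theorem unique (hh : 0 < h) (hf : HasQ h f P) (hf' : HasQ h f Q) : P = Q :=
  (hf.qExpansion_eq hh).symm.trans (hf'.qExpansion_eq hh)

theorem eq_zero (hh : 0 < h) (hf : HasQ h f 0) : f = 0 :=
  funext fun τ => (hf τ).unique (by simp)

theorem tendsto (hh : 0 < h) (hf : HasQ h f P) :
    Tendsto f atImInfty (𝓝 (PowerSeries.constantCoeff P)) := by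
  have h0 : sumFun P 0 = PowerSeries.constantCoeff P := by
    have := (hf.hasFPowerSeries hh).coeff_zero (fun _ => (1 : ℂ))
    simpa [FormalMultilinearSeries.ofScalars] using this.symm
  rw [← h0]
  have := (hf.hasFPowerSeries hh).hasFPowerSeriesAt.continuousAt.tendsto.comp
    (qParam_tendsto_atImInfty hh)
  exact this.congr fun τ => (hf.eq_sumFun hh τ).symm

theorem isZeroAtImInfty (hh : 0 < h) (hf : HasQ h f P) (h0 : PowerSeries.constantCoeff P = 0) :
    IsZeroAtImInfty f := by
  simpa [IsZeroAtImInfty, ZeroAtFilter, h0] using hf.tendsto hh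

theorem add (hf : HasQ h f P) (hg : HasQ h g Q) : HasQ h (f + g) (P + Q) := fun τ => by
  simpa [add_mul] using (hf τ).add (hg τ)

theorem neg (hf : HasQ h f P) : HasQ h (-f) (-P) := fun τ => by
  simpa using (hf τ).neg

theorem sub (hf : HasQ h f P) (hg : HasQ h g Q) : HasQ h (f - g) (P - Q) := by
  simpa [sub_eq_add_neg] using hf.add hg.neg

theorem smul (c : ℂ) (hf : HasQ h f P) : HasQ h (c • f) (c • P) := fun τ => by
  simpa [mul_assoc] using (hf τ).mul_left c

theorem mul (hh : 0 < h) (hf : HasQ h f P) (hg : HasQ h g Q) : HasQ h (f * g) (P * Q) := by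
  intro τ
  have hq := Periodic.norm_qParam_lt_one hh τ.im_pos
  have h1 := hf.summable_norm hh hq
  have h2 := hg.summable_norm hh hq
  have key := tsum_mul_tsum_eq_tsum_sum_antidiagonal_of_summable_norm h1 h2
  rw [(hf τ).tsum_eq, (hg τ).tsum_eq] at key
  have hs : Summable fun n : ℕ => ∑ kl ∈ Finset.HasAntidiagonal.antidiagonal n,
      PowerSeries.coeff kl.1 P * Periodic.qParam h τ ^ kl.1 *
        (PowerSeries.coeff kl.2 Q * Periodic.qParam h τ ^ kl.2) :=
    (summable_norm_sum_mul_antidiagonal_of_summable_norm h1 h2).of_norm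
  have := hs.hasSum
  rw [← key] at this
  refine this.congr_fun fun n => ?_
  rw [PowerSeries.coeff_mul, Finset.sum_mul]
  refine Finset.sum_congr rfl fun kl hkl => ?_
  rw [← Finset.HasAntidiagonal.mem_antidiagonal.mp hkl, pow_add]
  ring

theorem const (h : ℝ) (c : ℂ) : HasQ h (fun _ => c) (PowerSeries.C c) := fun τ => by
  convert hasSum_single (f := fun m : ℕ =>
    PowerSeries.coeff m (PowerSeries.C c) * Periodic.qParam h τ ^ m) 0
    (fun m hm => by simp [PowerSeries.coeff_C, hm]) using 1
  simp

theorem one (h : ℝ) : HasQ h (1 : ℍ → ℂ) 1 := by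
  have := HasQ.const h 1
  rwa [map_one] at this

theorem zero (h : ℝ) : HasQ h (0 : ℍ → ℂ) 0 := fun τ => by simp

theorem prod (hh : 0 < h) {ι : Type*} (s : Finset ι) {F : ι → ℍ → ℂ} {G : ι → PowerSeries ℂ}
    (hF : ∀ i ∈ s, HasQ h (F i) (G i)) : HasQ h (∏ i ∈ s, F i) (∏ i ∈ s, G i) := by
  classical
  induction s using Finset.induction_on with
  | empty => simpa using HasQ.one h
  | insert a s ha ih =>
    rw [Finset.prod_insert ha, Finset.prod_insert ha]
    exact (hF a (Finset.mem_insert_self a s)).mul hh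
      (ih fun i hi => hF i (Finset.mem_insert_of_mem hi))

theorem sum {ι : Type*} (s : Finset ι) {F : ι → ℍ → ℂ} {G : ι → PowerSeries ℂ}
    (hF : ∀ i ∈ s, HasQ h (F i) (G i)) : HasQ h (∑ i ∈ s, F i) (∑ i ∈ s, G i) := by
  classical
  induction s using Finset.induction_on with
  | empty => simpa using HasQ.zero h
  | insert a s ha ih =>
    rw [Finset.sum_insert ha, Finset.sum_insert ha]
    exact (hF a (Finset.mem_insert_self a s)).add
      (ih fun i hi => hF i (Finset.mem_insert_of_mem hi))

theorem pow (hh : 0 < h) (hf : HasQ h f P) (n : ℕ) : HasQ h (f ^ n) (P ^ n) := by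
  simpa using HasQ.prod hh (Finset.range n) (fun _ _ => hf)

end HasQ

/-- Any periodic holomorphic bounded function has its `q`-expansion. -/
theorem hasQ_qExpansion (hh : 0 < h) (hper : Periodic (f ∘ ofComplex) h) (hhol : MDiff f)
    (hbdd : IsBoundedAtImInfty f) : HasQ h f (qExpansion h f) := fun τ => by
  simpa [smul_eq_mul] using UpperHalfPlane.hasSum_qExpansion hh hper hhol hbdd τ

theorem hasQ_modularForm {F : Type*} [FunLike F ℍ ℂ] {Γ : Subgroup (GL (Fin 2) ℝ)} {k : ℤ}
    [ModularFormClass F Γ k] [Fact (IsCusp OnePoint.infty Γ)] (f : F) (hh : 0 < h)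
    (hΓ : h ∈ Γ.strictPeriods) : HasQ h f (qExpansion h f) :=
  hasQ_qExpansion hh (SlashInvariantFormClass.periodic_comp_ofComplex f hΓ)
    (ModularFormClass.holo f) (ModularFormClass.bdd_at_infty f)

end FLTAgent.Eisen
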