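import Fermat.Agent.Eisen.Eisenstein

/-!
# Integral expansions and the form `(E₄(pτ) - E₄(τ))/240`

`HasQZ` (expansions with integral coefficients) is closed under sums and products; the form
`auxForm = (E₄(pτ) - E₄(τ))/240` is invariant under `Γ₀(p)` (`auxForm_invariant`), with expansions
`hasQ_auxForm` at `∞` and `hasQ_auxForm_S` at `0`.
-/

set_option autoImplicit false

open UpperHalfPlane CongruenceSubgroup Matrix.SpecialLinearGroup
open scoped MatrixGroups ModularForm Manifold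

noncomputable section

namespace FLTAgent.Eisen

/-- An expansion with integral coefficients. -/
def HasQZ (h : ℝ) (f : ℍ → ℂ) (R : PowerSeries ℤ) : Prop :=
  HasQ h f (R.map (Int.castRingHom ℂ))

theorem HasQZ.mul {h : ℝ} (hh : 0 < h) {f g : ℍ → ℂ} {P Q : PowerSeries ℤ} (hf : HasQZ h f P)
    (hg : HasQZ h g Q) : HasQZ h (f * g) (P * Q) := by
  unfold HasQZ; rw [map_mul]; exact HasQ.mul hh hf hg

theorem HasQZ.add {h : ℝ} {f g : ℍ → ℂ} {P Q : PowerSeries ℤ} (hf : HasQZ h f P)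
    (hg : HasQZ h g Q) : HasQZ h (f + g) (P + Q) := by
  unfold HasQZ; rw [map_add]; exact HasQ.add hf hg

variable (p : ℕ) [Fact p.Prime]

theorem E4_smul (γ : SL(2, ℤ)) (τ : ℍ) :
    ModularForm.E₄ (γ • τ) = denom γ τ ^ (4 : ℕ) * ModularForm.E₄ τ := by
  have h : (⇑ModularForm.E₄ ∣[(4 : ℤ)] γ) τ = ModularForm.E₄ τ :=
    congrFun (SlashInvariantForm.slash_action_eqn ModularForm.E₄ (mapGL ℝ γ) ⟨γ, rfl⟩) τ
  rw [ModularForm.SL_slash_apply, zpow_neg, ← div_eq_mul_inv,
    div_eq_iff (zpow_ne_zero _ (denom_ne_zero _ τ))] at h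
  rw [h, mul_comm]
  rfl

/-- `(E₄(pτ) - E₄(τ))/240`. -/
def auxForm : ℍ → ℂ :=
  (1 / 240 : ℂ) • ((fun τ => ModularForm.E₄ (scaleH p (natCast_posR p) τ)) - ⇑ModularForm.E₄)

/-- Its coefficients. -/
def auxSeries : PowerSeries ℤ :=
  PowerSeries.mk fun m =>
    (if p ∣ m then (ArithmeticFunction.sigma 3 (m / p) : ℤ) else 0) -
      (ArithmeticFunction.sigma 3 m : ℤ)

/-- The series `1 + 240 ∑ σ₃(m) qᵐ`. -/
def e4Series : PowerSeries ℂ :=
  PowerSeries.mk fun m => if m = 0 then 1 else 240 * (ArithmeticFunction.sigma 3 m : ℂ)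

theorem hasQ_E4 : HasQ 1 ModularForm.E₄ e4Series := by
  have : Fact (IsCusp OnePoint.infty 𝒮ℒ) :=
    ⟨Subgroup.isCusp_of_mem_strictPeriods one_pos one_mem_strictPeriods_SL⟩
  have h := hasQ_modularForm ModularForm.E₄ one_pos one_mem_strictPeriods_SL
  suffices e : e4Series = qExpansion 1 (ModularForm.E₄ : ℍ → ℂ) by rw [e]; exact h
  ext m
  rw [e4Series, PowerSeries.coeff_mk,
    EisensteinSeries.E_qExpansion_coeff (by norm_num : 3 ≤ 4) ⟨2, rfl⟩]
  rcases eq_or_ne m 0 with rfl | hm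
  · simp
  · simp only [if_neg hm]
    have hb : bernoulli 4 = -1 / 30 := by
      rw [bernoulli_eq_bernoulli'_of_ne_one (by norm_num), bernoulli'_four]
    rw [hb]
    norm_num

theorem hasQ_auxForm : HasQZ 1 (auxForm p) (auxSeries p) := by
  have h := ((hasQ_E4.scaleNat one_ne_zero p).sub hasQ_E4).smul (1 / 240 : ℂ)
  suffices e : (auxSeries p).map (Int.castRingHom ℂ) =
      (1 / 240 : ℂ) • (PowerSeries.expand p (NeZero.ne p) e4Series - e4Series) by
    unfold HasQZ; rw [e]; exact h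
  ext m
  simp only [auxSeries, e4Series, PowerSeries.coeff_map, PowerSeries.coeff_mk, map_smul, map_sub,
    PowerSeries.coeff_expand, smul_eq_mul, eq_intCast]
  rcases eq_or_ne m 0 with rfl | hm
  · simp
  · simp only [if_neg hm]
    by_cases hd : p ∣ m
    · have hp : p.Prime := Fact.out
      have hmp : m / p ≠ 0 := (Nat.div_pos (Nat.le_of_dvd (Nat.pos_of_ne_zero hm) hd) hp.pos).ne'
      simp only [if_pos hd, if_neg hmp]
      push_cast
      ring
    · simp only [if_neg hd]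
      push_cast
      ring

theorem auxForm_invariant {γ : SL(2, ℤ)} (hγ : γ ∈ Gamma0 p) :
    auxForm p ∣[(4 : ℤ)] γ = auxForm p := by
  obtain ⟨γ', h00, h01, h10, h11⟩ := exists_scaled p hγ
  funext τ
  have h1 := E4_smul γ τ
  have h2 := E4_smul γ' (scaleH p (natCast_posR p) τ)
  rw [← smul_scaleH p γ γ' h00 h01 h10 h11, denom_scaleH p γ γ' h10 h11] at h2
  rw [ModularForm.SL_slash_apply]
  simp only [auxForm, Pi.smul_apply, Pi.sub_apply, smul_eq_mul, h1, h2, zpow_neg]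
  have := denom_ne_zero γ τ
  norm_cast
  field_simp

theorem hasQ_auxForm_S : HasQ p (auxForm p ∣[(4 : ℤ)] ModularGroup.S)
    ((1 / 240 : ℂ) • (((p : ℂ) ^ (4 : ℕ))⁻¹ • e4Series -
      PowerSeries.expand p (NeZero.ne p) e4Series)) := by
  have hpos := natCast_posR p
  have hpC : (p : ℂ) ≠ 0 := Nat.cast_ne_zero.mpr (NeZero.ne p)
  have hinv := inv_pos.mpr hpos
  have h1 : HasQ p (fun τ => ModularForm.E₄ (scaleH (p : ℝ)⁻¹ hinv τ)) e4Series := by
    have := hasQ_E4.scale (p : ℝ)⁻¹ hinv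
    rwa [one_div, inv_inv] at this
  have h2 : HasQ p ModularForm.E₄ (PowerSeries.expand p (NeZero.ne p) e4Series) := by
    simpa using hasQ_E4.expand p (NeZero.ne p)
  refine (((h1.smul ((p : ℂ) ^ (4 : ℕ))⁻¹).sub h2).smul (1 / 240 : ℂ)).congr (funext fun τ => ?_)
  have hτ : (τ : ℂ) ≠ 0 := UpperHalfPlane.ne_zero τ
  have hS : ∀ z : ℍ, ((ModularGroup.S • z : ℍ) : ℂ) = -1 / (z : ℂ) := fun z => by
    rw [modular_S_smul]; simp [neg_div, inv_neg]
  have hsc : scaleH p hpos (ModularGroup.S • τ) = ModularGroup.S • scaleH (p : ℝ)⁻¹ hinv τ := by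
    apply UpperHalfPlane.ext
    rw [coe_scaleH, hS, hS, coe_scaleH]
    push_cast
    field_simp
  have hd : ∀ z : ℍ, denom ModularGroup.S z = (z : ℂ) := fun z => ModularGroup.denom_S z
  rw [ModularForm.SL_slash_apply]
  simp only [auxForm, Pi.smul_apply, Pi.sub_apply, smul_eq_mul, hsc, E4_smul, hd]
  simp only [coe_scaleH]
  simp only [zpow_neg, zpow_ofNat]
  push_cast
  field_simp

end FLTAgent.Eisen
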