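import Mathlib

/-!
# The divisor sum prime to `p`

`sigmaP p m = ∑_{d ∣ m, p ∤ d} d` and its Hecke recursions `sigmaP_prime_mul`, `sigmaP_self_mul`.
-/

set_option autoImplicit false

namespace FLTAgent.Eisen

/-- The weight `d` if `p ∤ d`, else `0`. -/
def sigmaWt (p d : ℕ) : ℤ := if p ∣ d then 0 else (d : ℤ)

/-- `σ'(m) = ∑_{d ∣ m, p ∤ d} d`. -/
def sigmaP (p m : ℕ) : ℤ := ∑ d ∈ m.divisors, sigmaWt p d

theorem sigmaP_one {p : ℕ} (hp : p.Prime) : sigmaP p 1 = 1 := by
  have : ¬ p ∣ 1 := hp.not_dvd_one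
  simp [sigmaP, sigmaWt, this]

theorem sigmaP_zero (p : ℕ) : sigmaP p 0 = 0 := by simp [sigmaP]

theorem sum_divisors_prime_mul {q m : ℕ} (hq : q.Prime) (hm : m ≠ 0) (g : ℕ → ℤ) :
    ∑ d ∈ (q * m).divisors, g d + (if q ∣ m then ∑ d ∈ (m / q).divisors, g (q * d) else 0) =
      ∑ d ∈ m.divisors, g d + ∑ d ∈ m.divisors, g (q * d) := by
  classical
  have hq0 : q ≠ 0 := hq.ne_zero
  have hunion : (q * m).divisors = m.divisors ∪ m.divisors.image (q * ·) := by
    ext d
    simp only [Nat.mem_divisors, Finset.mem_union, Finset.mem_image, ne_eq, mul_eq_zero, hq0, hm,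
      or_self, not_false_eq_true, and_true]
    constructor
    · intro hd
      by_cases hqd : q ∣ d
      · obtain ⟨e, rfl⟩ := hqd
        exact Or.inr ⟨e, Nat.dvd_of_mul_dvd_mul_left hq.pos hd, rfl⟩
      · exact Or.inl (((hq.coprime_iff_not_dvd.mpr hqd).symm).dvd_of_dvd_mul_left hd)
    · rintro (hd | ⟨e, he, rfl⟩)
      · exact Dvd.dvd.mul_left hd q
      · exact mul_dvd_mul_left q he
  have hinter : m.divisors ∩ m.divisors.image (q * ·) =
      if q ∣ m then (m / q).divisors.image (q * ·) else ∅ := by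
    ext d
    split_ifs with h
    · obtain ⟨m', rfl⟩ := h
      have hm' : m' ≠ 0 := fun h0 => hm (by simp [h0])
      rw [Nat.mul_div_cancel_left m' hq.pos]
      simp only [Finset.mem_inter, Nat.mem_divisors, Finset.mem_image, ne_eq, mul_eq_zero, hq0,
        hm', or_self, not_false_eq_true, and_true]
      constructor
      · rintro ⟨hd, e, _, rfl⟩
        exact ⟨e, Nat.dvd_of_mul_dvd_mul_left hq.pos hd, rfl⟩
      · rintro ⟨e, he, rfl⟩
        exact ⟨mul_dvd_mul_left q he, e, Dvd.dvd.mul_left he q, rfl⟩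
    · simp only [Finset.mem_inter, Nat.mem_divisors, Finset.mem_image, Finset.notMem_empty,
        iff_false, not_and]
      rintro ⟨hd, _⟩ ⟨e, _, rfl⟩
      exact h ((dvd_mul_right q e).trans hd)
  have hinj : ∀ s : Finset ℕ, ∑ d ∈ s.image (q * ·), g d = ∑ d ∈ s, g (q * d) := fun s =>
    Finset.sum_image fun a _ b _ h => Nat.eq_of_mul_eq_mul_left hq.pos h
  have := Finset.sum_union_inter (s₁ := m.divisors) (s₂ := m.divisors.image (q * ·)) (f := g)
  rw [← hunion, hinter, hinj] at this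
  split_ifs at this ⊢ with h
  · rwa [hinj] at this
  · simpa using this

theorem sigmaP_prime_mul {p q m : ℕ} (hp : p.Prime) (hq : q.Prime) (hqp : q ≠ p) :
    sigmaP p (q * m) =
      (1 + q) * sigmaP p m - if q ∣ m then (q : ℤ) * sigmaP p (m / q) else 0 := by
  rcases eq_or_ne m 0 with rfl | hm
  · simp [sigmaP]
  have hw : ∀ d, sigmaWt p (q * d) = q * sigmaWt p d := by
    intro d
    have : p ∣ q * d ↔ p ∣ d :=
      ⟨fun h => (hp.dvd_mul.mp h).resolve_left fun h' =>
        hqp ((Nat.prime_dvd_prime_iff_eq hp hq).mp h').symm, fun h => Dvd.dvd.mul_left h q⟩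
    unfold sigmaWt
    by_cases h : p ∣ d <;> simp [this, h]
  have := sum_divisors_prime_mul hq hm (sigmaWt p)
  simp only [hw, ← Finset.mul_sum] at this
  unfold sigmaP
  split_ifs at this ⊢ <;> linarith

theorem sigmaP_self_mul {p m : ℕ} (hp : p.Prime) : sigmaP p (p * m) = sigmaP p m := by
  rcases eq_or_ne m 0 with rfl | hm
  · simp [sigmaP]
  have hw : ∀ d, sigmaWt p (p * d) = 0 := fun d => by simp [sigmaWt]
  have := sum_divisors_prime_mul hp hm (sigmaWt p)
  simp only [hw, Finset.sum_const_zero, ite_self, add_zero] at this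
  exact this

end FLTAgent.Eisen
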