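import Fermat.Agent.Eisen.Duality
import Fermat.Agent.Eisen.Sigma
import Fermat.Prelude.Def_ModularCurve_ModularUnit

/-!
# The index of the Eisenstein ideal from congruences with integral cusp forms

`natCard_quotient_eq`: the quotient of the lattice Hecke algebra by the Eisenstein ideal is `ℤ`
modulo the values of the Eisenstein character on the relations. Congruent forms bound these values
from both sides (`dvd_eisChar_of_congr`, and `exists_congr_of_dvd` by duality), which gives
`natCard_quotient_eq_numerator`: the index is the Eisenstein numerator once a congruence modulo it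
exists and every congruence modulus divides it.
-/

set_option autoImplicit false
set_option linter.unusedSectionVars false

noncomputable section

open CongruenceSubgroup ModularFormClass CuspForm ModularCurve

namespace FLTAgent.Eisen

variable (p : ℕ) [Fact p.Prime]

/-- `X_ℓ ↦ T_ℓ` resp. `U_p` on the lattice. -/
def heckePi : HeckeAlg →+* ↥(heckeLatticeAlgebra p ∅) :=
  (latticeRestrictHom p ∅).toRingHom.comp (heckeEvalForms p 2)

/-- The Eisenstein character `X_ℓ ↦ 1 + ℓ`, `X_p ↦ 1`. -/
def eisChar : HeckeAlg →+* ℤ := (MvPolynomial.aeval (R := ℤ) (eisensteinSystem p)).toRingHom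

theorem ker_eisChar : RingHom.ker (eisChar p) = eisensteinIdeal p := rfl

theorem eisChar_surjective : Function.Surjective (eisChar p) := fun z =>
  ⟨MvPolynomial.C z, by simp [eisChar]⟩

theorem eisensteinSystem_self (h : (p : ℕ).Prime) : eisensteinSystem p ⟨p, h⟩ = 1 :=
  eisensteinSystem_of_dvd dvd_rfl

theorem heckePi_surjective : Function.Surjective (heckePi p) := by
  have h : Function.Surjective (heckeEvalForms p 2) := by
    rw [← RingHom.range_eq_top, eq_top_iff]
    rintro ⟨t, ht⟩ -
    induction ht using Algebra.adjoin_induction with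
    | mem T hT =>
      rcases hT with ⟨ℓ, hℓ, hℓN, hℓS, rfl⟩ | ⟨q, hqN, hq, hqS, rfl⟩
      · exact ⟨heckeGen ⟨ℓ, hℓ⟩, by
          rw [heckeEvalForms_heckeGen_of_not_dvd (ℓ := ⟨ℓ, hℓ⟩) hℓN]; rfl⟩
      · exact ⟨heckeGen ⟨q, hq⟩, by
          rw [heckeEvalForms_heckeGen_of_dvd (q := ⟨q, hq⟩) hqN]; rfl⟩
    | algebraMap r => exact ⟨MvPolynomial.C r, heckeEvalForms_C p 2 r⟩
    | add x y hx hy ihx ihy =>
      obtain ⟨a, ha⟩ := ihx
      obtain ⟨b, hb⟩ := ihy
      exact ⟨a + b, by rw [map_add, ha, hb]; rfl⟩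
    | mul x y hx hy ihx ihy =>
      obtain ⟨a, ha⟩ := ihx
      obtain ⟨b, hb⟩ := ihy
      exact ⟨a * b, by rw [map_mul, ha, hb]; rfl⟩
  exact (latticeRestrictHom_surjective p ∅).comp h

/-- The quotient by the Eisenstein ideal is `ℤ` modulo the values of the character on the kernel. -/
theorem natCard_quotient_eq :
    Nat.card (↥(heckeLatticeAlgebra p ∅) ⧸ Ideal.map (heckePi p) (eisensteinIdeal p)) =
      Nat.card (ℤ ⧸ Ideal.map (eisChar p) (RingHom.ker (heckePi p))) := by
  set K := RingHom.ker (heckePi p)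
  set E := eisensteinIdeal p
  let g : HeckeAlg →+* ↥(heckeLatticeAlgebra p ∅) ⧸ Ideal.map (heckePi p) E :=
    (Ideal.Quotient.mk _).comp (heckePi p)
  let g' : HeckeAlg →+* ℤ ⧸ Ideal.map (eisChar p) K := (Ideal.Quotient.mk _).comp (eisChar p)
  have hg : Function.Surjective g :=
    Ideal.Quotient.mk_surjective.comp (heckePi_surjective p)
  have hg' : Function.Surjective g' := Ideal.Quotient.mk_surjective.comp (eisChar_surjective p)
  have hker : RingHom.ker g = RingHom.ker g' := by
    rw [← RingHom.comap_ker, Ideal.mk_ker, ← RingHom.comap_ker, Ideal.mk_ker,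
      Ideal.comap_map_of_surjective _ (heckePi_surjective p),
      Ideal.comap_map_of_surjective _ (eisChar_surjective p),
      ← RingHom.ker_eq_comap_bot, ← RingHom.ker_eq_comap_bot, ker_eisChar, sup_comm]
  exact Nat.card_congr <| ((RingHom.quotientKerEquivOfSurjective hg).symm.trans
    ((Ideal.quotEquivOfEq hker).trans (RingHom.quotientKerEquivOfSurjective hg'))).toEquiv

/-- `a_m(f) ≡ σ'(m) mod d` for all `m ≥ 1`. -/
def IsEisCongr (d : ℤ) (f : ↥(intLattice p 2)) : Prop :=
  ∀ m : ℕ, m ≠ 0 → d ∣ coeffInt p m f - sigmaP p m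

theorem coeffInt_heckePi_gen (ℓ : Nat.Primes) (f : ↥(intLattice p 2)) (m : ℕ) :
    coeffInt p m ((heckePi p (heckeGen ℓ) : Module.End ℤ ↥(intLattice p 2)) f) =
      coeffInt p (m * ℓ) f +
        if (ℓ : ℕ) ∣ p then 0 else if (ℓ : ℕ) ∣ m then (ℓ : ℤ) * coeffInt p (m / ℓ) f else 0 := by
  refine coeffInt_eq p ?_
  have hcoe : (((heckePi p (heckeGen ℓ) : Module.End ℤ ↥(intLattice p 2)) f :
      ↥(intLattice p 2)) : CuspForm (Gamma0 p) 2) =
      (heckeFormsGen p 2 ℓ : Module.End ℂ (CuspForm (Gamma0 p) 2)) f := by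
    rw [← heckeEvalForms_heckeGen]
    exact coe_latticeRestrictHom_apply p _ f
  rw [hcoe]
  by_cases hℓ : (ℓ : ℕ) ∣ p
  · rw [if_pos hℓ, heckeFormsGen_of_dvd hℓ, heckeAlgebra.coe_U, CuspForm.coe_heckeULin_apply,
      ModularFormClass.qCoeff_heckeU (f : CuspForm (Gamma0 p) 2) (IntStr.one_mem_periods p)
        ℓ.2.ne_zero, ModularForm.coeffHeckeU_apply, coeffInt_spec]
    simp
  · rw [if_neg hℓ, heckeFormsGen_of_not_dvd hℓ, heckeAlgebra.coe_T, CuspForm.coe_heckeTLin_apply,
      ModularFormClass.qCoeff_heckeT (f : CuspForm (Gamma0 p) 2) (IntStr.one_mem_periods p)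
        ℓ.2.ne_zero, ModularForm.coeffHeckeT_apply, coeffInt_spec]
    split_ifs with hm
    · rw [coeffInt_spec]; norm_num
    · simp

theorem eisensteinSystem_sigmaP (ℓ : Nat.Primes) (m : ℕ) :
    sigmaP p (m * ℓ) + (if (ℓ : ℕ) ∣ p then 0 else
        if (ℓ : ℕ) ∣ m then (ℓ : ℤ) * sigmaP p (m / ℓ) else 0) =
      eisensteinSystem p ℓ * sigmaP p m := by
  have hp : p.Prime := Fact.out
  rw [mul_comm m]
  by_cases hℓ : (ℓ : ℕ) ∣ p
  · have h : (ℓ : ℕ) = p := (Nat.prime_dvd_prime_iff_eq ℓ.2 hp).mp hℓ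
    rw [if_pos hℓ, eisensteinSystem_of_dvd hℓ, h, sigmaP_self_mul hp]
    ring
  · have h : (ℓ : ℕ) ≠ p := fun h => hℓ (h ▸ dvd_rfl)
    rw [if_neg hℓ, eisensteinSystem_of_not_dvd hℓ, sigmaP_prime_mul hp ℓ.2 h]
    split_ifs <;> ring

theorem coeffInt_zero (f : ↥(intLattice p 2)) : coeffInt p 0 f = 0 :=
  coeffInt_eq p (by rw [IntStr.qCoeff_index_zero]; simp)

/-- Lower bound: a congruent integral form bounds the kernel of the character from below. -/
theorem dvd_eisChar_of_congr {d : ℤ} {f : ↥(intLattice p 2)} (hf : IsEisCongr p d f)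
    {P : HeckeAlg} (hP : heckePi p P = 0) : d ∣ eisChar p P := by
  have hp : p.Prime := Fact.out
  have key : ∀ Q : HeckeAlg, ∀ m : ℕ,
      d ∣ coeffInt p m ((heckePi p Q : Module.End ℤ ↥(intLattice p 2)) f) -
        eisChar p Q * sigmaP p m := by
    intro Q
    induction Q using MvPolynomial.induction_on with
    | C a =>
      intro m
      have h1 : eisChar p (MvPolynomial.C a) = a := by simp [eisChar]
      have h2 : heckePi p (MvPolynomial.C a) = algebraMap ℤ _ a := by
        simp [heckePi]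
      rw [h1, h2]
      rcases eq_or_ne m 0 with rfl | hm
      · rw [coeffInt_zero, sigmaP_zero]; simp
      have h3 : coeffInt p m (((algebraMap ℤ ↥(heckeLatticeAlgebra p ∅) a : _) :
          Module.End ℤ ↥(intLattice p 2)) f) = a * coeffInt p m f := by
        rw [← smul_eq_mul, ← coeffIntLin_apply, ← coeffIntLin_apply, ← map_smul]
        rfl
      rw [h3, ← mul_sub]
      exact Dvd.dvd.mul_left (hf m hm) a
    | add P Q hP hQ =>
      intro m
      have : coeffInt p m ((heckePi p (P + Q) : Module.End ℤ ↥(intLattice p 2)) f) =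
          coeffInt p m ((heckePi p P : Module.End ℤ ↥(intLattice p 2)) f) +
            coeffInt p m ((heckePi p Q : Module.End ℤ ↥(intLattice p 2)) f) := by
        rw [map_add, Subalgebra.coe_add, LinearMap.add_apply]
        exact map_add (coeffIntLin p m) _ _
      rw [this, map_add]
      obtain ⟨a, ha⟩ := hP m
      obtain ⟨b, hb⟩ := hQ m
      exact ⟨a + b, by linear_combination ha + hb⟩
    | mul_X Q ℓ hQ =>
      intro m
      have hX : eisChar p (Q * MvPolynomial.X ℓ) = eisensteinSystem p ℓ * eisChar p Q := by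
        simp [eisChar, mul_comm]
      have hop : (heckePi p (Q * MvPolynomial.X ℓ) : Module.End ℤ ↥(intLattice p 2)) f =
          (heckePi p (heckeGen ℓ) : Module.End ℤ ↥(intLattice p 2))
            ((heckePi p Q : Module.End ℤ ↥(intLattice p 2)) f) := by
        rw [mul_comm Q, map_mul]
        rfl
      rw [hop, coeffInt_heckePi_gen, hX, mul_right_comm, mul_comm _ (eisChar p Q),
        ← eisensteinSystem_sigmaP]
      obtain ⟨a, ha⟩ := hQ (m * ℓ)
      obtain ⟨b, hb⟩ := hQ (m / ℓ)
      by_cases h1 : (ℓ : ℕ) ∣ p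
      · rw [if_pos h1, if_pos h1]
        exact ⟨a, by linear_combination ha⟩
      · rw [if_neg h1, if_neg h1]
        by_cases h2 : (ℓ : ℕ) ∣ m
        · rw [if_pos h2, if_pos h2]
          exact ⟨a + ℓ * b, by linear_combination ha + (ℓ : ℤ) * hb⟩
        · rw [if_neg h2, if_neg h2]
          exact ⟨a, by linear_combination ha⟩
  have := key P 1
  rw [hP, sigmaP_one hp, mul_one] at this
  have h0 : coeffInt p 1 (((0 : ↥(heckeLatticeAlgebra p ∅)) :
      Module.End ℤ ↥(intLattice p 2)) f) = 0 := map_zero (coeffIntLin p 1)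
  rw [h0, zero_sub] at this
  exact dvd_neg.mp this

/-- Upper bound: any common divisor of the character on the kernel gives a congruent form. -/
theorem exists_congr_of_dvd {d : ℕ}
    (hd : ∀ P : HeckeAlg, heckePi p P = 0 → (d : ℤ) ∣ eisChar p P) :
    ∃ f : ↥(intLattice p 2), IsEisCongr p d f := by
  have hp : p.Prime := Fact.out
  let χ : HeckeAlg →+* ZMod d := (Int.castRingHom (ZMod d)).comp (eisChar p)
  have hker : RingHom.ker (heckePi p) ≤ RingHom.ker χ := fun P hP => by
    rw [RingHom.mem_ker] at hP ⊢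
    exact (ZMod.intCast_zmod_eq_zero_iff_dvd _ _).mpr (hd P hP)
  let φ₀ : ↥(heckeLatticeAlgebra p ∅) →+* ZMod d :=
    RingHom.liftOfSurjective (heckePi p) (heckePi_surjective p) ⟨χ, hker⟩
  have hφ₀ : ∀ P, φ₀ (heckePi p P) = χ P := fun P =>
    RingHom.liftOfRightInverse_comp_apply _ _ (Function.rightInverse_surjInv _) ⟨χ, hker⟩ P
  obtain ⟨φ, hφ⟩ := Module.projective_lifting_property (Int.castAddHom (ZMod d)).toIntLinearMap
    φ₀.toAddMonoidHom.toIntLinearMap ZMod.intCast_surjective
  obtain ⟨f, hf⟩ := latPairing_surjective p φ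
  refine ⟨f, ?_⟩
  have hpair : ∀ t, ((latPairing p f t : ℤ) : ZMod d) = φ₀ t := fun t => by
    rw [hf]; exact LinearMap.congr_fun hφ t
  have key : ∀ m : ℕ, ∀ t : ↥(heckeLatticeAlgebra p ∅),
      ((coeffInt p m ((t : Module.End ℤ ↥(intLattice p 2)) f) : ℤ) : ZMod d) =
        φ₀ t * (sigmaP p m : ZMod d) := by
    intro m
    induction m using Nat.strong_induction_on with
    | h m ih =>
      intro t
      rcases eq_or_ne m 0 with rfl | hm
      · rw [coeffInt_zero, sigmaP_zero]; simp
      rcases eq_or_ne m 1 with rfl | hm1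
      · rw [sigmaP_one hp, Int.cast_one, mul_one, ← latPairing_apply, hpair]
      obtain ⟨q, hq, hqm⟩ := Nat.exists_prime_and_dvd hm1
      obtain ⟨k, rfl⟩ := hqm
      have hk : k ≠ 0 := fun h => hm (by simp [h])
      have hlt : k < q * k := lt_mul_left (Nat.pos_of_ne_zero hk) hq.one_lt
      have hgen := coeffInt_heckePi_gen p ⟨q, hq⟩ ((t : Module.End ℤ ↥(intLattice p 2)) f) k
      have hmul := ih k hlt (heckePi p (heckeGen ⟨q, hq⟩) * t)
      have hcoe : ((heckePi p (heckeGen ⟨q, hq⟩) * t : ↥(heckeLatticeAlgebra p ∅)) :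
          Module.End ℤ ↥(intLattice p 2)) f =
          (heckePi p (heckeGen ⟨q, hq⟩) : Module.End ℤ ↥(intLattice p 2))
            ((t : Module.End ℤ ↥(intLattice p 2)) f) := rfl
      rw [hcoe, hgen, map_mul, hφ₀] at hmul
      have hχ : χ (heckeGen ⟨q, hq⟩) = (eisensteinSystem p ⟨q, hq⟩ : ZMod d) := by
        simp [χ, eisChar, heckeGen]
      have hσ := congrArg (fun z : ℤ => (z : ZMod d)) (eisensteinSystem_sigmaP p ⟨q, hq⟩ k)
      simp only at hσ
      rw [hχ] at hmul
      rw [mul_comm k] at hmul hσ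
      by_cases h1 : q ∣ p
      · simp only [if_pos h1] at hmul hσ
        push_cast at hmul hσ
        rw [add_zero] at hmul hσ
        rw [hmul, hσ]
        ring
      · simp only [if_neg h1] at hmul hσ
        by_cases h2 : q ∣ k
        · simp only [if_pos h2] at hmul hσ
          push_cast at hmul hσ
          rw [ih (k / q) ((Nat.div_le_self k q).trans_lt hlt) t] at hmul
          linear_combination hmul - φ₀ t * hσ
        · simp only [if_neg h2] at hmul hσ
          push_cast at hmul hσ
          rw [add_zero] at hmul hσ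
          rw [hmul, hσ]
          ring
  intro m _
  have := key m 1
  rw [map_one, one_mul] at this
  have h1 : (((1 : ↥(heckeLatticeAlgebra p ∅)) : Module.End ℤ ↥(intLattice p 2)) f) = f := rfl
  rw [h1] at this
  exact (ZMod.intCast_eq_intCast_iff_dvd_sub _ _ _).mp this.symm

theorem eisensteinNumerator_pos : 0 < eisensteinNumerator p := by
  have hp : p.Prime := Fact.out
  have h1 : 0 < p - 1 := by have := hp.two_le; omega
  exact Nat.div_pos (Nat.le_of_dvd h1 (Nat.gcd_dvd_left _ _))
    (Nat.gcd_pos_of_pos_left _ h1)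

/-- The criterion. -/
theorem natCard_quotient_eq_numerator
    (hlow : ∃ f : ↥(intLattice p 2), IsEisCongr p (eisensteinNumerator p) f)
    (hup : ∀ (d : ℕ) (f : ↥(intLattice p 2)), 0 < d → IsEisCongr p d f →
      d ∣ eisensteinNumerator p) :
    Nat.card (↥(heckeLatticeAlgebra p ∅) ⧸ Ideal.map (heckePi p) (eisensteinIdeal p)) =
      eisensteinNumerator p := by
  rw [natCard_quotient_eq]
  obtain ⟨g, hg⟩ := (IsPrincipalIdealRing.principal
    (Ideal.map (eisChar p) (RingHom.ker (heckePi p))))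
  obtain ⟨f, hf⟩ := hlow
  have hmem : ∀ P : HeckeAlg, heckePi p P = 0 → g ∣ eisChar p P := fun P hP => by
    rw [← Ideal.mem_span_singleton, ← Ideal.submodule_span_eq, ← hg]
    exact Ideal.mem_map_of_mem _ hP
  have hlow' : (eisensteinNumerator p : ℤ) ∣ g := by
    rw [← Ideal.mem_span_singleton]
    have : Ideal.map (eisChar p) (RingHom.ker (heckePi p)) ≤
        Ideal.span {(eisensteinNumerator p : ℤ)} := by
      refine Ideal.map_le_iff_le_comap.mpr fun P hP => ?_
      rw [Ideal.mem_comap, Ideal.mem_span_singleton]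
      exact dvd_eisChar_of_congr p hf hP
    exact this (hg ▸ Submodule.mem_span_singleton_self g)
  have hg0 : g ≠ 0 := by
    rintro rfl
    obtain ⟨f', hf'⟩ := exists_congr_of_dvd p (d := eisensteinNumerator p + 1)
      fun P hP => by rw [zero_dvd_iff.mp (hmem P hP)]; exact dvd_zero _
    have := Nat.le_of_dvd (eisensteinNumerator_pos p) (hup _ f' (Nat.succ_pos _) hf')
    omega
  obtain ⟨f', hf'⟩ := exists_congr_of_dvd p (d := g.natAbs) fun P hP =>
    Int.natAbs_dvd.mpr (hmem P hP)
  have habs : g.natAbs = eisensteinNumerator p :=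
    Nat.dvd_antisymm (hup _ f' (Int.natAbs_pos.mpr hg0) hf') (Int.natCast_dvd.mp hlow')
  rw [hg, Ideal.submodule_span_eq]
  rw [Nat.card_congr (Int.quotientSpanEquivZMod g).toEquiv, Nat.card_zmod, habs]

end FLTAgent.Eisen
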