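import Fermat.Agent.Eisen.Scale
import Fermat.Agent.Eisen.Sigma

/-!
# The Eisenstein series of weight two and level `p`

`eisP = (p E₂(pτ) - E₂(τ))/24` has the expansion `(p - 1)/24 + ∑ σ'(m) qᵐ` (`hasQ_eisP`), is
invariant under `Γ₀(p)` (`eisP_invariant`), transforms under Fricke by `fricke_eisP`, and is the
modular form `eisForm`.
-/

set_option autoImplicit false

open UpperHalfPlane CongruenceSubgroup Matrix.SpecialLinearGroup
open scoped MatrixGroups ModularForm Manifold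

noncomputable section

namespace FLTAgent.Eisen

/-- The series `1 - 24 ∑ σ(n) qⁿ`. -/
def e2Series : PowerSeries ℂ :=
  PowerSeries.mk fun m => if m = 0 then 1 else -24 * (ArithmeticFunction.sigma 1 m : ℂ)

theorem hasQ_E2 : HasQ 1 EisensteinSeries.E2 e2Series := fun τ => by
  simpa [e2Series, smul_eq_mul, Function.Periodic.qParam] using
    EisensteinSeries.hasSum_qExpansion_E2 (z := τ)

variable (p : ℕ) [Fact p.Prime]

/-- `(p E₂(pτ) - E₂(τ)) / 24`. -/
def eisP : ℍ → ℂ :=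
  (1 / 24 : ℂ) • ((p : ℂ) • (fun τ => EisensteinSeries.E2 (scaleH p (natCast_posR p) τ)) -
    EisensteinSeries.E2)

/-- `(p - 1)/24 + ∑ σ'(m) qᵐ`. -/
def eisSeries : PowerSeries ℂ :=
  PowerSeries.mk fun m => if m = 0 then ((p : ℂ) - 1) / 24 else (sigmaP p m : ℂ)

theorem sigma_one_eq (m : ℕ) :
    (ArithmeticFunction.sigma 1 m : ℤ) = sigmaP p m +
      if p ∣ m then (p : ℤ) * (ArithmeticFunction.sigma 1 (m / p) : ℤ) else 0 := by
  have hp : p.Prime := Fact.out
  rcases eq_or_ne m 0 with rfl | hm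
  · simp [sigmaP]
  simp only [ArithmeticFunction.sigma_apply, pow_one, Nat.cast_sum]
  have h1 : ∑ d ∈ m.divisors, (d : ℤ) = sigmaP p m +
      ∑ d ∈ m.divisors, if p ∣ d then (d : ℤ) else 0 := by
    unfold sigmaP
    rw [← Finset.sum_add_distrib]
    exact Finset.sum_congr rfl fun d _ => by unfold sigmaWt; split_ifs <;> simp
  rw [h1]
  congr 1
  rw [← Finset.sum_filter]
  split_ifs with h
  · obtain ⟨k, rfl⟩ := h
    have hk : k ≠ 0 := fun h0 => hm (by simp [h0])
    rw [Nat.mul_div_cancel_left k hp.pos, Finset.mul_sum]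
    have himg : (p * k).divisors.filter (p ∣ ·) = k.divisors.image (p * ·) := by
      ext d
      simp only [Finset.mem_filter, Nat.mem_divisors, Finset.mem_image]
      constructor
      · rintro ⟨⟨hd, _⟩, e, rfl⟩
        exact ⟨e, ⟨Nat.dvd_of_mul_dvd_mul_left hp.pos hd, hk⟩, rfl⟩
      · rintro ⟨e, ⟨he, _⟩, rfl⟩
        exact ⟨⟨mul_dvd_mul_left p he, hm⟩, dvd_mul_right p e⟩
    rw [himg, Finset.sum_image fun a _ b _ h => Nat.eq_of_mul_eq_mul_left hp.pos h]
    push_cast
    rfl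
  · refine Finset.sum_eq_zero fun d hd => ?_
    rw [Finset.mem_filter, Nat.mem_divisors] at hd
    exact absurd (hd.2.trans hd.1.1) h

/-- The expansion of `eisP` at infinity. -/
theorem hasQ_eisP : HasQ 1 (eisP p) (eisSeries p) := by
  have hp : p.Prime := Fact.out
  have h := ((((hasQ_E2).scaleNat one_ne_zero p).smul (p : ℂ)).sub hasQ_E2).smul (1 / 24 : ℂ)
  suffices e : eisSeries p = (1 / 24 : ℂ) •
      ((p : ℂ) • PowerSeries.expand p (NeZero.ne p) e2Series - e2Series) by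
    rw [e]
    exact h
  ext m
  have hs : (ArithmeticFunction.sigma 1 m : ℂ) = (sigmaP p m : ℂ) +
      if p ∣ m then (p : ℂ) * (ArithmeticFunction.sigma 1 (m / p) : ℂ) else 0 := by
    have := congrArg (Int.cast (R := ℂ)) (sigma_one_eq p m)
    push_cast [apply_ite (Int.cast (R := ℂ))] at this
    exact this
  simp only [eisSeries, e2Series, PowerSeries.coeff_mk, map_smul, map_sub, smul_eq_mul,
    PowerSeries.coeff_expand]
  rcases eq_or_ne m 0 with rfl | hm
  · simp; ring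
  · simp only [if_neg hm]
    by_cases hd : p ∣ m
    · have hmp : m / p ≠ 0 := (Nat.div_pos (Nat.le_of_dvd (Nat.pos_of_ne_zero hm) hd) hp.pos).ne'
      rw [if_pos hd] at hs
      rw [if_pos hd, if_neg hmp]
      linear_combination -hs
    · rw [if_neg hd] at hs
      rw [if_neg hd]
      linear_combination -hs

theorem E2_smul (γ : SL(2, ℤ)) (τ : ℍ) :
    EisensteinSeries.E2 (γ • τ) * denom γ τ ^ (-(2 : ℤ)) =
      EisensteinSeries.E2 τ -
        1 / (2 * riemannZeta 2) * (2 * Real.pi * Complex.I * (γ 1 0 : ℤ) / denom γ τ) := by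
  rw [← ModularForm.SL_slash_apply, EisensteinSeries.E2_slash_action]
  rfl

theorem eisP_invariant {γ : SL(2, ℤ)} (hγ : γ ∈ Gamma0 p) : eisP p ∣[(2 : ℤ)] γ = eisP p := by
  obtain ⟨γ', h00, h01, h10, h11⟩ := exists_scaled p hγ
  funext τ
  have h1 := E2_smul γ τ
  have h2 := E2_smul γ' (scaleH p (natCast_posR p) τ)
  rw [← smul_scaleH p γ γ' h00 h01 h10 h11, denom_scaleH p γ γ' h10 h11] at h2
  have h3 : ((γ 1 0 : ℤ) : ℂ) = (p : ℂ) * (γ' 1 0 : ℤ) := by rw [h10]; push_cast; rfl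
  rw [h3] at h1
  rw [ModularForm.SL_slash_apply]
  simp only [eisP, Pi.smul_apply, Pi.sub_apply, smul_eq_mul]
  linear_combination (1 / 24 : ℂ) * ((p : ℂ) * h2 - h1)

theorem S_smul_coe (τ : ℍ) : ((ModularGroup.S • τ : ℍ) : ℂ) = -1 / (τ : ℂ) := by
  rw [modular_S_smul]
  simp [neg_div, inv_neg]

/-- `eisP` is anti-invariant under the Fricke involution. -/
theorem fricke_eisP : fricke p 2 (eisP p) = -eisP p := by
  funext τ
  have hp : (p : ℂ) ≠ 0 := Nat.cast_ne_zero.mpr (NeZero.ne p)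
  set σ := scaleH p (natCast_posR p) τ with hσ
  have h1 := E2_smul ModularGroup.S σ
  have h2 := E2_smul ModularGroup.S τ
  have hpt : scaleH p (natCast_posR p) (ModularGroup.S • σ) = ModularGroup.S • τ := by
    apply UpperHalfPlane.ext
    rw [coe_scaleH, S_smul_coe, S_smul_coe, hσ, coe_scaleH]
    push_cast
    field_simp
  have hdσ : denom ModularGroup.S σ = (p : ℂ) * (τ : ℂ) := by
    rw [ModularGroup.denom_S, hσ, coe_scaleH]; push_cast; rfl
  have hS : ((ModularGroup.S 1 0 : ℤ) : ℂ) = 1 := by simp [ModularGroup.coe_S]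
  rw [hdσ, hS] at h1
  rw [ModularGroup.denom_S, hS] at h2
  have hτ : (τ : ℂ) ≠ 0 := UpperHalfPlane.ne_zero τ
  simp only [fricke, ← hσ, ModularForm.SL_slash_apply, eisP, Pi.smul_apply, Pi.sub_apply,
    Pi.neg_apply, smul_eq_mul, hpt, hdσ]
  generalize EisensteinSeries.E2 (ModularGroup.S • σ) = A at h1 ⊢
  generalize EisensteinSeries.E2 (ModularGroup.S • τ) = B at h2 ⊢
  generalize EisensteinSeries.E2 σ = X at h1 ⊢
  generalize EisensteinSeries.E2 τ = Y at h2 ⊢
  generalize (1 : ℂ) / (2 * riemannZeta 2) * (2 * (Real.pi : ℂ) * Complex.I) = κ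
  rw [show (2 : ℤ) - 1 = 1 by norm_num, zpow_one] at *
  simp only [zpow_neg, zpow_two] at *
  field_simp at h1 h2 ⊢
  linear_combination (p : ℂ) * h2 - h1

theorem hasQ_eisP_S :
    HasQ p (eisP p ∣[(2 : ℤ)] ModularGroup.S) ((p : ℂ) ^ (1 - (2 : ℤ)) • -eisSeries p) :=
  HasQ.slash_S_of_fricke p (by rw [fricke_eisP]; exact (hasQ_eisP p).neg)

/-- The Eisenstein form. -/
def eisForm : ModularForm (Gamma0 p) 2 :=
  mkFormP p (eisP p) (fun _ => eisP_invariant p) (hasQ_eisP p) (hasQ_eisP_S p)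

theorem coe_eisForm : ⇑(eisForm p) = eisP p := rfl

end FLTAgent.Eisen
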