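import Mathlib

/-!
# Gaussian sums over a diagonalised four dimensional lattice

The one dimensional Gaussian terms, their sums by the transformation of the Jacobi theta function,
and `hasSum_gTermDual_prod`: four dimensional sums transform as a weight two object.
-/

set_option autoImplicit false

open Complex UpperHalfPlane Real Filter Topology

noncomputable section

namespace FLTAgent.Eisen

/-- `exp (2πi z)`. -/
def ee (z : ℂ) : ℂ := Complex.exp (2 * π * Complex.I * z)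

theorem ee_add (z w : ℂ) : ee (z + w) = ee z * ee w := by
  rw [ee, ee, ee, ← Complex.exp_add]; ring_nf

theorem ee_zero : ee 0 = 1 := by simp [ee]

theorem ee_int (n : ℤ) : ee (n : ℂ) = 1 := by
  rw [ee, show 2 * (π : ℂ) * Complex.I * (n : ℂ) = (n : ℂ) * (2 * π * Complex.I) by ring]
  exact Complex.exp_int_mul_two_pi_mul_I n

theorem ee_sum {ι : Type*} (s : Finset ι) (f : ι → ℂ) : ee (∑ i ∈ s, f i) = ∏ i ∈ s, ee (f i) := by
  classical
  induction s using Finset.induction_on with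
  | empty => simp [ee_zero]
  | insert a s ha ih => rw [Finset.sum_insert ha, Finset.prod_insert ha, ee_add, ih]

theorem ee_nat_mul (n : ℕ) (z : ℂ) : ee ((n : ℂ) * z) = ee z ^ n := by
  rw [ee, ee, ← Complex.exp_nat_mul]; ring_nf

/-- The one dimensional Gaussian term. -/
def gTerm (al be y : ℝ) (τ : ℂ) (u : ℤ) : ℂ :=
  ee (u * be + (al : ℂ) * ((u : ℂ) + y) ^ 2 * τ)

/-- The dual one dimensional Gaussian term. -/
def gTermDual (al be y : ℝ) (τ : ℂ) (j : ℤ) : ℂ :=
  ee (((j : ℂ) - be) ^ 2 * τ / (4 * al) + ((j : ℂ) - be) * y)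

theorem gTerm_eq_theta (al be y : ℝ) (τ : ℂ) (u : ℤ) :
    gTerm al be y τ u =
      ee ((al : ℂ) * y ^ 2 * τ) * jacobiTheta₂_term u ((be : ℂ) + 2 * al * y * τ) (2 * al * τ) := by
  rw [gTerm, jacobiTheta₂_term, ee, ee, ← Complex.exp_add]
  congr 1
  ring

theorem hasSum_gTerm {al : ℝ} (hal : 0 < al) (be y : ℝ) {τ : ℂ} (hτ : 0 < τ.im) :
    HasSum (gTerm al be y τ)
      (ee ((al : ℂ) * y ^ 2 * τ) *
        jacobiTheta₂ ((be : ℂ) + 2 * al * y * τ) (2 * al * τ)) := by
  have him : 0 < (2 * (al : ℂ) * τ).im := by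
    rw [show 2 * (al : ℂ) * τ = ((2 * al : ℝ) : ℂ) * τ by push_cast; ring, Complex.im_ofReal_mul]
    positivity
  exact ((hasSum_jacobiTheta₂_term _ him).mul_left _).congr_fun fun u => gTerm_eq_theta al be y τ u

theorem summable_norm_gTerm {al : ℝ} (hal : 0 < al) (be y : ℝ) {τ : ℂ} (hτ : 0 < τ.im) :
    Summable fun u => ‖gTerm al be y τ u‖ :=
  (hasSum_gTerm hal be y hτ).summable.norm

theorem hasSum_gTermDual {al : ℝ} (hal : 0 < al) (be y : ℝ) {τ : ℂ} (hτ : 0 < τ.im) :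
    HasSum (gTermDual al be y τ)
      (((2 * al : ℝ) : ℂ) ^ (1 / 2 : ℂ) * (Complex.I / τ) ^ (1 / 2 : ℂ) *
        ∑' u, gTerm al be y (-1 / τ) u) := by
  have hτ0 : τ ≠ 0 := fun h => by simp [h] at hτ
  have him' : 0 < (-1 / τ).im := by
    rw [neg_div, Complex.neg_im, one_div, Complex.inv_im, neg_div, neg_neg]
    exact div_pos hτ (Complex.normSq_pos.mpr hτ0)
  set T : ℂ := 2 * al * (-1 / τ) with hT
  have hal0 : (al : ℂ) ≠ 0 := Complex.ofReal_ne_zero.mpr hal.ne'
  have hT0 : T ≠ 0 := by rw [hT]; simp [hal0, hτ0]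
  have hT' : -1 / T = τ / (2 * al) := by rw [hT]; field_simp
  have him2 : 0 < (-1 / T).im := by
    rw [hT', show τ / (2 * (al : ℂ)) = ((1 / (2 * al) : ℝ) : ℂ) * τ by push_cast; ring,
      Complex.im_ofReal_mul]
    positivity
  set z : ℂ := (be : ℂ) + 2 * al * y * (-1 / τ) with hz
  have hfe := jacobiTheta₂_functional_equation z T
  have hsum := (hasSum_gTerm hal be y him').tsum_eq
  rw [← hz, ← hT] at hsum
  have hterm : ∀ j : ℤ, gTermDual al be y τ j =
      ee ((al : ℂ) * y ^ 2 * (-1 / τ)) * Complex.exp (-π * Complex.I * z ^ 2 / T) *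
        jacobiTheta₂_term j (z / T) (-1 / T) := by
    intro j
    rw [gTermDual, jacobiTheta₂_term, ee, ee, ← Complex.exp_add, ← Complex.exp_add]
    congr 1
    rw [hz, hT]
    field_simp
    ring
  have key : HasSum (gTermDual al be y τ)
      (ee ((al : ℂ) * y ^ 2 * (-1 / τ)) * Complex.exp (-π * Complex.I * z ^ 2 / T) *
        jacobiTheta₂ (z / T) (-1 / T)) :=
    ((hasSum_jacobiTheta₂_term _ him2).mul_left _).congr_fun hterm
  convert key using 1
  rw [hsum, hfe]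
  have hw : (-Complex.I * T) = ((2 * al : ℝ) : ℂ) * (Complex.I / τ) := by
    rw [hT]; push_cast; ring
  have hcp : (-Complex.I * T) ^ (1 / 2 : ℂ) =
      ((2 * al : ℝ) : ℂ) ^ (1 / 2 : ℂ) * (Complex.I / τ) ^ (1 / 2 : ℂ) := by
    have hr : (0 : ℝ) < 2 * al := by positivity
    have hne : Complex.I / τ ≠ 0 := div_ne_zero Complex.I_ne_zero hτ0
    have hrC : ((2 * al : ℝ) : ℂ) ≠ 0 := Complex.ofReal_ne_zero.mpr hr.ne'
    rw [hw, Complex.cpow_def_of_ne_zero (mul_ne_zero hrC hne), Complex.cpow_def_of_ne_zero hrC,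
      Complex.cpow_def_of_ne_zero hne, ← Complex.exp_add, Complex.log_ofReal_mul hr hne,
      ← Complex.ofReal_log hr.le, add_mul]
  rw [hcp]
  have h1 : ((2 * al : ℝ) : ℂ) ^ (1 / 2 : ℂ) ≠ 0 := by
    rw [Ne, Complex.cpow_eq_zero_iff]; simp [hal.ne']
  have h2 : (Complex.I / τ) ^ (1 / 2 : ℂ) ≠ 0 := by
    rw [Ne, Complex.cpow_eq_zero_iff]; simp [hτ0]
  field_simp

theorem summable_norm_gTermDual {al : ℝ} (hal : 0 < al) (be y : ℝ) {τ : ℂ} (hτ : 0 < τ.im) :
    Summable fun j => ‖gTermDual al be y τ j‖ :=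
  (hasSum_gTermDual hal be y hτ).summable.norm

/-- Products of summable families over `Fin n → ℤ`. -/
theorem hasSum_pi_prod : ∀ {n : ℕ} (f : Fin n → ℤ → ℂ), (∀ i, Summable fun u => ‖f i u‖) →
    HasSum (fun v : Fin n → ℤ => ∏ i, f i (v i)) (∏ i, ∑' u, f i u) ∧
      Summable (fun v : Fin n → ℤ => ‖∏ i, f i (v i)‖) := by
  intro n
  induction n with
  | zero =>
    intro f _
    refine ⟨?_, ?_⟩
    · simp
    · exact Summable.of_finite
  | succ n ih =>
    intro f hf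
    obtain ⟨h1, h2⟩ := ih (fun i => f i.succ) fun i => hf i.succ
    let g : (Fin n → ℤ) → ℂ := fun v => ∏ i, f i.succ (v i)
    have hmul : Summable fun x : ℤ × (Fin n → ℤ) => ‖f 0 x.1 * g x.2‖ :=
      Summable.mul_norm (R := ℂ) (f := f 0) (g := g) (hf 0) h2
    have h0 : HasSum (f 0) (∑' u, f 0 u) := (Summable.of_norm (hf 0)).hasSum
    have hsum : HasSum (fun x : ℤ × (Fin n → ℤ) => f 0 x.1 * g x.2)
        ((∑' u, f 0 u) * ∏ i, ∑' u, f (Fin.succ i) u) :=
      HasSum.mul h0 h1 (Summable.of_norm hmul)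
    let e := Fin.consEquiv (fun _ : Fin (n + 1) => ℤ)
    refine ⟨?_, ?_⟩
    · rw [← e.hasSum_iff, Fin.prod_univ_succ (f := fun i => ∑' u, f i u)]
      refine hsum.congr_fun fun x => ?_
      simp [e, g, Fin.consEquiv, Fin.prod_univ_succ]
    · rw [← e.summable_iff]
      refine hmul.congr fun x => ?_
      simp [e, g, Fin.consEquiv, Fin.prod_univ_succ]

theorem sqrt_pow_four {a : ℂ} : (a ^ (1 / 2 : ℂ)) ^ 4 = a ^ 2 := by
  have h : (a ^ (1 / 2 : ℂ)) ^ 2 = a := by
    rw [one_div, show (2 : ℂ) = ((2 : ℕ) : ℂ) by norm_num]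
    exact Complex.cpow_nat_inv_pow a two_ne_zero
  rw [show 4 = 2 * 2 by norm_num, pow_mul, h]

/-- Four dimensional Gaussian sums transform as a weight two object. -/
theorem hasSum_gTermDual_prod (al be y : Fin 4 → ℝ) (hal : ∀ i, 0 < al i) {τ : ℂ}
    (hτ : 0 < τ.im) :
    HasSum (fun j : Fin 4 → ℤ => ∏ i, gTermDual (al i) (be i) (y i) τ (j i))
      (-((Real.sqrt (∏ i, 2 * al i) : ℝ) : ℂ) / τ ^ 2 *
        ∏ i, ∑' u, gTerm (al i) (be i) (y i) (-1 / τ) u) := by
  have h := (hasSum_pi_prod (fun i => gTermDual (al i) (be i) (y i) τ)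
    fun i => summable_norm_gTermDual (hal i) (be i) (y i) hτ).1
  convert h using 1
  rw [Finset.prod_congr rfl fun i _ => (hasSum_gTermDual (hal i) (be i) (y i) hτ).tsum_eq,
    Finset.prod_mul_distrib, Finset.prod_mul_distrib]
  congr 1
  have hpos : ∀ i, (0 : ℝ) ≤ 2 * al i := fun i => by have := hal i; positivity
  have hs : ∀ i, ((2 * al i : ℝ) : ℂ) ^ (1 / 2 : ℂ) = ((Real.sqrt (2 * al i) : ℝ) : ℂ) := by
    intro i
    rw [Real.sqrt_eq_rpow, Complex.ofReal_cpow (hpos i)]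
    norm_num
  simp only [hs]
  simp only [Finset.prod_mul_distrib, Finset.prod_const, Finset.card_univ, Fintype.card_fin,
    sqrt_pow_four]
  rw [← Complex.ofReal_prod,
    ← Real.sqrt_prod (Finset.univ : Finset (Fin 4)) fun i _ => hpos i, div_pow, Complex.I_sq]
  simp only [Finset.prod_mul_distrib, Finset.prod_const, Finset.card_univ, Fintype.card_fin]
  ring

end FLTAgent.Eisen
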