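import Fermat.Agent.Eisen.ThetaForm
import Fermat.Agent.Eisen.Eisenstein
import Fermat.Agent.Eisen.Criterion

/-!
# A cusp form congruent to the Eisenstein series

`exists_congr`: an integral cusp form of weight two and level `p` congruent to the Eisenstein series
modulo the Eisenstein numerator, obtained from expansions at the two cusps (`mkCuspP`); the case
`p ≠ 2` is `exists_congr_of_ne_two`.
-/

set_option autoImplicit false
set_option linter.unusedSectionVars false

open UpperHalfPlane CongruenceSubgroup Matrix.SpecialLinearGroup ModularFormClass CuspForm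
  ModularCurve
open scoped MatrixGroups ModularForm Manifold

noncomputable section

namespace FLTAgent.Eisen

variable (p : ℕ) [Fact p.Prime]

theorem zero_slash_of_constant {k : ℤ} {f : ℍ → ℂ} (hf : ∀ γ ∈ Gamma0 p, f ∣[k] γ = f)
    {P Q : PowerSeries ℂ} (h0 : HasQ 1 f P) (h1 : HasQ p (f ∣[k] ModularGroup.S) Q)
    (hP : PowerSeries.constantCoeff P = 0) (hQ : PowerSeries.constantCoeff Q = 0)
    (γ : SL(2, ℤ)) : IsZeroAtImInfty (f ∣[k] γ) := by
  have h := slash_rep p hf γ none
  rw [rep_none, SlashAction.slash_one] at h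
  rw [h]
  rcases classAct p γ none with _ | j
  · rw [rep_none, SlashAction.slash_one]
    exact h0.isZeroAtImInfty one_pos hP
  · rw [rep_some, SlashAction.slash_mul]
    refine ((h1.vadd ((j.val : ℤ) : ℝ)).congr
      (funext fun τ => (slash_T_zpow_apply k _ _ τ).symm)).isZeroAtImInfty (natCast_posR p) ?_
    rw [← PowerSeries.coeff_zero_eq_constantCoeff_apply, PowerSeries.coeff_rescale]
    simp [hQ]

/-- A cusp form on `Γ₀(p)` from expansions at the two cusps. -/
def mkCuspP {k : ℤ} (f : ℍ → ℂ) (hinv : ∀ γ ∈ Gamma0 p, f ∣[k] γ = f)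
    {P Q : PowerSeries ℂ} (h0 : HasQ 1 f P) (h1 : HasQ p (f ∣[k] ModularGroup.S) Q)
    (hP : PowerSeries.constantCoeff P = 0) (hQ : PowerSeries.constantCoeff Q = 0) :
    CuspForm (Gamma0 p) k where
  toFun := f
  slash_action_eq' := by
    rintro _ ⟨γ, hγ, rfl⟩
    exact hinv γ hγ
  holo' := h0.mdiff one_pos
  zero_at_cusps' := fun {c} hc => by
    rw [Subgroup.IsArithmetic.isCusp_iff_isCusp_SL2Z] at hc
    rw [OnePoint.isZeroAt_iff_forall_SL2Z hc]
    exact fun γ _ => zero_slash_of_constant p hinv h0 h1 hP hQ γ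

theorem qCoeff_mkCuspP {k : ℤ} (f : ℍ → ℂ) (hinv : ∀ γ ∈ Gamma0 p, f ∣[k] γ = f)
    {P Q : PowerSeries ℂ} (h0 : HasQ 1 f P) (h1 : HasQ p (f ∣[k] ModularGroup.S) Q)
    (hP : PowerSeries.constantCoeff P = 0) (hQ : PowerSeries.constantCoeff Q = 0) (m : ℕ) :
    qCoeff (mkCuspP p f hinv h0 h1 hP hQ) m = PowerSeries.coeff m P := by
  unfold qCoeff
  rw [show (⇑(mkCuspP p f hinv h0 h1 hP hQ) : ℍ → ℂ) = f from rfl, h0.qExpansion_eq one_pos]

/-- The congruent form for `p ≠ 2`. -/
theorem exists_congr_of_ne_two (hp2 : p ≠ 2) :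
    ∃ f : ↥(intLattice p 2), IsEisCongr p (eisensteinNumerator p) f := by
  have hp : p.Prime := Fact.out
  obtain ⟨D⟩ := exists_thetaData p hp2
  set d := Nat.gcd (p - 1) 12 with hd
  set num := eisensteinNumerator p with hnum
  have hd0 : 0 < d := Nat.gcd_pos_of_pos_right _ (by norm_num)
  set e := 12 / d with he
  have hnd : num * d = p - 1 := Nat.div_mul_cancel (Nat.gcd_dvd_left _ _)
  have hed : e * d = 12 := Nat.div_mul_cancel (Nat.gcd_dvd_right _ _)
  have hcop : Nat.Coprime e num :=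
    (Nat.coprime_div_gcd_div_gcd hd0).symm
  obtain ⟨k, t, hkt⟩ : ∃ k t : ℤ, k * e = 1 + num * t := by
    obtain ⟨a, b, hab⟩ := Nat.Coprime.isCoprime hcop
    exact ⟨a, -b, by linear_combination hab⟩
  set c1 : ℂ := (k : ℂ) * e with hc1
  set c2 : ℂ := -((k : ℂ) * num / 2) with hc2
  let f : ℍ → ℂ := c1 • eisP p + c2 • D.theta
  let P : PowerSeries ℂ := c1 • eisSeries p + c2 • D.thetaSeries
  have hinv : ∀ γ ∈ Gamma0 p, f ∣[(2 : ℤ)] γ = f := fun γ hγ => by
    simp only [f, SlashAction.add_slash, ModularForm.SL_smul_slash, eisP_invariant p hγ,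
      D.theta_invariant hp2 hγ]
  have h0 : HasQ 1 f P := ((hasQ_eisP p).smul c1).add (D.hasQ_theta.smul c2)
  have h1 : HasQ p (f ∣[(2 : ℤ)] ModularGroup.S) ((p : ℂ) ^ (1 - (2 : ℤ)) • -P) := by
    have hθ : HasQ p (D.theta ∣[(2 : ℤ)] ModularGroup.S)
        ((p : ℂ) ^ (1 - (2 : ℤ)) • -D.thetaSeries) :=
      HasQ.slash_S_of_fricke p (by rw [D.fricke_theta]; exact D.hasQ_theta.neg)
    have := ((hasQ_eisP_S p).smul c1).add (hθ.smul c2)
    simp only [f, SlashAction.add_slash, ModularForm.SL_smul_slash]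
    convert this using 1
    simp only [P, neg_add, smul_add, smul_neg, smul_comm c1, smul_comm c2]
  have hkey : (k : ℂ) * e * (((p : ℂ) - 1) / 24) = (k : ℂ) * num / 2 := by
    have h1' : ((num : ℂ) * d) = (p : ℂ) - 1 := by
      rw [← Nat.cast_mul, hnd, Nat.cast_sub hp.pos, Nat.cast_one]
    have h2' : (e : ℂ) * d = 12 := by exact_mod_cast congrArg (Nat.cast (R := ℂ)) hed
    rw [← h1']
    linear_combination ((k : ℂ) * num / 24) * h2'
  have hP0 : PowerSeries.constantCoeff P = 0 := by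
    rw [← PowerSeries.coeff_zero_eq_constantCoeff_apply]
    simp only [P, map_add, map_smul, smul_eq_mul, eisSeries, ThetaData.thetaSeries,
      PowerSeries.coeff_mk, if_true, D.repNum_zero, hc1, hc2]
    push_cast
    linear_combination hkey
  have hQ0 : PowerSeries.constantCoeff ((p : ℂ) ^ (1 - (2 : ℤ)) • -P) = 0 := by
    rw [PowerSeries.constantCoeff_smul, map_neg, hP0, neg_zero, smul_zero]
  obtain ⟨F, hFq⟩ : ∃ F : CuspForm (Gamma0 p) 2, ∀ m, qCoeff F m = PowerSeries.coeff m P :=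
    ⟨mkCuspP p f hinv h0 h1 hP0 hQ0, qCoeff_mkCuspP p f hinv h0 h1 hP0 hQ0⟩
  let g : ℕ → ℤ := fun m => if m = 0 then 0 else k * e * sigmaP p m - k * num * (D.repNum m / 2 : ℕ)
  have hF : ∀ m, qCoeff F m = (g m : ℂ) := by
    intro m
    rw [hFq]
    rcases eq_or_ne m 0 with rfl | hm
    · simp [g, hP0]
    obtain ⟨r, hr⟩ := D.two_dvd_repNum hm
    simp only [g, if_neg hm, P, map_add, map_smul, smul_eq_mul, eisSeries, ThetaData.thetaSeries,
      PowerSeries.coeff_mk, hr, hc1, hc2, Nat.mul_div_cancel_left r two_pos]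
    push_cast
    ring
  have hmem : F ∈ intLattice p 2 := (IntStr.mem_intLattice_iff F).mpr fun m => ⟨g m, hF m⟩
  refine ⟨⟨F, hmem⟩, ?_⟩
  intro m hm
  have hco : coeffInt p m ⟨F, hmem⟩ = g m := coeffInt_eq p (hF m)
  rw [hco]
  simp only [g, if_neg hm]
  exact ⟨t * sigmaP p m - k * (D.repNum m / 2 : ℕ), by linear_combination (sigmaP p m) * hkt⟩

/-- The lower bound. -/
theorem exists_congr : ∃ f : ↥(intLattice p 2), IsEisCongr p (eisensteinNumerator p) f := by
  rcases eq_or_ne p 2 with h | h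
  · refine ⟨0, fun m _ => ?_⟩
    subst h
    rw [show eisensteinNumerator 2 = 1 by decide]
    exact one_dvd _
  · exact exists_congr_of_ne_two p h

end FLTAgent.Eisen
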