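import Mathlib

/-!
# The `p + 1` cosets of `Γ₀(p)` indexed by `ℙ¹(𝔽_p)`

`rep` gives representatives `1`, `S T^k`. Translates of an invariant function are permuted as the
classes of `PLine` (`slash_rep`, from `slash_of_S_T`), and `mkForm` builds a modular form from
invariance and boundedness of all translates.
-/

set_option autoImplicit false

open CongruenceSubgroup UpperHalfPlane Matrix.SpecialLinearGroup
open scoped MatrixGroups ModularForm Manifold

noncomputable section

namespace FLTAgent.Eisen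

variable (p : ℕ)

/-- `ℙ¹(𝔽_p)`: `none` is `(0 : 1)`, `some k` is `(1 : k)`. -/
abbrev PLine : Type := Option (ZMod p)

open scoped Classical in
/-- The class of the bottom row. -/
def rowClass (γ : SL(2, ℤ)) : PLine p :=
  if (γ 1 0 : ZMod p) = 0 then none else some ((γ 1 1 : ZMod p) * (γ 1 0 : ZMod p)⁻¹)

/-- Representatives: `1` and `S T^k`. -/
def rep : PLine p → SL(2, ℤ)
  | none => 1
  | some k => ModularGroup.S * ModularGroup.T ^ (k.val : ℤ)

theorem rep_none : rep p none = 1 := rfl

theorem rep_some (k : ZMod p) :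
    rep p (some k) = ModularGroup.S * ModularGroup.T ^ (k.val : ℤ) := rfl

theorem S_mul_T_zpow_coe (n : ℤ) :
    ((ModularGroup.S * ModularGroup.T ^ n : SL(2, ℤ)) : Matrix (Fin 2) (Fin 2) ℤ) =
      !![0, -1; 1, n] := by
  rw [Matrix.SpecialLinearGroup.coe_mul, ModularGroup.coe_T_zpow, ModularGroup.coe_S]
  ext i j; fin_cases i <;> fin_cases j <;> simp [Matrix.mul_apply, Fin.sum_univ_two]

variable [Fact p.Prime]

theorem rowClass_one : rowClass p 1 = none := by
  simp [rowClass]

theorem rowClass_rep (x : PLine p) : rowClass p (rep p x) = x := by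
  rcases x with _ | k
  · exact rowClass_one p
  · unfold rowClass
    have h10 : (rep p (some k)) 1 0 = 1 := by rw [rep_some, S_mul_T_zpow_coe]; rfl
    have h11 : (rep p (some k)) 1 1 = (k.val : ℤ) := by rw [rep_some, S_mul_T_zpow_coe]; rfl
    rw [h10, h11]
    simp

theorem rowClass_eq_none_iff (γ : SL(2, ℤ)) : rowClass p γ = none ↔ γ ∈ Gamma0 p := by
  rw [Gamma0_mem]
  unfold rowClass
  split_ifs with h <;> simp [h]

theorem cross_eq_zero_iff (γ δ : SL(2, ℤ)) :
    (γ * δ⁻¹) ∈ Gamma0 p ↔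
      (γ 1 0 : ZMod p) * (δ 1 1 : ZMod p) = (γ 1 1 : ZMod p) * (δ 1 0 : ZMod p) := by
  rw [Gamma0_mem]
  have : (γ * δ⁻¹) 1 0 = γ 1 0 * δ 1 1 - γ 1 1 * δ 1 0 := by
    simp [Matrix.SpecialLinearGroup.coe_inv, Matrix.adjugate_fin_two, Matrix.mul_apply,
      Fin.sum_univ_two]
    ring
  rw [this]
  push_cast
  exact sub_eq_zero

theorem row_ne_zero (γ : SL(2, ℤ)) (h : (γ 1 0 : ZMod p) = 0) : (γ 1 1 : ZMod p) ≠ 0 := by
  intro h'
  have hdet := γ.2
  rw [Matrix.det_fin_two] at hdet
  have := congrArg (fun z : ℤ => (z : ZMod p)) hdet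
  push_cast at this
  rw [h, h'] at this
  simp at this

theorem rowClass_eq_iff (γ δ : SL(2, ℤ)) :
    rowClass p γ = rowClass p δ ↔ γ * δ⁻¹ ∈ Gamma0 p := by
  rw [cross_eq_zero_iff]
  unfold rowClass
  split_ifs with h1 h2 h2
  · simp [h1, h2]
  · simp only [false_iff, h1, zero_mul]
    exact fun h => h2 ((mul_eq_zero.mp h.symm).resolve_left (row_ne_zero p γ h1))
  · simp only [false_iff, h2, mul_zero]
    exact fun h => h1 ((mul_eq_zero.mp h).resolve_right (row_ne_zero p δ h2))
  · rw [Option.some_inj, ← div_eq_mul_inv, ← div_eq_mul_inv, div_eq_div_iff h1 h2]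
    constructor <;> intro h <;> linear_combination -h

/-- Right translation of classes. -/
def classAct (γ : SL(2, ℤ)) (x : PLine p) : PLine p := rowClass p (rep p x * γ)

theorem classAct_rowClass (γ δ : SL(2, ℤ)) :
    classAct p γ (rowClass p δ) = rowClass p (δ * γ) := by
  rw [classAct, rowClass_eq_iff]
  have : rep p (rowClass p δ) * δ⁻¹ ∈ Gamma0 p :=
    (rowClass_eq_iff p _ _).mp (rowClass_rep p _)
  simpa [mul_assoc] using this

theorem classAct_mul (γ δ : SL(2, ℤ)) (x : PLine p) :
    classAct p δ (classAct p γ x) = classAct p (γ * δ) x := by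
  rw [classAct, classAct, classAct, ← mul_assoc]
  exact classAct_rowClass p δ (rep p x * γ)

theorem classAct_one (x : PLine p) : classAct p 1 x = x := by
  rw [classAct, mul_one, rowClass_rep]

/-- The permutation of classes. -/
def classPerm (γ : SL(2, ℤ)) : Equiv.Perm (PLine p) where
  toFun := classAct p γ
  invFun := classAct p γ⁻¹
  left_inv x := by rw [classAct_mul, mul_inv_cancel, classAct_one]
  right_inv x := by rw [classAct_mul, inv_mul_cancel, classAct_one]

theorem classAct_S_none : classAct p ModularGroup.S none = some 0 := by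
  unfold classAct rowClass
  simp [rep_none, ModularGroup.coe_S]

theorem classAct_T_none : classAct p ModularGroup.T none = none := by
  unfold classAct rowClass
  simp [rep_none, ModularGroup.coe_T]

theorem classAct_S_some_zero : classAct p ModularGroup.S (some 0) = none := by
  unfold classAct rowClass
  simp [rep_some, ModularGroup.coe_S, Matrix.mul_apply, Fin.sum_univ_two]

theorem classAct_S_some {k : ZMod p} (hk : k ≠ 0) :
    classAct p ModularGroup.S (some k) = some (-k⁻¹) := by
  unfold classAct rowClass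
  have h10 : ((rep p (some k) * ModularGroup.S) 1 0 : ℤ) = (k.val : ℤ) := by
    rw [rep_some, Matrix.SpecialLinearGroup.coe_mul, S_mul_T_zpow_coe, ModularGroup.coe_S]
    simp [Matrix.mul_apply, Fin.sum_univ_two]
  have h11 : ((rep p (some k) * ModularGroup.S) 1 1 : ℤ) = -1 := by
    rw [rep_some, Matrix.SpecialLinearGroup.coe_mul, S_mul_T_zpow_coe, ModularGroup.coe_S]
    simp [Matrix.mul_apply, Fin.sum_univ_two]
  rw [h10, h11]
  simp [hk]

theorem classAct_T_some (k : ZMod p) :
    classAct p ModularGroup.T (some k) = some (k + 1) := by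
  unfold classAct rowClass
  have h10 : ((rep p (some k) * ModularGroup.T) 1 0 : ℤ) = 1 := by
    rw [rep_some, Matrix.SpecialLinearGroup.coe_mul, S_mul_T_zpow_coe, ModularGroup.coe_T]
    simp [Matrix.mul_apply, Fin.sum_univ_two]
  have h11 : ((rep p (some k) * ModularGroup.T) 1 1 : ℤ) = 1 + (k.val : ℤ) := by
    rw [rep_some, Matrix.SpecialLinearGroup.coe_mul, S_mul_T_zpow_coe, ModularGroup.coe_T]
    simp [Matrix.mul_apply, Fin.sum_univ_two]
  rw [h10, h11]
  simp [add_comm]

/-- A family permuted by `S` and `T` as the classes are is permuted by all of `SL(2, ℤ)`. -/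
theorem slash_of_S_T {k : ℤ} {F : PLine p → ℍ → ℂ}
    (hS : ∀ x, F x ∣[k] ModularGroup.S = F (classAct p ModularGroup.S x))
    (hT : ∀ x, F x ∣[k] ModularGroup.T = F (classAct p ModularGroup.T x))
    (γ : SL(2, ℤ)) (x : PLine p) : F x ∣[k] γ = F (classAct p γ x) := by
  have hγ : γ ∈ Subgroup.closure {ModularGroup.S, ModularGroup.T} := by
    simp [SpecialLinearGroup.SL2Z_generators]
  induction hγ using Subgroup.closure_induction generalizing x with
  | mem g hg => rcases hg with rfl | rfl; exacts [hS x, hT x]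
  | one => rw [SlashAction.slash_one, classAct_one]
  | mul a b _ _ ha hb => rw [SlashAction.slash_mul, ha, hb, classAct_mul]
  | inv a _ ha =>
    have h := ha (classAct p a⁻¹ x)
    rw [classAct_mul, inv_mul_cancel, classAct_one] at h
    rw [← h, ← SlashAction.slash_mul, mul_inv_cancel, SlashAction.slash_one]

/-- Translates of a `Γ₀(p)`-invariant function are permuted as the classes are. -/
theorem slash_rep {k : ℤ} {f : ℍ → ℂ} (hf : ∀ γ ∈ Gamma0 p, f ∣[k] γ = f) (γ : SL(2, ℤ))
    (x : PLine p) : (f ∣[k] rep p x) ∣[k] γ = f ∣[k] rep p (classAct p γ x) := by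
  rw [← SlashAction.slash_mul]
  have h : rep p x * γ * (rep p (classAct p γ x))⁻¹ ∈ Gamma0 p :=
    (rowClass_eq_iff p _ _).mp (by rw [rowClass_rep]; rfl)
  conv_lhs => rw [show rep p x * γ =
    (rep p x * γ * (rep p (classAct p γ x))⁻¹) * rep p (classAct p γ x) by group]
  rw [SlashAction.slash_mul, hf _ h]

omit [Fact p.Prime] in
/-- A modular form on `Γ₀(p)` from invariance and boundedness of all translates. -/
def mkForm (N : ℕ) [NeZero N] {k : ℤ} (f : ℍ → ℂ) (hinv : ∀ γ ∈ Gamma0 N, f ∣[k] γ = f)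
    (hhol : MDiff f) (hbdd : ∀ γ : SL(2, ℤ), IsBoundedAtImInfty (f ∣[k] γ)) :
    ModularForm (Gamma0 N) k where
  toFun := f
  slash_action_eq' := by
    rintro _ ⟨γ, hγ, rfl⟩
    exact hinv γ hγ
  holo' := hhol
  bdd_at_cusps' := fun {c} hc => by
    rw [Subgroup.IsArithmetic.isCusp_iff_isCusp_SL2Z] at hc
    rw [OnePoint.isBoundedAt_iff_forall_SL2Z hc]
    exact fun γ _ => hbdd γ

theorem mkForm_coe (N : ℕ) [NeZero N] {k : ℤ} (f : ℍ → ℂ) (hinv : ∀ γ ∈ Gamma0 N, f ∣[k] γ = f)
    (hhol : MDiff f) (hbdd : ∀ γ : SL(2, ℤ), IsBoundedAtImInfty (f ∣[k] γ)) :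
    ⇑(mkForm N f hinv hhol hbdd) = f := rfl

/-- A level one modular form. -/
def mkFormOne {k : ℤ} (f : ℍ → ℂ) (hinv : ∀ γ : SL(2, ℤ), f ∣[k] γ = f)
    (hhol : MDiff f) (hbdd : IsBoundedAtImInfty f) : ModularForm 𝒮ℒ k where
  toFun := f
  slash_action_eq' := by
    rintro _ ⟨γ, rfl⟩
    exact hinv γ
  holo' := hhol
  bdd_at_cusps' := fun {c} hc => by
    rw [OnePoint.isBoundedAt_iff_forall_SL2Z hc]
    intro γ _
    have := hinv γ
    rw [ModularForm.SL_slash] at this
    exact this.symm ▸ hbdd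

theorem mkFormOne_coe {k : ℤ} (f : ℍ → ℂ) (hinv : ∀ γ : SL(2, ℤ), f ∣[k] γ = f)
    (hhol : MDiff f) (hbdd : IsBoundedAtImInfty f) : ⇑(mkFormOne f hinv hhol hbdd) = f := rfl

end FLTAgent.Eisen
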