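import Fermat.Agent.Eisen.P1
import Fermat.Agent.Eisen.HasQ

/-!
# The substitution `τ ↦ D τ`, translates and the Fricke operator

How `HasQ` expansions behave under scaling (`HasQ.scale`, `HasQ.expand`) and translation, the
operator `fricke`, and `mkFormP`: a modular form on `Γ₀(p)` from invariance and expansions at the
two cusps.
-/

set_option autoImplicit false

open UpperHalfPlane CongruenceSubgroup Matrix.SpecialLinearGroup
open scoped MatrixGroups ModularForm Manifold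

noncomputable section

namespace FLTAgent.Eisen

/-- `τ ↦ r τ` for `r > 0`. -/
def scaleH (r : ℝ) (hr : 0 < r) (τ : ℍ) : ℍ :=
  ⟨(r : ℂ) * τ, by rw [Complex.mul_im]; simp [mul_pos hr τ.im_pos]⟩

@[simp] theorem coe_scaleH (r : ℝ) (hr : 0 < r) (τ : ℍ) : (scaleH r hr τ : ℂ) = r * τ := rfl

theorem natCast_posR (n : ℕ) [NeZero n] : (0 : ℝ) < n := Nat.cast_pos.mpr (NeZero.pos n)

theorem smul_scaleH (n : ℕ) [NeZero n] (γ γ' : SL(2, ℤ)) (h00 : γ' 0 0 = γ 0 0)
    (h01 : γ' 0 1 = n * γ 0 1) (h10 : γ 1 0 = n * γ' 1 0) (h11 : γ' 1 1 = γ 1 1) (τ : ℍ) :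
    scaleH n (natCast_posR n) (γ • τ) = γ' • scaleH n (natCast_posR n) τ := by
  apply UpperHalfPlane.ext
  rw [coe_scaleH, coe_specialLinearGroup_apply, coe_specialLinearGroup_apply, coe_scaleH]
  simp [h00, h01, h10, h11]
  ring

theorem denom_scaleH (n : ℕ) [NeZero n] (γ γ' : SL(2, ℤ))
    (h10 : γ 1 0 = n * γ' 1 0) (h11 : γ' 1 1 = γ 1 1) (τ : ℍ) :
    denom γ' (scaleH n (natCast_posR n) τ) = denom γ τ := by
  simp only [UpperHalfPlane.denom, coe_scaleH]
  simp [h10, h11]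
  ring

theorem exists_scaled (n : ℕ) [NeZero n] {γ : SL(2, ℤ)} (hγ : γ ∈ Gamma0 n) :
    ∃ γ' : SL(2, ℤ), γ' 0 0 = γ 0 0 ∧ γ' 0 1 = n * γ 0 1 ∧ γ 1 0 = n * γ' 1 0 ∧
      γ' 1 1 = γ 1 1 := by
  rw [Gamma0_mem, ZMod.intCast_zmod_eq_zero_iff_dvd] at hγ
  obtain ⟨c, hc⟩ := hγ
  refine ⟨⟨!![γ 0 0, n * γ 0 1; c, γ 1 1], ?_⟩, by simp, by simp, by simpa using hc, by simp⟩
  have := γ.2
  rw [Matrix.det_fin_two] at this
  rw [Matrix.det_fin_two_of]
  linear_combination this + γ 0 1 * hc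

variable {h : ℝ} {f : ℍ → ℂ} {P : PowerSeries ℂ}

theorem HasQ.scale (hf : HasQ h f P) (r : ℝ) (hr : 0 < r) :
    HasQ (h / r) (fun τ => f (scaleH r hr τ)) P := by
  intro τ
  have e : Function.Periodic.qParam (h / r) (τ : ℂ) =
      Function.Periodic.qParam h (scaleH r hr τ : ℂ) := by
    simp only [Function.Periodic.qParam, coe_scaleH]
    congr 1
    push_cast
    field_simp
  rw [e]
  exact hf (scaleH r hr τ)

theorem HasQ.expand (hf : HasQ h f P) (M : ℕ) (hM : M ≠ 0) :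
    HasQ (h * M) f (PowerSeries.expand M hM P) := by
  intro τ
  have hq : ∀ m : ℕ, Function.Periodic.qParam (h * M) (τ : ℂ) ^ (M * m) =
      Function.Periodic.qParam h (τ : ℂ) ^ m := by
    intro m
    rw [pow_mul]
    congr 1
    simp only [Function.Periodic.qParam, ← Complex.exp_nat_mul]
    congr 1
    push_cast
    have : (M : ℂ) ≠ 0 := Nat.cast_ne_zero.mpr hM
    field_simp
  rw [← Function.Injective.hasSum_iff (mul_right_injective₀ hM)]
  · refine (hf τ).congr_fun fun m => ?_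
    simp only [Function.comp_apply, PowerSeries.coeff_expand_mul, hq]
  · intro m hm
    have : ¬ M ∣ m := fun ⟨c, hc⟩ => hm ⟨c, hc.symm⟩
    simp [PowerSeries.coeff_expand_of_not_dvd M hM P this]

theorem HasQ.scaleNat (hh : h ≠ 0) (hf : HasQ h f P) (D : ℕ) [NeZero D] :
    HasQ h (fun τ => f (scaleH D (natCast_posR D) τ))
      (PowerSeries.expand D (NeZero.ne D) P) := by
  have := (hf.scale D (natCast_posR D)).expand D (NeZero.ne D)
  rwa [div_mul_cancel₀ h (natCast_posR D).ne'] at this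

theorem slash_T_zpow_apply (k : ℤ) (f : ℍ → ℂ) (n : ℤ) (τ : ℍ) :
    (f ∣[k] (ModularGroup.T ^ n)) τ = f ((n : ℝ) +ᵥ τ) := by
  rw [ModularForm.SL_slash_apply, modular_T_zpow_smul, ModularGroup.denom_apply]
  simp [ModularGroup.coe_T_zpow]

theorem slash_T_apply (k : ℤ) (f : ℍ → ℂ) (τ : ℍ) :
    (f ∣[k] ModularGroup.T) τ = f ((1 : ℝ) +ᵥ τ) := by
  simpa using slash_T_zpow_apply k f 1 τ

/-- Multiply the `m`-th coefficient by `u ^ m`. -/
theorem HasQ.vadd (hf : HasQ h f P) (x : ℝ) :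
    HasQ h (fun τ => f (x +ᵥ τ))
      (PowerSeries.rescale (Function.Periodic.qParam h (x : ℂ)) P) := by
  intro τ
  refine (hf (x +ᵥ τ)).congr_fun fun m => ?_
  rw [PowerSeries.coeff_rescale, coe_vadd]
  have : Function.Periodic.qParam h ((x : ℂ) + τ) =
      Function.Periodic.qParam h (x : ℂ) * Function.Periodic.qParam h (τ : ℂ) := by
    simp only [Function.Periodic.qParam, ← Complex.exp_add]
    ring_nf
  rw [this, mul_pow]
  ring

variable (p : ℕ) [Fact p.Prime]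

instance neZero_of_fact_prime : NeZero p := ⟨(Fact.out : p.Prime).ne_zero⟩

/-- The Fricke operator `f |_k (0, -1; p, 0)`. -/
def fricke (k : ℤ) (f : ℍ → ℂ) : ℍ → ℂ := fun τ =>
  (p : ℂ) ^ (k - 1) * (f ∣[k] ModularGroup.S) (scaleH p (natCast_posR p) τ)

theorem fricke_invariant {k : ℤ} {f : ℍ → ℂ} (hf : ∀ γ ∈ Gamma0 p, f ∣[k] γ = f) {γ : SL(2, ℤ)}
    (hγ : γ ∈ Gamma0 p) : fricke p k f ∣[k] γ = fricke p k f := by
  obtain ⟨γ', h00, h01, h10, h11⟩ := exists_scaled p hγ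
  have hmem : ModularGroup.S * γ' * ModularGroup.S⁻¹ ∈ Gamma0 p := by
    have : (ModularGroup.S * γ' * ModularGroup.S⁻¹) 1 0 = -(γ' 0 1) := by
      simp [Matrix.SpecialLinearGroup.coe_inv, Matrix.adjugate_fin_two, ModularGroup.coe_S,
        Matrix.mul_apply, Matrix.vecMul, dotProduct, Fin.sum_univ_two]
    rw [Gamma0_mem, this, h01]
    simp
  have hinv : (f ∣[k] ModularGroup.S) ∣[k] γ' = f ∣[k] ModularGroup.S := by
    rw [← SlashAction.slash_mul,
      show ModularGroup.S * γ' = (ModularGroup.S * γ' * ModularGroup.S⁻¹) * ModularGroup.S by group,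
      SlashAction.slash_mul, hf _ hmem]
  funext τ
  rw [ModularForm.SL_slash_apply]
  unfold fricke
  rw [smul_scaleH p γ γ' h00 h01 h10 h11, ← denom_scaleH p γ γ' h10 h11, mul_assoc,
    ← ModularForm.SL_slash_apply (f := f ∣[k] ModularGroup.S), hinv]

theorem fricke_slash_S {k : ℤ} (f : ℍ → ℂ) (τ : ℍ) :
    (f ∣[k] ModularGroup.S) τ =
      (p : ℂ) ^ (1 - k) * fricke p k f (scaleH (p : ℝ)⁻¹ (inv_pos.mpr (natCast_posR p)) τ) := by
  have hp : (p : ℂ) ≠ 0 := Nat.cast_ne_zero.mpr (NeZero.ne p)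
  unfold fricke
  rw [← mul_assoc, ← zpow_add₀ hp, show (1 - k) + (k - 1) = 0 by ring, zpow_zero, one_mul]
  refine congrArg _ (UpperHalfPlane.ext ?_)
  simp [← mul_assoc, mul_inv_cancel₀ hp]

theorem HasQ.slash_S_of_fricke {k : ℤ} {f : ℍ → ℂ} {P : PowerSeries ℂ}
    (hf : HasQ 1 (fricke p k f) P) :
    HasQ p (f ∣[k] ModularGroup.S) ((p : ℂ) ^ (1 - k) • P) := by
  have h1 := (hf.scale (p : ℝ)⁻¹ (inv_pos.mpr (natCast_posR p))).smul ((p : ℂ) ^ (1 - k))
  rw [one_div, inv_inv] at h1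
  exact h1.congr (funext fun τ => (fricke_slash_S p f τ).symm)

theorem bounded_slash {k : ℤ} {f : ℍ → ℂ} (hf : ∀ γ ∈ Gamma0 p, f ∣[k] γ = f)
    {P Q : PowerSeries ℂ} (h0 : HasQ 1 f P) (h1 : HasQ p (f ∣[k] ModularGroup.S) Q)
    (γ : SL(2, ℤ)) : IsBoundedAtImInfty (f ∣[k] γ) := by
  have h := slash_rep p hf γ none
  rw [rep_none, SlashAction.slash_one] at h
  rw [h]
  rcases classAct p γ none with _ | j
  · rw [rep_none, SlashAction.slash_one]
    exact h0.isBoundedAtImInfty one_pos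
  · rw [rep_some, SlashAction.slash_mul]
    exact ((h1.vadd ((j.val : ℤ) : ℝ)).congr
      (funext fun τ => (slash_T_zpow_apply k _ _ τ).symm)).isBoundedAtImInfty (natCast_posR p)

/-- A modular form on `Γ₀(p)` from invariance and the expansions at the two cusps. -/
def mkFormP {k : ℤ} (f : ℍ → ℂ) (hinv : ∀ γ ∈ Gamma0 p, f ∣[k] γ = f)
    {P Q : PowerSeries ℂ} (h0 : HasQ 1 f P) (h1 : HasQ p (f ∣[k] ModularGroup.S) Q) :
    ModularForm (Gamma0 p) k :=
  mkForm p f hinv (h0.mdiff one_pos) (bounded_slash p hinv h0 h1)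

theorem mkFormP_coe {k : ℤ} (f : ℍ → ℂ) (hinv : ∀ γ ∈ Gamma0 p, f ∣[k] γ = f)
    {P Q : PowerSeries ℂ} (h0 : HasQ 1 f P) (h1 : HasQ p (f ∣[k] ModularGroup.S) Q) :
    ⇑(mkFormP p f hinv h0 h1) = f := rfl

end FLTAgent.Eisen
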