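import Mathlib

/-!
# The quaternary form of discriminant `p ^ 2`

`qForm` and its diagonalisation (`qForm_diag`), the adjoint form, and `ThetaData`, the auxiliary
numbers defining a theta series of level `p`, with positivity of the form (`form_nonneg`,
`form_eq_zero_iff`).
-/

set_option autoImplicit false

noncomputable section

namespace FLTAgent.Eisen

variable {R : Type*} [CommRing R]

/-- `N(v₀, v₁) + c (v₁ v₂ - v₀ v₃) + m N(v₂, v₃)` with `N(x, y) = x² + x y + n y²`. -/
def qForm (n m c : R) (v : Fin 4 → R) : R :=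
  (v 0 ^ 2 + v 0 * v 1 + n * v 1 ^ 2) + c * (v 1 * v 2 - v 0 * v 3) +
    m * (v 2 ^ 2 + v 2 * v 3 + n * v 3 ^ 2)

theorem qForm_map {S : Type*} [CommRing S] (f : R →+* S) (n m c : R) (v : Fin 4 → R) :
    f (qForm n m c v) = qForm (f n) (f m) (f c) fun i => f (v i) := by
  simp [qForm]

theorem qForm_smul (n m c a : R) (v : Fin 4 → R) :
    qForm n m c (a • v) = a ^ 2 * qForm n m c v := by
  simp only [qForm, Pi.smul_apply, smul_eq_mul]; ring

theorem qForm_neg (n m c : R) (v : Fin 4 → R) : qForm n m c (-v) = qForm n m c v := by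
  simp only [qForm, Pi.neg_apply]; ring

/-- The diagonalising coordinates. -/
def yVec (q c : R) (v : Fin 4 → R) : Fin 4 → R :=
  ![2 * v 0 + v 1 - c * v 3, q * v 1 + c * (2 * v 2 + v 3), 2 * v 2 + v 3, v 3]

/-- `2 q` times the inverse of `yVec`. -/
def mPrime (q c : R) (u : Fin 4 → R) : Fin 4 → R :=
  ![q * u 0 - u 1 + c * u 2 + q * c * u 3, 2 * u 1 - 2 * c * u 2, q * u 2 - q * u 3, 2 * q * u 3]

/-- The transpose of `mPrime`. -/
def jVec (q c : R) (v : Fin 4 → R) : Fin 4 → R :=
  ![q * v 0, 2 * v 1 - v 0, c * v 0 - 2 * c * v 1 + q * v 2, q * (c * v 0 - v 2 + 2 * v 3)]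

/-- The change of variables between the form and its adjoint. -/
def phiVec (c : R) (v : Fin 4 → R) : Fin 4 → R :=
  ![v 3 + c * v 0, -v 2, v 1 - v 0, v 0]

/-- The gradient of the form. -/
def gradVec (n m c : R) (u : Fin 4 → R) : Fin 4 → R :=
  ![2 * u 0 + u 1 - c * u 3, u 0 + 2 * n * u 1 + c * u 2, c * u 1 + m * (2 * u 2 + u 3),
    -c * u 0 + m * (u 2 + 2 * n * u 3)]

/-- The gradient of the adjoint form. -/
def adjVec (n m c : R) (v : Fin 4 → R) : Fin 4 → R :=
  ![2 * n * m * v 0 - m * v 1 + c * v 3, -m * v 0 + 2 * m * v 1 - c * v 2,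
    -c * v 1 + 2 * n * v 2 - v 3, c * v 0 - v 2 + 2 * v 3]

theorem yVec_add (q c : R) (v w : Fin 4 → R) : yVec q c (v + w) = yVec q c v + yVec q c w := by
  funext i; fin_cases i <;> simp [yVec] <;> ring

theorem yVec_smul (q c a : R) (v : Fin 4 → R) : yVec q c (a • v) = a • yVec q c v := by
  funext i; fin_cases i <;> simp [yVec] <;> ring

theorem yVec_mPrime (q c : R) (u : Fin 4 → R) :
    yVec q c (mPrime q c u) = (2 * q) • u := by
  funext i; fin_cases i <;> simp [yVec, mPrime] <;> ring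

theorem mPrime_yVec (q c : R) (v : Fin 4 → R) :
    mPrime q c (yVec q c v) = (2 * q) • v := by
  funext i; fin_cases i <;> simp [yVec, mPrime] <;> ring

theorem jVec_dot_yVec (q c : R) (v r : Fin 4 → R) :
    ∑ i, jVec q c v i * yVec q c r i = 2 * q * ∑ i, v i * r i := by
  simp [jVec, yVec, Fin.sum_univ_four]; ring

/-- The weights of the diagonal form. -/
def aVec (q p : R) : Fin 4 → R := ![q, 1, p, p * q]

theorem qForm_diag {q n m c p : R} (hn : 4 * n = q + 1) (hm : q * m = c ^ 2 + p)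
    (v : Fin 4 → R) :
    4 * q * qForm n m c v = ∑ i, aVec q p i * yVec q c v i ^ 2 := by
  simp [qForm, aVec, yVec, Fin.sum_univ_four]
  linear_combination (q * v 1 ^ 2 + q * m * v 3 ^ 2) * hn +
    (4 * v 2 ^ 2 + 4 * v 2 * v 3 + (q + 1) * v 3 ^ 2) * hm

theorem qForm_phi_diag {q n m c p : R} (hn : 4 * n = q + 1) (hm : q * m = c ^ 2 + p)
    (v : Fin 4 → R) :
    4 * q ^ 2 * qForm n m c (phiVec c v) =
      p * jVec q c v 0 ^ 2 + p * q * jVec q c v 1 ^ 2 + q * jVec q c v 2 ^ 2 +
        jVec q c v 3 ^ 2 := by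
  rw [show 4 * q ^ 2 * qForm n m c (phiVec c v) = q * (4 * q * qForm n m c (phiVec c v)) by ring,
    qForm_diag hn hm]
  simp [aVec, yVec, jVec, phiVec, Fin.sum_univ_four]
  ring

theorem jVec_gradVec {q n m c p : R} (hn : 4 * n = q + 1) (hm : q * m = c ^ 2 + p)
    (u : Fin 4 → R) (i : Fin 4) :
    jVec q c (gradVec n m c u) i = aVec q p i * yVec q c u i := by
  fin_cases i <;> simp [jVec, gradVec, aVec, yVec]
  · linear_combination u 1 * hn
  · linear_combination (-c * u 1) * hn + (2 * u 2 + u 3) * hm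
  · linear_combination (q * m * u 3) * hn + q * u 3 * hm

theorem adjVec_gradVec {q n m c p : R} (hn : 4 * n = q + 1) (hm : q * m = c ^ 2 + p)
    (u : Fin 4 → R) : adjVec n m c (gradVec n m c u) = p • u := by
  funext i
  fin_cases i <;> simp [adjVec, gradVec]
  · linear_combination (m * u 0) * hn + u 0 * hm
  · linear_combination (m * u 1) * hn + u 1 * hm
  · linear_combination (m * u 2) * hn + u 2 * hm
  · linear_combination (m * u 3) * hn + u 3 * hm

theorem gradVec_adjVec {q n m c p : R} (hn : 4 * n = q + 1) (hm : q * m = c ^ 2 + p)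
    (v : Fin 4 → R) : gradVec n m c (adjVec n m c v) = p • v := by
  funext i
  fin_cases i <;> simp [adjVec, gradVec]
  · linear_combination (m * v 0) * hn + v 0 * hm
  · linear_combination (m * v 1) * hn + v 1 * hm
  · linear_combination (m * v 2) * hn + v 2 * hm
  · linear_combination (m * v 3) * hn + v 3 * hm

theorem qForm_phi_gradVec {q n m c p : R} (hn : 4 * n = q + 1) (hm : q * m = c ^ 2 + p)
    (u : Fin 4 → R) :
    4 * q ^ 2 * qForm n m c (phiVec c (gradVec n m c u)) = 4 * q ^ 2 * (p * qForm n m c u) := by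
  rw [qForm_phi_diag hn hm, jVec_gradVec hn hm, jVec_gradVec hn hm, jVec_gradVec hn hm,
    jVec_gradVec hn hm,
    show 4 * q ^ 2 * (p * qForm n m c u) = q * p * (4 * q * qForm n m c u) by ring,
    qForm_diag hn hm]
  simp [aVec, Fin.sum_univ_four]
  ring

/-- `phiVec` as a bijection. -/
def phiEquiv (c : R) : (Fin 4 → R) ≃ (Fin 4 → R) where
  toFun := phiVec c
  invFun u := ![u 3, u 2 + u 3, -u 1, u 0 - c * u 3]
  left_inv v := by funext i; fin_cases i <;> simp [phiVec]
  right_inv u := by funext i; fin_cases i <;> simp [phiVec]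

/-- The data defining a theta series of level `p`. -/
structure ThetaData (p : ℕ) where
  /-- an auxiliary prime, `3 mod 4` -/
  q : ℕ
  /-- `(q + 1)/4` -/
  n : ℕ
  /-- `(c ^ 2 + p)/q` -/
  m : ℕ
  /-- a square root of `-p` mod `q` -/
  c : ℕ
  hn : 4 * n = q + 1
  hm : q * m = c ^ 2 + p
  not_square : ¬ IsSquare (-(q : ZMod p))

namespace ThetaData

variable {p : ℕ} (D : ThetaData p)

theorem q_pos : 0 < D.q := by
  rcases Nat.eq_zero_or_pos D.q with h | h
  · exact absurd (by simp [h] : IsSquare (-(D.q : ZMod p))) D.not_square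
  · exact h

instance : NeZero D.q := ⟨D.q_pos.ne'⟩

theorem hnR (R : Type*) [CommRing R] : 4 * (D.n : R) = (D.q : R) + 1 := by
  exact_mod_cast congrArg (Nat.cast (R := R)) D.hn

theorem hmR (R : Type*) [CommRing R] : (D.q : R) * (D.m : R) = (D.c : R) ^ 2 + (p : R) := by
  exact_mod_cast congrArg (Nat.cast (R := R)) D.hm

/-- The form over a ring. -/
def form (R : Type*) [CommRing R] (v : Fin 4 → R) : R := qForm (D.n : R) D.m D.c v

theorem form_intCast (R : Type*) [CommRing R] (v : Fin 4 → ℤ) :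
    (D.form ℤ v : R) = D.form R fun i => (v i : R) := by
  simpa [form] using qForm_map (Int.castRingHom R) (D.n : ℤ) D.m D.c v

theorem form_nonneg (v : Fin 4 → ℤ) : 0 ≤ D.form ℤ v := by
  have h := qForm_diag (D.hnR ℤ) (D.hmR ℤ) v
  have h2 : 0 ≤ ∑ i, aVec (D.q : ℤ) p i * yVec (D.q : ℤ) D.c v i ^ 2 := by
    refine Finset.sum_nonneg fun i _ => mul_nonneg ?_ (sq_nonneg _)
    fin_cases i <;> simp [aVec] <;> positivity
  rw [← h] at h2
  exact nonneg_of_mul_nonneg_right h2 (by have := D.q_pos; positivity)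

theorem form_eq_zero_iff [NeZero p] (v : Fin 4 → ℤ) : D.form ℤ v = 0 ↔ v = 0 := by
  refine ⟨fun h0 => ?_, fun h => by simp [h, form, qForm]⟩
  have h := qForm_diag (D.hnR ℤ) (D.hmR ℤ) v
  rw [show qForm (D.n : ℤ) D.m D.c v = D.form ℤ v from rfl, h0, mul_zero] at h
  have hq : (0 : ℤ) < D.q := by exact_mod_cast D.q_pos
  have hpp : (0 : ℤ) < p := by exact_mod_cast NeZero.pos p
  have ha : ∀ i, 0 < aVec (D.q : ℤ) p i := by
    intro i; fin_cases i <;> simp [aVec, D.q_pos, NeZero.pos p]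
  have hy : ∀ i, yVec (D.q : ℤ) D.c v i = 0 := fun i => by
    have := (Finset.sum_eq_zero_iff_of_nonneg fun j _ =>
      mul_nonneg (ha j).le (sq_nonneg _)).mp h.symm i (Finset.mem_univ i)
    simpa [(ha i).ne'] using this
  have h2 := mPrime_yVec (D.q : ℤ) D.c v
  rw [show yVec (D.q : ℤ) D.c v = 0 from funext hy] at h2
  funext i
  have h3 := congrFun h2 i
  fin_cases i <;> simp [mPrime, D.q_pos.ne'] at h3 ⊢ <;> exact h3

end ThetaData

end FLTAgent.Eisen
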