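import Fermat.Agent.Eisen.ThetaModular

/-!
# Modularity of the theta series of the quaternary form

Invariance under `Γ₀(p)` through the translates (`theta_invariant`), parity of the nonconstant
coefficients (`two_dvd_repNum`), and existence of the data for odd primes (`exists_thetaData`).
-/

set_option autoImplicit false

open UpperHalfPlane CongruenceSubgroup Matrix.SpecialLinearGroup
open scoped MatrixGroups ModularForm Manifold

noncomputable section

namespace FLTAgent.Eisen

namespace ThetaData

variable {p : ℕ} [Fact p.Prime] (D : ThetaData p)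

theorem theta_slash_T : D.theta ∣[(2 : ℤ)] ModularGroup.T = D.theta := by
  funext τ
  rw [slash_T_apply, theta, theta, coe_vadd, add_comm, Complex.ofReal_one]
  simpa using D.thetaC_add_int (τ : ℂ) 1

/-- The translates. -/
def translate (x : PLine p) : ℍ → ℂ := D.theta ∣[(2 : ℤ)] rep p x

theorem translate_S (hp2 : p ≠ 2) (x : PLine p) :
    D.translate x ∣[(2 : ℤ)] ModularGroup.S = D.translate (classAct p ModularGroup.S x) := by
  rcases x with _ | k
  · rw [classAct_S_none, translate, translate, rep_none, SlashAction.slash_one, rep_some,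
      ZMod.val_zero, Nat.cast_zero, zpow_zero, mul_one]
  by_cases hk : k = 0
  · subst hk
    rw [classAct_S_some_zero, translate, translate, rep_none, SlashAction.slash_one, rep_some,
      ZMod.val_zero, Nat.cast_zero, zpow_zero, mul_one, ← SlashAction.slash_mul]
    funext τ
    have h : ((ModularGroup.S * ModularGroup.S : SL(2, ℤ)) : Matrix (Fin 2) (Fin 2) ℤ) = -1 := by
      rw [Matrix.SpecialLinearGroup.coe_mul, ModularGroup.coe_S]
      ext i j; fin_cases i <;> fin_cases j <;> simp [Matrix.mul_apply, Fin.sum_univ_two]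
    have hneg : (ModularGroup.S * ModularGroup.S : SL(2, ℤ)) = -1 := by
      apply Subtype.ext
      rw [Matrix.SpecialLinearGroup.coe_neg, Matrix.SpecialLinearGroup.coe_one]
      exact h
    rw [hneg, ModularForm.SL_slash_apply]
    have hsm : ((-1 : SL(2, ℤ)) • τ : ℍ) = τ := by
      apply UpperHalfPlane.ext
      rw [coe_specialLinearGroup_apply]
      simp
    rw [hsm]
    simp [UpperHalfPlane.denom]
  · rw [classAct_S_some p hk, translate, translate, rep_some, rep_some]
    funext τ
    rw [ModularForm.SL_slash_apply, D.theta_slash_ST, D.theta_slash_ST, ModularGroup.denom_S,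
      show ((ModularGroup.S • τ : ℍ) : ℂ) = -1 / (τ : ℂ) by
        rw [modular_S_smul]; simp [neg_div, inv_neg],
      D.thetaC_inv hp2 τ.im_pos (k := (k.val : ℤ)) (k' := ((-k⁻¹).val : ℤ)) (by simp [hk])]
    have := UpperHalfPlane.ne_zero τ
    simp only [zpow_neg, zpow_two]
    field_simp

theorem translate_T (x : PLine p) :
    D.translate x ∣[(2 : ℤ)] ModularGroup.T = D.translate (classAct p ModularGroup.T x) := by
  rcases x with _ | k
  · rw [classAct_T_none, translate, rep_none, SlashAction.slash_one, D.theta_slash_T]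
  · rw [classAct_T_some, translate, translate, rep_some, rep_some, ← SlashAction.slash_mul,
      mul_assoc, ← zpow_add_one]
    exact D.theta_slash_ST_congr (by simp)

/-- The theta series has weight `2` and level `Γ₀(p)`. -/
theorem theta_invariant (hp2 : p ≠ 2) {γ : SL(2, ℤ)} (hγ : γ ∈ Gamma0 p) :
    D.theta ∣[(2 : ℤ)] γ = D.theta := by
  have h := slash_of_S_T p (F := D.translate) (D.translate_S hp2) D.translate_T γ none
  have hc : classAct p γ none = none := by
    rw [classAct, rep_none, one_mul]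
    exact (rowClass_eq_none_iff p γ).mpr hγ
  rw [hc, translate, rep_none, SlashAction.slash_one] at h
  exact h

theorem repNum_zero : D.repNum 0 = 1 := by
  rw [repNum]
  have : ∀ v : Fin 4 → ℤ, (D.form ℤ v).toNat = 0 ↔ v = 0 := fun v => by
    have := D.form_nonneg v
    rw [← D.form_eq_zero_iff]
    omega
  simp [this]

theorem two_dvd_repNum {m : ℕ} (hm : m ≠ 0) : 2 ∣ D.repNum m := by
  rcases finite_or_infinite {v : Fin 4 → ℤ // (D.form ℤ v).toNat = m} with hf | hi
  · have := Fintype.ofFinite {v : Fin 4 → ℤ // (D.form ℤ v).toNat = m}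
    rw [repNum, Nat.card_eq_fintype_card, ← ZMod.natCast_eq_zero_iff]
    have hc : ((Fintype.card {v : Fin 4 → ℤ // (D.form ℤ v).toNat = m} : ℕ) : ZMod 2) =
        ∑ _v : {v : Fin 4 → ℤ // (D.form ℤ v).toNat = m}, (1 : ZMod 2) := by simp
    rw [hc]
    have hQ : ∀ v : Fin 4 → ℤ, D.form ℤ (-v) = D.form ℤ v := fun v => qForm_neg _ _ _ v
    refine Finset.sum_involution (fun v _ => ⟨-v.1, by rw [hQ]; exact v.2⟩) (fun v _ => by decide)
      (fun v _ _ => ?_) (fun v _ => Finset.mem_univ _) (fun v _ => by simp)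
    intro e
    have e' : -v.1 = v.1 := congrArg Subtype.val e
    have h0 : v.1 = 0 := funext fun i => by
      have h1 := congrFun e' i
      simp only [Pi.neg_apply] at h1
      simp only [Pi.zero_apply]
      omega
    have := v.2
    rw [h0, (D.form_eq_zero_iff 0).mpr rfl] at this
    exact hm this.symm
  · simp [repNum]

end ThetaData

/-- The auxiliary data exists for every odd prime. -/
theorem exists_thetaData (p : ℕ) [Fact p.Prime] (hp2 : p ≠ 2) : Nonempty (ThetaData p) := by
  have hp : p.Prime := Fact.out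
  obtain ⟨a, ha⟩ := FiniteField.exists_nonsquare (F := ZMod p) (by rwa [ZMod.ringChar_zmod_n])
  have ha0 : a ≠ 0 := fun h => ha (h ▸ IsSquare.zero)
  have hcop : Nat.Coprime 4 p := by
    rw [Nat.coprime_comm, hp.coprime_iff_not_dvd]
    intro h
    have h4 : p ∣ 2 ^ 2 := h
    exact hp2 ((Nat.prime_dvd_prime_iff_eq hp Nat.prime_two).mp (hp.dvd_of_dvd_pow h4))
  obtain ⟨r, hr4, hrp⟩ := Nat.chineseRemainder hcop 3 (-a).val
  have hunit : IsUnit (r : ZMod (4 * p)) := by
    rw [ZMod.isUnit_iff_coprime, Nat.coprime_mul_iff_right]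
    refine ⟨?_, ?_⟩
    · rw [Nat.coprime_iff_gcd_eq_one, hr4.gcd_eq]; rfl
    · rw [Nat.coprime_comm, hp.coprime_iff_not_dvd]
      intro h
      have h1 : (r : ZMod p) = 0 := (ZMod.natCast_eq_zero_iff r p).mpr h
      rw [(ZMod.natCast_eq_natCast_iff r _ p).mpr hrp, ZMod.natCast_zmod_val] at h1
      exact ha0 (neg_eq_zero.mp h1)
  have : NeZero (4 * p) := ⟨by have := hp.pos; omega⟩
  obtain ⟨q, hqgt, hq, hqr⟩ := Nat.forall_exists_prime_gt_and_eq_mod hunit p
  have h4 : q % 4 = 3 := by
    have h1 := (ZMod.natCast_eq_natCast_iff q r (4 * p)).mp hqr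
    have h2 : q ≡ 3 [MOD 4] := (h1.of_mul_right p).trans hr4
    exact h2
  have hqp : (q : ZMod p) = -a := by
    have h1 := (ZMod.natCast_eq_natCast_iff q r (4 * p)).mp hqr
    rw [(ZMod.natCast_eq_natCast_iff q _ p).mpr ((h1.of_mul_left 4).trans hrp),
      ZMod.natCast_zmod_val]
  have hns : ¬ IsSquare (-(q : ZMod p)) := by rwa [hqp, neg_neg]
  have : Fact q.Prime := ⟨hq⟩
  have hne : p ≠ q := (Nat.ne_of_lt hqgt)
  have hneg1 : ¬ IsSquare (-1 : ZMod q) := fun h => by
    rw [ZMod.exists_sq_eq_neg_one_iff] at h; exact h h4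
  have hq2 : q ≠ 2 := by omega
  have hkey : IsSquare (-(p : ZMod q)) := by
    rcases Nat.odd_mod_four_iff.mp (hp.odd_of_ne_two hp2 |> Nat.odd_iff.mp) with h1 | h3
    · have h5 : ¬ IsSquare (q : ZMod p) := fun h => hns (by
        rw [neg_eq_neg_one_mul]
        exact ((ZMod.exists_sq_eq_neg_one_iff).mpr (by omega)).mul h)
      rw [ZMod.exists_sq_eq_prime_iff_of_mod_four_eq_one h1 hq2] at h5
      have hp0 : (p : ZMod q) ≠ 0 := fun h => hne ((Nat.prime_dvd_prime_iff_eq hq hp).mp
        ((ZMod.natCast_eq_zero_iff p q).mp h)).symm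
      rw [← quadraticChar_one_iff_isSquare (neg_ne_zero.mpr hp0), neg_eq_neg_one_mul, map_mul,
        quadraticChar_neg_one_iff_not_isSquare.mpr hneg1,
        quadraticChar_neg_one_iff_not_isSquare.mpr h5]
      norm_num
    · have hm1 : ¬ IsSquare (-1 : ZMod p) := fun h => by
        rw [ZMod.exists_sq_eq_neg_one_iff] at h; exact h h3
      have hq0 : (q : ZMod p) ≠ 0 := by rw [hqp]; exact neg_ne_zero.mpr ha0
      have h5 : IsSquare (q : ZMod p) := by
        rw [← quadraticChar_one_iff_isSquare hq0]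
        have hh := quadraticChar_neg_one_iff_not_isSquare.mpr hns
        rw [neg_eq_neg_one_mul, map_mul, quadraticChar_neg_one_iff_not_isSquare.mpr hm1] at hh
        linarith
      rw [ZMod.exists_sq_eq_prime_iff_of_mod_four_eq_three h3 h4 hne] at h5
      have hp0 : (p : ZMod q) ≠ 0 := fun h => hne ((Nat.prime_dvd_prime_iff_eq hq hp).mp
        ((ZMod.natCast_eq_zero_iff p q).mp h)).symm
      rw [← quadraticChar_one_iff_isSquare (neg_ne_zero.mpr hp0), neg_eq_neg_one_mul, map_mul,
        quadraticChar_neg_one_iff_not_isSquare.mpr hneg1,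
        quadraticChar_neg_one_iff_not_isSquare.mpr h5]
      norm_num
  obtain ⟨c, hc⟩ := hkey
  have hdvd : q ∣ c.val ^ 2 + p := by
    rw [← ZMod.natCast_eq_zero_iff]
    push_cast
    rw [ZMod.natCast_zmod_val, sq, ← hc]
    ring
  obtain ⟨m, hm⟩ := hdvd
  exact ⟨⟨q, (q + 1) / 4, m, c.val, by omega, hm.symm, hns⟩⟩

end FLTAgent.Eisen
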