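import Fermat.Agent.Eisen.ThetaAlg

/-!
# The quadratic Gauss sums of the quaternary form modulo `p`

`gaussForm` is evaluated by diagonalisation and one dimensional sums (`gQuad_eq_gaussSum`,
`gaussForm_eq`); see `gaussForm_eq_zero` and `gaussForm_gradVec`.
-/

set_option autoImplicit false

noncomputable section

namespace FLTAgent.Eisen

variable {p : ℕ} [Fact p.Prime]

/-- One dimensional quadratic sum. -/
def gQuad (a b : ZMod p) : ℂ := ∑ y : ZMod p, ZMod.stdAddChar (a * y ^ 2 + b * y)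

/-- The quadratic character with complex values. -/
def chiQ : MulChar (ZMod p) ℂ := (quadraticChar (ZMod p)).ringHomComp (Int.castRingHom ℂ)

theorem two_ne_zero_zmod (hp2 : p ≠ 2) : (2 : ZMod p) ≠ 0 :=
  Ring.two_ne_zero (by rwa [ZMod.ringChar_zmod_n])

theorem gQuad_shift (hp2 : p ≠ 2) {a : ZMod p} (ha : a ≠ 0) (b : ZMod p) :
    gQuad a b = ZMod.stdAddChar (-(b ^ 2 / (4 * a))) * gQuad a 0 := by
  have h2 := two_ne_zero_zmod hp2
  rw [gQuad, gQuad, Finset.mul_sum]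
  refine Fintype.sum_equiv (Equiv.addRight (b / (2 * a))) _ _ fun y => ?_
  rw [← AddChar.map_add_eq_mul]
  congr 1
  simp only [Equiv.coe_addRight]
  rw [show (4 : ZMod p) = 2 * 2 by norm_num]
  field_simp
  ring

theorem gQuad_zero_zero : gQuad (0 : ZMod p) 0 = (p : ℂ) := by
  simp [gQuad, ZMod.card]

theorem gQuad_zero_ne {b : ZMod p} (hb : b ≠ 0) : gQuad 0 b = 0 := by
  have h := AddChar.sum_mulShift b (ZMod.isPrimitive_stdAddChar p)
  rw [if_neg hb] at h
  simp only [gQuad, zero_mul, zero_add]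
  rw [Fintype.sum_congr _ _ (fun y => by rw [mul_comm b y]), h]
  simp

theorem gQuad_eq_gaussSum (hp2 : p ≠ 2) {a : ZMod p} (ha : a ≠ 0) :
    gQuad a 0 = chiQ a * gaussSum (chiQ (p := p)) ZMod.stdAddChar := by
  classical
  have h1 : gQuad a 0 = ∑ t : ZMod p, ((quadraticChar (ZMod p) t : ℂ) + 1) *
      ZMod.stdAddChar (a * t) := by
    simp only [gQuad, zero_mul, add_zero]
    rw [← Finset.sum_fiberwise Finset.univ (fun y : ZMod p => y ^ 2)]
    refine Finset.sum_congr rfl fun t _ => ?_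
    rw [Finset.sum_congr rfl (fun y hy => by rw [(Finset.mem_filter.mp hy).2]),
      Finset.sum_const, nsmul_eq_mul]
    congr 1
    have := quadraticChar_card_sqrts (F := ZMod p) (by rwa [ZMod.ringChar_zmod_n]) t
    rw [Set.toFinset_ofPred] at this
    exact_mod_cast this
  have h2 : ∑ t : ZMod p, (ZMod.stdAddChar (a * t) : ℂ) = 0 := by
    have := AddChar.sum_mulShift a (ZMod.isPrimitive_stdAddChar p)
    rw [if_neg ha] at this
    simpa [mul_comm] using this
  have h3 : gQuad a 0 = gaussSum (chiQ (p := p)) (AddChar.mulShift ZMod.stdAddChar a) := by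
    rw [h1, gaussSum]
    simp only [add_mul, one_mul, Finset.sum_add_distrib, h2, add_zero]
    rfl
  obtain ⟨u, rfl⟩ := ha.isUnit
  have h4 : chiQ (u : ZMod p) * chiQ (u : ZMod p) = 1 := by
    rw [← map_mul, ← sq]
    simp [chiQ, quadraticChar_sq_one' ha]
  rw [h3, ← gaussSum_mulShift (chiQ (p := p)) ZMod.stdAddChar u, ← mul_assoc, h4, one_mul]

theorem gQuad_mul_gQuad (hp2 : p ≠ 2) {a q : ZMod p} (ha : a ≠ 0) (hq : ¬ IsSquare (-q)) :
    gQuad (a * q) 0 * gQuad a 0 = -(p : ℂ) := by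
  have hq0 : q ≠ 0 := fun h => hq (by simp [h])
  rw [gQuad_eq_gaussSum hp2 (mul_ne_zero ha hq0), gQuad_eq_gaussSum hp2 ha]
  have hsq := gaussSum_sq (χ := chiQ (p := p)) (ψ := ZMod.stdAddChar)
    (by
      intro h
      have h5 := congrArg (fun χ : MulChar (ZMod p) ℂ => χ (-q)) h
      simp only [chiQ, MulChar.ringHomComp_apply, quadraticChar_neg_one_iff_not_isSquare.mpr hq,
        MulChar.one_apply (neg_ne_zero.mpr hq0).isUnit] at h5
      norm_num at h5)
    ((quadraticChar_isQuadratic (ZMod p)).comp _) (ZMod.isPrimitive_stdAddChar p)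
  have hval : chiQ (a * q) * chiQ a * chiQ (-1 : ZMod p) = (-1 : ℂ) := by
    simp only [← map_mul]
    rw [show a * q * a * -1 = a ^ 2 * -q by ring, map_mul]
    simp [chiQ, quadraticChar_sq_one' ha, quadraticChar_neg_one_iff_not_isSquare.mpr hq]
  rw [mul_mul_mul_comm, ← sq, hsq, ← mul_assoc, hval]
  simp [ZMod.card]

namespace ThetaData

variable (D : ThetaData p)

theorem q_ne_zero : (D.q : ZMod p) ≠ 0 := fun h => D.not_square (by simp [h])

/-- The complete sum. -/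
def gaussForm (k : ZMod p) (v : Fin 4 → ZMod p) : ℂ :=
  ∑ r : Fin 4 → ZMod p, ZMod.stdAddChar (k * D.form (ZMod p) r + ∑ i, v i * r i)

/-- The diagonalising substitution modulo `p`. -/
def yEquiv (hp2 : p ≠ 2) : (Fin 4 → ZMod p) ≃ (Fin 4 → ZMod p) where
  toFun := yVec (D.q : ZMod p) D.c
  invFun y := (2 * (D.q : ZMod p))⁻¹ • mPrime (D.q : ZMod p) D.c y
  left_inv r := by
    simp only [mPrime_yVec, smul_smul,
      inv_mul_cancel₀ (mul_ne_zero (two_ne_zero_zmod hp2) D.q_ne_zero), one_smul]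
  right_inv y := by
    simp only [yVec_smul, yVec_mPrime, smul_smul,
      inv_mul_cancel₀ (mul_ne_zero (two_ne_zero_zmod hp2) D.q_ne_zero), one_smul]

theorem gaussForm_eq (hp2 : p ≠ 2) (k : ZMod p) (v : Fin 4 → ZMod p) :
    D.gaussForm k v = ∏ i, gQuad (k * aVec (D.q : ZMod p) 0 i / (4 * (D.q : ZMod p)))
      (jVec (D.q : ZMod p) D.c v i / (2 * (D.q : ZMod p))) := by
  simp only [gQuad]
  rw [Fintype.prod_sum, gaussForm]
  refine Fintype.sum_equiv (D.yEquiv hp2) _ _ fun r => ?_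
  simp only [Fin.prod_univ_four, ← AddChar.map_add_eq_mul]
  have hq := D.q_ne_zero
  have h2 := two_ne_zero_zmod hp2
  have h4 : (4 : ZMod p) ≠ 0 := by rw [show (4 : ZMod p) = 2 * 2 by norm_num]; exact mul_ne_zero h2 h2
  congr 1
  have hd := qForm_diag (D.hnR (ZMod p)) (D.hmR (ZMod p)) r
  rw [ZMod.natCast_self] at hd
  have hj := jVec_dot_yVec (D.q : ZMod p) D.c v r
  simp only [Fin.sum_univ_four] at hd hj ⊢
  simp only [yEquiv, Equiv.coe_fn_mk, form]
  have h44 : (4 : ZMod p) = 2 * 2 := by norm_num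
  rw [h44] at hd ⊢
  field_simp
  linear_combination k * hd - 2 * hj

theorem gaussForm_eq_zero (hp2 : p ≠ 2) (k : ZMod p) {v : Fin 4 → ZMod p}
    (h : ¬ (jVec (D.q : ZMod p) D.c v 2 = 0 ∧ jVec (D.q : ZMod p) D.c v 3 = 0)) :
    D.gaussForm k v = 0 := by
  rw [D.gaussForm_eq hp2]
  have hd : (2 * (D.q : ZMod p)) ≠ 0 := mul_ne_zero (two_ne_zero_zmod hp2) D.q_ne_zero
  rcases not_and_or.mp h with h | h
  · refine Finset.prod_eq_zero (Finset.mem_univ 2) ?_
    rw [show k * aVec (D.q : ZMod p) 0 2 / (4 * (D.q : ZMod p)) = 0 by simp [aVec]]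
    exact gQuad_zero_ne (div_ne_zero h hd)
  · refine Finset.prod_eq_zero (Finset.mem_univ 3) ?_
    rw [show k * aVec (D.q : ZMod p) 0 3 / (4 * (D.q : ZMod p)) = 0 by simp [aVec]]
    exact gQuad_zero_ne (div_ne_zero h hd)

theorem gaussForm_gradVec (hp2 : p ≠ 2) {k : ZMod p} (hk : k ≠ 0) (u : Fin 4 → ZMod p) :
    D.gaussForm k (gradVec (D.n : ZMod p) D.m D.c u) =
      -(p : ℂ) ^ 3 * ZMod.stdAddChar (-(k⁻¹ * D.form (ZMod p) u)) := by
  have hn := D.hnR (ZMod p)
  have hm := D.hmR (ZMod p)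
  rw [ZMod.natCast_self] at hm
  have hq := D.q_ne_zero
  have h2 := two_ne_zero_zmod hp2
  have h4 : (4 : ZMod p) ≠ 0 := by rw [show (4 : ZMod p) = 2 * 2 by norm_num]; exact mul_ne_zero h2 h2
  have hdiag := qForm_diag hn hm u
  rw [D.gaussForm_eq hp2]
  simp only [jVec_gradVec hn hm, Fin.prod_univ_four, aVec, Matrix.cons_val, mul_zero, zero_div,
    zero_mul, gQuad_zero_zero, mul_one]
  have hk4 : k / (4 * (D.q : ZMod p)) ≠ 0 := div_ne_zero hk (mul_ne_zero h4 hq)
  rw [gQuad_shift hp2 (div_ne_zero (mul_ne_zero hk hq) (mul_ne_zero h4 hq)),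
    gQuad_shift hp2 hk4, show k * (D.q : ZMod p) / (4 * (D.q : ZMod p)) = k / (4 * (D.q : ZMod p)) * D.q by ring]
  have hgg := gQuad_mul_gQuad hp2 hk4 D.not_square
  have hexp : -(k⁻¹ * D.form (ZMod p) u) =
      -(((D.q : ZMod p) * yVec (D.q : ZMod p) D.c u 0 / (2 * (D.q : ZMod p))) ^ 2 /
          (4 * (k / (4 * (D.q : ZMod p)) * D.q))) +
        -((1 * yVec (D.q : ZMod p) D.c u 1 / (2 * (D.q : ZMod p))) ^ 2 / (4 * (k / (4 * (D.q : ZMod p))))) := by
    have hs : 4 * (D.q : ZMod p) * D.form (ZMod p) u =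
        (D.q : ZMod p) * yVec (D.q : ZMod p) D.c u 0 ^ 2 + yVec (D.q : ZMod p) D.c u 1 ^ 2 := by
      rw [form, hdiag]
      simp [aVec, Fin.sum_univ_four]
    have h44 : (4 : ZMod p) = 2 * 2 := by norm_num
    rw [h44] at hs ⊢
    field_simp
    linear_combination -hs
  rw [hexp, AddChar.map_add_eq_mul]
  linear_combination
    (ZMod.stdAddChar (-(((D.q : ZMod p) * yVec (D.q : ZMod p) D.c u 0 / (2 * (D.q : ZMod p))) ^ 2 /
        (4 * (k / (4 * (D.q : ZMod p)) * (D.q : ZMod p))))) *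
      ZMod.stdAddChar (-((1 * yVec (D.q : ZMod p) D.c u 1 / (2 * (D.q : ZMod p))) ^ 2 /
        (4 * (k / (4 * (D.q : ZMod p)))))) * (p : ℂ) * (p : ℂ)) * hgg

theorem adjVec_eq_zero (hp2 : p ≠ 2) {v : Fin 4 → ZMod p}
    (h2' : jVec (D.q : ZMod p) D.c v 2 = 0) (h3 : jVec (D.q : ZMod p) D.c v 3 = 0) :
    adjVec (D.n : ZMod p) D.m D.c v = 0 := by
  have hq := D.q_ne_zero
  have h2 := two_ne_zero_zmod hp2
  have hn := D.hnR (ZMod p)
  have hm := D.hmR (ZMod p)
  rw [ZMod.natCast_self] at hm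
  simp [jVec] at h2' h3
  have e3 := h3.resolve_left hq
  have e2 : -(D.c : ZMod p) * v 1 + 2 * D.n * v 2 - v 3 = 0 :=
    mul_left_cancel₀ h2 (by linear_combination h2' - e3 + v 2 * hn)
  have e1 : -(D.m : ZMod p) * v 0 + 2 * D.m * v 1 - D.c * v 2 = 0 :=
    mul_left_cancel₀ hq (by linear_combination -(D.c : ZMod p) * h2' + (2 * v 1 - v 0) * hm)
  have e0 : 2 * (D.n : ZMod p) * D.m * v 0 - D.m * v 1 + D.c * v 3 = 0 :=
    mul_left_cancel₀ h2 (by
      linear_combination (D.c : ZMod p) * e3 - e1 + (D.m * v 0) * hn + v 0 * hm)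
  funext i
  fin_cases i <;> simp [adjVec] <;>
    (first
      | linear_combination e0
      | linear_combination e1
      | linear_combination e2
      | linear_combination e3)

end ThetaData

end FLTAgent.Eisen
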