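import Fermat.Agent.Eisen.ThetaTransform
import Fermat.Agent.Eisen.ThetaGauss
import Fermat.Agent.Eisen.Scale

/-!
# The theta series of the quaternary form of level `p`

`theta` with its expansion by representation numbers (`hasQ_theta`), its transformation under `S`
(`theta_slash_S`, `fricke_theta`) and its translates `θ | S T^k` (`theta_slash_ST`), from
Poisson summation and the Gauss sums.
-/

set_option autoImplicit false

open UpperHalfPlane CongruenceSubgroup Matrix.SpecialLinearGroup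
open scoped MatrixGroups ModularForm Manifold

noncomputable section

namespace FLTAgent.Eisen

theorem summable_const_finite {β : Type*} {c : ℂ} (hc : c ≠ 0) (h : Summable fun _ : β => c) :
    Finite β := by
  rcases finite_or_infinite β with hf | hi
  · exact hf
  · exact absurd ((summable_const_iff c).mp h) hc

theorem gradVec_map {R S : Type*} [CommRing R] [CommRing S] (f : R →+* S) (n m c : R)
    (u : Fin 4 → R) (i : Fin 4) :
    f (gradVec n m c u i) = gradVec (f n) (f m) (f c) (fun j => f (u j)) i := by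
  fin_cases i <;> simp [gradVec, map_ofNat]

theorem adjVec_map {R S : Type*} [CommRing R] [CommRing S] (f : R →+* S) (n m c : R)
    (u : Fin 4 → R) (i : Fin 4) :
    f (adjVec n m c u i) = adjVec (f n) (f m) (f c) (fun j => f (u j)) i := by
  fin_cases i <;> simp [adjVec, map_ofNat]

theorem phiVec_map {R S : Type*} [CommRing R] [CommRing S] (f : R →+* S) (c : R)
    (u : Fin 4 → R) (i : Fin 4) :
    f (phiVec c u i) = phiVec (f c) (fun j => f (u j)) i := by
  fin_cases i <;> simp [phiVec]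

theorem gradVec_smul {R : Type*} [CommRing R] (n m c a : R) (u : Fin 4 → R) :
    gradVec n m c (a • u) = a • gradVec n m c u := by
  funext i; fin_cases i <;> simp [gradVec] <;> ring

theorem ee_intCast_div (p : ℕ) [NeZero p] (z : ℤ) :
    ee ((z : ℂ) / p) = ZMod.stdAddChar (z : ZMod p) := by
  rw [ZMod.stdAddChar_coe, ee]
  ring_nf

theorem im_div_pos {z : ℂ} (hz : 0 < z.im) (p : ℕ) [NeZero p] : 0 < (z / p).im := by
  rw [Complex.div_natCast_im]
  exact div_pos hz (natCast_posR p)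

theorem im_neg_inv_pos {z : ℂ} (hz : 0 < z.im) : 0 < (-1 / z).im := by
  have h0 : z ≠ 0 := fun h => by simp [h] at hz
  rw [neg_div, Complex.neg_im, one_div, Complex.inv_im, neg_div, neg_neg]
  exact div_pos hz (Complex.normSq_pos.mpr h0)

namespace ThetaData

variable {p : ℕ} [Fact p.Prime] (D : ThetaData p)

/-- The theta series. -/
def thetaC (z : ℂ) : ℂ := ∑' v : Fin 4 → ℤ, ee ((D.form ℤ v : ℂ) * z)

/-- The theta series on the upper half plane. -/
def theta (τ : ℍ) : ℂ := D.thetaC τ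

omit [Fact p.Prime] in
theorem thetaC_add_int (z : ℂ) (k : ℤ) : D.thetaC (z + k) = D.thetaC z := by
  refine tsum_congr fun v => ?_
  rw [mul_add, ee_add, ← Int.cast_mul, ee_int, mul_one]

omit [Fact p.Prime] in
theorem form_phi_cast (v : Fin 4 → ℤ) :
    D.form ℂ (phiVec (D.c : ℂ) fun i => (v i : ℂ)) =
      (D.form ℤ (phiVec (D.c : ℤ) v) : ℂ) := by
  rw [D.form_intCast]
  congr 1
  funext i
  have := phiVec_map (Int.castRingHom ℂ) (D.c : ℤ) v i
  simp at this
  exact this.symm

theorem hasSum_theta_inv {τ : ℂ} (hτ : 0 < τ.im) :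
    Summable (fun v : Fin 4 → ℤ => ee ((D.form ℤ v : ℂ) * (τ / p))) ∧
    HasSum (fun v : Fin 4 → ℤ => ee ((D.form ℤ v : ℂ) * (-1 / τ)))
      (-τ ^ 2 / p * D.thetaC (τ / p)) := by
  obtain ⟨h1, h2⟩ := D.theta_transform (fun _ => 0) hτ
  simp only [Complex.ofReal_zero, mul_zero, Finset.sum_const_zero, add_zero, D.form_phi_cast,
    mul_div_assoc, ← D.form_intCast] at h1 h2
  rw [show (fun v : Fin 4 → ℤ => ee ((D.form ℤ (phiVec (D.c : ℤ) v) : ℂ) * (τ / p))) =
    (fun v => ee ((D.form ℤ v : ℂ) * (τ / p))) ∘ phiEquiv (D.c : ℤ) from rfl] at h1 h2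
  rw [(phiEquiv (D.c : ℤ)).summable_iff] at h1
  have h3 := (phiEquiv (D.c : ℤ)).tsum_eq fun v => ee ((D.form ℤ v : ℂ) * (τ / p))
  refine ⟨h1, ?_⟩
  unfold thetaC
  rw [← h3]
  exact h2

theorem hasSum_theta {σ : ℂ} (hσ : 0 < σ.im) :
    HasSum (fun v : Fin 4 → ℤ => ee ((D.form ℤ v : ℂ) * σ)) (D.thetaC σ) := by
  have h := (D.hasSum_theta_inv (im_neg_inv_pos hσ)).2
  have h0 : σ ≠ 0 := fun h => by simp [h] at hσ
  rw [show -1 / (-1 / σ) = σ by field_simp] at h
  exact h.summable.hasSum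

/-- The representation numbers. -/
def repNum (m : ℕ) : ℕ := Nat.card {v : Fin 4 → ℤ // (D.form ℤ v).toNat = m}

/-- The series of the theta function. -/
def thetaSeries : PowerSeries ℂ := PowerSeries.mk fun m => (D.repNum m : ℂ)

/-- The expansion of theta by representation numbers. -/
theorem hasQ_theta : HasQ 1 D.theta D.thetaSeries := by
  intro τ
  let f : (Fin 4 → ℤ) → ℕ := fun v => (D.form ℤ v).toNat
  have h := D.hasSum_theta τ.im_pos
  rw [← (Equiv.sigmaFiberEquiv f).hasSum_iff] at h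
  refine h.sigma fun m => ?_
  have hval : ∀ v : {v : Fin 4 → ℤ // f v = m},
      ee ((D.form ℤ v.1 : ℂ) * τ) = Function.Periodic.qParam 1 τ ^ m := by
    intro v
    have : D.form ℤ v.1 = (m : ℤ) := by
      have := D.form_nonneg v.1
      have := v.2
      simp only [f] at this
      omega
    rw [this, Int.cast_natCast, ee_nat_mul]
    simp [ee, Function.Periodic.qParam]
  have hs : Summable fun v : {v : Fin 4 → ℤ // f v = m} => ee ((D.form ℤ v.1 : ℂ) * τ) :=
    (D.hasSum_theta τ.im_pos).summable.subtype _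
  rw [funext hval] at hs
  have : Finite {v : Fin 4 → ℤ // f v = m} :=
    summable_const_finite (pow_ne_zero _ (Complex.exp_ne_zero _)) hs
  have := Fintype.ofFinite {v : Fin 4 → ℤ // f v = m}
  simp only [Function.comp_apply, Equiv.sigmaFiberEquiv_apply]
  refine HasSum.congr_fun ?_ (fun v => hval v)
  convert hasSum_fintype
    (fun _ : {v : Fin 4 → ℤ // f v = m} => Function.Periodic.qParam 1 (τ : ℂ) ^ m) using 1
  simp [thetaSeries, repNum, f, Nat.card_eq_fintype_card]

theorem theta_slash_S (τ : ℍ) :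
    (D.theta ∣[(2 : ℤ)] ModularGroup.S) τ = -(1 / p) * D.thetaC ((τ : ℂ) / p) := by
  rw [ModularForm.SL_slash_apply, ModularGroup.denom_S, theta,
    show ((ModularGroup.S • τ : ℍ) : ℂ) = -1 / (τ : ℂ) by rw [modular_S_smul]; simp [neg_div, inv_neg]]
  have h : D.thetaC (-1 / (τ : ℂ)) = -(τ : ℂ) ^ 2 / p * D.thetaC ((τ : ℂ) / p) :=
    (D.hasSum_theta_inv τ.im_pos).2.tsum_eq
  rw [h]
  have := UpperHalfPlane.ne_zero τ
  simp only [zpow_neg, zpow_two]
  field_simp

/-- The theta series is anti-invariant under the Fricke involution. -/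
theorem fricke_theta : fricke p 2 D.theta = -D.theta := by
  funext τ
  have hp : (p : ℂ) ≠ 0 := Nat.cast_ne_zero.mpr (NeZero.ne p)
  rw [fricke, D.theta_slash_S, coe_scaleH, Complex.ofReal_natCast, mul_div_cancel_left₀ _ hp,
    show (2 : ℤ) - 1 = 1 by norm_num, zpow_one, Pi.neg_apply, theta]
  field_simp

/-- The translates `θ | S T^k`. -/
theorem theta_slash_ST (k : ℤ) (τ : ℍ) :
    (D.theta ∣[(2 : ℤ)] (ModularGroup.S * ModularGroup.T ^ k)) τ =
      -(1 / p) * D.thetaC (((τ : ℂ) + k) / p) := by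
  rw [SlashAction.slash_mul, slash_T_zpow_apply, D.theta_slash_S, coe_vadd]
  push_cast
  rw [add_comm]

theorem theta_slash_ST_congr {k l : ℤ} (h : (k : ZMod p) = l) :
    D.theta ∣[(2 : ℤ)] (ModularGroup.S * ModularGroup.T ^ k) =
      D.theta ∣[(2 : ℤ)] (ModularGroup.S * ModularGroup.T ^ l) := by
  funext τ
  rw [D.theta_slash_ST, D.theta_slash_ST]
  congr 1
  rw [ZMod.intCast_eq_intCast_iff_dvd_sub] at h
  obtain ⟨e, he⟩ := h
  have hl : l = k + p * e := by linarith
  rw [hl, ← D.thetaC_add_int (((τ : ℂ) + k) / p) e]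
  congr 1
  have hp : (p : ℂ) ≠ 0 := Nat.cast_ne_zero.mpr (NeZero.ne p)
  push_cast
  field_simp
  ring

/-- Splitting the lattice modulo `p`. -/
def modEquiv : (Fin 4 → ZMod p) × (Fin 4 → ℤ) ≃ (Fin 4 → ℤ) where
  toFun x i := (p : ℤ) * x.2 i + ((x.1 i).val : ℤ)
  invFun v := (fun i => (v i : ZMod p), fun i => v i / (p : ℤ))
  left_inv := by
    rintro ⟨r, w⟩
    refine Prod.ext (funext fun i => ?_) (funext fun i => ?_)
    · simp
    · have hp : (0 : ℤ) < p := by exact_mod_cast NeZero.pos p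
      have hr : ((r i).val : ℤ) < p := by exact_mod_cast ZMod.val_lt (r i)
      simp only
      rw [add_comm, Int.add_mul_ediv_left _ _ hp.ne',
        Int.ediv_eq_zero_of_lt (by positivity) hr, zero_add]
  right_inv v := by
    funext i
    simp only
    rw [ZMod.val_intCast]
    exact Int.mul_ediv_add_emod (v i) p

theorem range_gradVec {v : Fin 4 → ℤ} (hp2 : p ≠ 2)
    (h2 : jVec (D.q : ZMod p) D.c (fun i => (v i : ZMod p)) 2 = 0)
    (h3 : jVec (D.q : ZMod p) D.c (fun i => (v i : ZMod p)) 3 = 0) :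
    ∃ u : Fin 4 → ℤ, gradVec (D.n : ℤ) D.m D.c u = v := by
  have h := D.adjVec_eq_zero hp2 h2 h3
  have hdvd : ∀ i, (p : ℤ) ∣ adjVec (D.n : ℤ) D.m D.c v i := by
    intro i
    rw [← ZMod.intCast_zmod_eq_zero_iff_dvd]
    have := adjVec_map (Int.castRingHom (ZMod p)) (D.n : ℤ) D.m D.c v i
    simp at this
    rw [this, h]
    rfl
  choose u hu using hdvd
  refine ⟨u, ?_⟩
  have e := gradVec_adjVec (D.hnR ℤ) (D.hmR ℤ) v
  rw [show adjVec (D.n : ℤ) D.m D.c v = (p : ℤ) • u from funext hu, gradVec_smul] at e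
  exact (smul_right_injective _ (Int.natCast_ne_zero.mpr (NeZero.ne p))) e

theorem thetaC_inv (hp2 : p ≠ 2) {τ : ℂ} (hτ : 0 < τ.im) {k k' : ℤ}
    (hk : (k : ZMod p) * k' = -1) :
    D.thetaC ((-1 / τ + k) / p) = τ ^ 2 * D.thetaC ((τ + k') / p) := by
  have hp : (p : ℂ) ≠ 0 := Nat.cast_ne_zero.mpr (NeZero.ne p)
  have hτ0 : τ ≠ 0 := fun h => by simp [h] at hτ
  have hk0 : (k : ZMod p) ≠ 0 := fun h => by simp [h] at hk
  have hk' : (k' : ZMod p) = -(k : ZMod p)⁻¹ := by field_simp; linear_combination hk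
  let x : (Fin 4 → ZMod p) → Fin 4 → ℝ := fun r i => ((r i).val : ℝ) / p
  let K : (Fin 4 → ℤ) → ℂ := fun v => ee ((D.form ℤ (phiVec (D.c : ℤ) v) : ℂ) * (τ / p ^ 2))
  have htr := fun r : Fin 4 → ZMod p => D.theta_transform (x r) (im_div_pos hτ p)
  have hdual : ∀ (r : Fin 4 → ZMod p) (v : Fin 4 → ℤ),
      ee (D.form ℂ (phiVec (D.c : ℂ) fun i => (v i : ℂ)) * (τ / p) / p +
          ∑ i, (v i : ℂ) * (x r i : ℝ)) =
        K v * ZMod.stdAddChar (∑ i, (v i : ZMod p) * r i) := by
    intro r v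
    rw [ee_add, D.form_phi_cast]
    congr 1
    · simp only [K]; congr 1; ring
    · rw [show (∑ i, (v i : ℂ) * (x r i : ℝ)) = ((∑ i, v i * ((r i).val : ℤ) : ℤ) : ℂ) / p by
        push_cast [x, Finset.sum_div]; exact Finset.sum_congr rfl fun i _ => by ring,
        ee_intCast_div]
      congr 1
      push_cast
      simp
  have hprim : ∀ (r : Fin 4 → ZMod p) (w : Fin 4 → ℤ),
      ee ((D.form ℤ (modEquiv (r, w)) : ℂ) * ((-1 / τ + k) / p)) =
        ZMod.stdAddChar ((k : ZMod p) * D.form (ZMod p) r) *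
          ee (D.form ℂ (fun i => (w i : ℂ) + (x r i : ℝ)) * (-1 / (τ / p))) := by
    intro r w
    have hb : (D.form ℤ (modEquiv (r, w)) : ℂ) =
        (p : ℂ) ^ 2 * D.form ℂ (fun i => (w i : ℂ) + (x r i : ℝ)) := by
      rw [D.form_intCast, form, form, ← qForm_smul]
      congr 1
      funext i
      simp [modEquiv, x, -ZMod.natCast_val]
      field_simp
    have hmod : ((D.form ℤ (modEquiv (r, w)) : ℤ) : ZMod p) = D.form (ZMod p) r := by
      rw [D.form_intCast]
      congr 1
      funext i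
      simp [modEquiv]
    rw [add_div, mul_add, ee_add, mul_comm (ee _)]
    congr 1
    · rw [← mul_div_assoc, ← Int.cast_mul, ee_intCast_div]
      congr 1
      push_cast
      rw [hmod, mul_comm]
    · rw [hb]
      congr 1
      field_simp
  have hC : HasSum (fun v : Fin 4 → ℤ => ee ((D.form ℤ v : ℂ) * ((-1 / τ + k) / p)))
      (∑ r : Fin 4 → ZMod p, ZMod.stdAddChar ((k : ZMod p) * D.form (ZMod p) r) *
        (-(τ / p) ^ 2 / p *
          ∑' v, K v * ZMod.stdAddChar (∑ i, (v i : ZMod p) * r i))) := by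
    rw [← (modEquiv (p := p)).hasSum_iff]
    have hfin : ∀ r : Fin 4 → ZMod p, HasSum (fun w : Fin 4 → ℤ =>
          ee ((D.form ℤ (modEquiv (r, w)) : ℂ) * ((-1 / τ + k) / p)))
        (ZMod.stdAddChar ((k : ZMod p) * D.form (ZMod p) r) *
          (-(τ / p) ^ 2 / p *
            ∑' v, K v * ZMod.stdAddChar (∑ i, (v i : ZMod p) * r i))) := fun r => by
      have h2 := (htr r).2.mul_left (ZMod.stdAddChar ((k : ZMod p) * D.form (ZMod p) r) : ℂ)
      rw [tsum_congr (hdual r)] at h2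
      exact h2.congr_fun (hprim r)
    exact (hasSum_fintype_prod hfin).congr_fun fun z => rfl
  have hsum : ∀ r : Fin 4 → ZMod p,
      HasSum (fun v => ZMod.stdAddChar ((k : ZMod p) * D.form (ZMod p) r) *
          (K v * ZMod.stdAddChar (∑ i, (v i : ZMod p) * r i)))
        (ZMod.stdAddChar ((k : ZMod p) * D.form (ZMod p) r) *
          ∑' v, K v * ZMod.stdAddChar (∑ i, (v i : ZMod p) * r i)) := fun r => by
    have := (htr r).1
    rw [funext (hdual r)] at this
    exact this.hasSum.mul_left _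
  have hG : HasSum (fun v => K v * D.gaussForm (k : ZMod p) (fun i => (v i : ZMod p)))
      (∑ r : Fin 4 → ZMod p, ZMod.stdAddChar ((k : ZMod p) * D.form (ZMod p) r) *
          ∑' v, K v * ZMod.stdAddChar (∑ i, (v i : ZMod p) * r i)) := by
    refine (hasSum_sum fun r (_ : r ∈ Finset.univ) => hsum r).congr_fun fun v => ?_
    rw [gaussForm, Finset.mul_sum]
    refine Finset.sum_congr rfl fun r _ => ?_
    rw [AddChar.map_add_eq_mul]
    ring
  have hinj : Function.Injective (gradVec (D.n : ℤ) (D.m : ℤ) (D.c : ℤ)) := by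
    intro u w h
    have h1 := congrArg (adjVec (D.n : ℤ) D.m D.c) h
    rw [adjVec_gradVec (D.hnR ℤ) (D.hmR ℤ), adjVec_gradVec (D.hnR ℤ) (D.hmR ℤ)] at h1
    exact smul_right_injective _ (Int.natCast_ne_zero.mpr (NeZero.ne p)) h1
  rw [← hinj.hasSum_iff] at hG
  swap
  · intro v hv
    rw [D.gaussForm_eq_zero hp2, mul_zero]
    rintro ⟨h2, h3⟩
    exact hv (D.range_gradVec hp2 h2 h3)
  have hterm : ∀ u : Fin 4 → ℤ, K (gradVec (D.n : ℤ) D.m D.c u) *
      D.gaussForm (k : ZMod p) (fun i => ((gradVec (D.n : ℤ) D.m D.c u i : ℤ) : ZMod p)) =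
        -(p : ℂ) ^ 3 * ee ((D.form ℤ u : ℂ) * ((τ + k') / p)) := by
    intro u
    have hcast : (fun i => ((gradVec (D.n : ℤ) D.m D.c u i : ℤ) : ZMod p)) =
        gradVec (D.n : ZMod p) D.m D.c (fun i => (u i : ZMod p)) := by
      funext i
      have := gradVec_map (Int.castRingHom (ZMod p)) (D.n : ℤ) D.m D.c u i
      simp at this
      exact this
    have hQ : D.form ℤ (phiVec (D.c : ℤ) (gradVec (D.n : ℤ) D.m D.c u)) = p * D.form ℤ u :=
      mul_left_cancel₀ (by have := D.q_pos; positivity)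
        (qForm_phi_gradVec (D.hnR ℤ) (D.hmR ℤ) u)
    rw [hcast, D.gaussForm_gradVec hp2 hk0, add_div, mul_add, ee_add]
    simp only [K, hQ]
    rw [← neg_mul, ← hk', ← D.form_intCast (ZMod p), ← Int.cast_mul, ← ee_intCast_div]
    push_cast
    rw [show ((p : ℂ) * (D.form ℤ u : ℂ)) * (τ / (p : ℂ) ^ 2) = (D.form ℤ u : ℂ) * (τ / p) by
      field_simp]
    ring_nf
  simp only [Function.comp_def, hterm] at hG
  have hval := hG.tsum_eq
  rw [tsum_mul_left] at hval
  rw [thetaC, hC.tsum_eq, thetaC]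
  simp only [mul_left_comm (ZMod.stdAddChar _ : ℂ) (-(τ / p) ^ 2 / p : ℂ), ← Finset.mul_sum]
  rw [← hval]
  field_simp
  exact tsum_congr fun v => by ring_nf

end ThetaData

end FLTAgent.Eisen
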