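import Fermat.Agent.Eisen.ThetaAlg
import Fermat.Agent.Eisen.GaussPoisson

/-!
# Poisson summation for translates of the quaternary lattice

`theta_transform`: the theta transformation for every translate, by splitting the lattice
(`splitEquiv`), the one dimensional Gaussian transformation, and character sums.
-/

set_option autoImplicit false

open Complex Real

noncomputable section

namespace FLTAgent.Eisen

theorem hasSum_fintype_prod {ι β : Type*} [Fintype ι] {f : ι → β → ℂ} {a : ι → ℂ}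
    (h : ∀ i, HasSum (f i) (a i)) :
    HasSum (fun x : ι × β => f x.1 x.2) (∑ i, a i) := by
  classical
  have hg : ∀ i, HasSum (fun x : ι × β => if x.1 = i then f i x.2 else 0) (a i) := by
    intro i
    rw [← (Prod.mk_right_injective i).hasSum_iff]
    · exact (h i).congr_fun fun b => by simp
    · intro x hx
      rw [if_neg]
      exact fun e => hx ⟨x.2, by rw [← e]⟩
  refine (hasSum_sum fun i (_ : i ∈ Finset.univ) => hg i).congr_fun fun x => ?_
  simp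

theorem eq_of_mul_add_fin {d : ℕ} {a a' : ℤ} {r r' : Fin d}
    (h : (d : ℤ) * a + r = d * a' + r') : a = a' ∧ r = r' := by
  have hr : ((r : ℕ) : ℤ) = r' := by
    have h' := congrArg (· % (d : ℤ)) h
    simp only [Int.mul_add_emod_self_left] at h'
    rwa [Int.emod_eq_of_lt (by positivity) (by exact_mod_cast r.isLt),
      Int.emod_eq_of_lt (by positivity) (by exact_mod_cast r'.isLt)] at h'
  refine ⟨?_, Fin.ext (by exact_mod_cast hr)⟩
  rw [hr] at h
  exact mul_left_cancel₀ (by have := r.isLt; omega) (add_right_cancel h)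

theorem exists_mul_add_fin (d : ℕ) [NeZero d] (z : ℤ) :
    ∃ (a : ℤ) (r : Fin d), (d : ℤ) * a + r = z := by
  have hd : (d : ℤ) ≠ 0 := Int.natCast_ne_zero.mpr (NeZero.ne d)
  have hd' : (0 : ℤ) < d := by exact_mod_cast NeZero.pos d
  refine ⟨z / d, ⟨(z % d).toNat, ?_⟩, ?_⟩
  · have := Int.emod_lt_of_pos z hd'; have := Int.emod_nonneg z hd; omega
  · rw [Fin.val_mk, Int.toNat_of_nonneg (Int.emod_nonneg z hd)]
    exact Int.mul_ediv_add_emod z d

theorem eq_int_of_geom_ne_zero {d : ℕ} {θ : ℂ} {k : ℤ} (h : (d : ℂ) * θ = k)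
    (hne : ∑ r : Fin d, ee ((r : ℕ) * θ) ≠ 0) : ∃ a : ℤ, θ = a := by
  by_contra hc
  apply hne
  simp only [ee_nat_mul]
  rw [Fin.sum_univ_eq_sum_range (fun r => ee θ ^ r) d]
  have h1 : ee θ ≠ 1 := by
    intro e
    obtain ⟨a, ha⟩ := Complex.exp_eq_one_iff.mp e
    refine hc ⟨a, ?_⟩
    have h2 : (2 * (π : ℂ) * Complex.I) ≠ 0 := by simp [Real.pi_ne_zero]
    exact mul_left_cancel₀ h2 (by linear_combination ha)
  rw [geom_sum_eq h1, ← ee_nat_mul, h, ee_int, sub_self, zero_div]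

namespace ThetaData

variable {p : ℕ} (D : ThetaData p)

/-- Representatives of the lattice modulo `mPrime ℤ⁴`. -/
abbrev Idx : Type := Fin D.q × Fin 2 × Fin D.q × Fin (2 * D.q)

/-- The representative vector. -/
def toVec (r : D.Idx) : Fin 4 → ℤ :=
  ![((r.1 : ℕ) : ℤ), ((r.2.1 : ℕ) : ℤ), ((r.2.2.1 : ℕ) : ℤ), ((r.2.2.2 : ℕ) : ℤ)]

theorem split_bijective :
    Function.Bijective fun x : D.Idx × (Fin 4 → ℤ) =>
      mPrime (D.q : ℤ) D.c x.2 + D.toVec x.1 := by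
  constructor
  · rintro ⟨⟨r0, r1, r2, r3⟩, u⟩ ⟨⟨s0, s1, s2, s3⟩, w⟩ h
    simp only at h
    have e3 := congrFun h 3
    have e2 := congrFun h 2
    have e1 := congrFun h 1
    have e0 := congrFun h 0
    simp [mPrime, toVec] at e0 e1 e2 e3
    obtain ⟨h3, k3⟩ := eq_of_mul_add_fin (d := 2 * D.q) (r := r3) (r' := s3) (a := u 3)
      (a' := w 3) (by push_cast; linear_combination e3)
    obtain ⟨h2, k2⟩ := eq_of_mul_add_fin (r := r2) (r' := s2) (a := u 2) (a' := w 2)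
      (by linear_combination e2 + (D.q : ℤ) * h3)
    obtain ⟨h1, k1⟩ := eq_of_mul_add_fin (d := 2) (r := r1) (r' := s1) (a := u 1) (a' := w 1)
      (by push_cast; linear_combination e1 + 2 * (D.c : ℤ) * h2)
    obtain ⟨h0, k0⟩ := eq_of_mul_add_fin (r := r0) (r' := s0) (a := u 0) (a' := w 0)
      (by linear_combination e0 + h1 - (D.c : ℤ) * h2 - (D.q : ℤ) * D.c * h3)
    subst k0 k1 k2 k3
    rw [show u = w from funext fun i => by fin_cases i <;> assumption]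
  · intro v
    obtain ⟨a3, r3, h3⟩ := exists_mul_add_fin (2 * D.q) (v 3)
    obtain ⟨a2, r2, h2⟩ := exists_mul_add_fin D.q (v 2 + D.q * a3)
    obtain ⟨a1, r1, h1⟩ := exists_mul_add_fin 2 (v 1 + 2 * D.c * a2)
    obtain ⟨a0, r0, h0⟩ := exists_mul_add_fin D.q (v 0 + a1 - D.c * a2 - D.q * D.c * a3)
    refine ⟨((r0, r1, r2, r3), ![a0, a1, a2, a3]), funext fun i => ?_⟩
    push_cast at h1 h3
    fin_cases i <;> simp [mPrime, toVec]
    · linear_combination h0
    · linear_combination h1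
    · linear_combination h2
    · linear_combination h3

/-- The splitting of the lattice. -/
def splitEquiv : D.Idx × (Fin 4 → ℤ) ≃ (Fin 4 → ℤ) := Equiv.ofBijective _ D.split_bijective

theorem splitEquiv_apply (r : D.Idx) (u : Fin 4 → ℤ) :
    D.splitEquiv (r, u) = mPrime (D.q : ℤ) D.c u + D.toVec r := rfl

theorem qC_ne : (D.q : ℂ) ≠ 0 := Nat.cast_ne_zero.mpr D.q_pos.ne'

/-- The character sum over the representatives. -/
def charSum (j : Fin 4 → ℤ) : ℂ :=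
  ∑ r : D.Idx,
    ee (∑ i, (j i : ℂ) * yVec (D.q : ℂ) D.c (fun i => (D.toVec r i : ℂ)) i / (2 * D.q))

/-- The solution of `jVec θ = j`. -/
def invJ (j : Fin 4 → ℤ) : Fin 4 → ℂ :=
  let a : ℂ := (j 0 : ℂ) / D.q
  let b : ℂ := ((j 1 : ℂ) + a) / 2
  let e : ℂ := ((j 2 : ℂ) - D.c * a + 2 * D.c * b) / D.q
  ![a, b, e, ((j 3 : ℂ) / D.q - D.c * a + e) / 2]

theorem jVec_invJ (j : Fin 4 → ℤ) :
    jVec (D.q : ℂ) D.c (D.invJ j) = fun i => (j i : ℂ) := by
  have hq := D.qC_ne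
  funext i; fin_cases i <;> simp [jVec, invJ] <;> field_simp <;> ring

theorem charSum_eq_prod (j : Fin 4 → ℤ) :
    D.charSum j = (∑ r : Fin D.q, ee ((r : ℕ) * D.invJ j 0)) *
      ((∑ r : Fin 2, ee ((r : ℕ) * D.invJ j 1)) *
        ((∑ r : Fin D.q, ee ((r : ℕ) * D.invJ j 2)) *
          ∑ r : Fin (2 * D.q), ee ((r : ℕ) * D.invJ j 3))) := by
  have hterm : ∀ r : D.Idx,
      ee (∑ i, (j i : ℂ) * yVec (D.q : ℂ) D.c (fun i => (D.toVec r i : ℂ)) i / (2 * D.q)) =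
        ee ((r.1 : ℕ) * D.invJ j 0) * (ee ((r.2.1 : ℕ) * D.invJ j 1) *
          (ee ((r.2.2.1 : ℕ) * D.invJ j 2) * ee ((r.2.2.2 : ℕ) * D.invJ j 3))) := by
    intro r
    rw [← Finset.sum_div,
      show (∑ i, (j i : ℂ) * yVec (D.q : ℂ) D.c (fun i => (D.toVec r i : ℂ)) i) =
        ∑ i, jVec (D.q : ℂ) D.c (D.invJ j) i *
          yVec (D.q : ℂ) D.c (fun i => (D.toVec r i : ℂ)) i by rw [D.jVec_invJ],
      jVec_dot_yVec, mul_div_cancel_left₀ _ (by simp [D.qC_ne]), Fin.sum_univ_four,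
      ← ee_add, ← ee_add, ← ee_add]
    simp [toVec]
    ring_nf
  rw [charSum, Fintype.sum_congr _ _ hterm]
  simp only [Fintype.sum_prod_type, ← Finset.mul_sum, ← Finset.sum_mul]

theorem jVec_cast (v : Fin 4 → ℤ) (i : Fin 4) :
    ((jVec (D.q : ℤ) D.c v i : ℤ) : ℂ) = jVec (D.q : ℂ) D.c (fun i => (v i : ℂ)) i := by
  fin_cases i <;> simp [jVec]

theorem jVec_injective : Function.Injective (jVec (D.q : ℤ) (D.c : ℤ)) := by
  intro v w h
  have hq : (D.q : ℤ) ≠ 0 := Int.natCast_ne_zero.mpr D.q_pos.ne'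
  have e0 := congrFun h 0
  have e1 := congrFun h 1
  have e2 := congrFun h 2
  have e3 := congrFun h 3
  simp [jVec] at e0 e1 e2 e3
  have h0 : v 0 = w 0 := e0.resolve_right D.q_pos.ne'
  have h1 : v 1 = w 1 := mul_left_cancel₀ two_ne_zero (by linear_combination e1 + h0)
  have h2 : v 2 = w 2 :=
    mul_left_cancel₀ hq (by linear_combination e2 - (D.c : ℤ) * h0 + 2 * (D.c : ℤ) * h1)
  have h3 : v 3 = w 3 := mul_left_cancel₀ two_ne_zero (by
    linear_combination (e3.resolve_right D.q_pos.ne') - (D.c : ℤ) * h0 + h2)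
  funext i; fin_cases i <;> assumption

theorem charSum_jVec (v : Fin 4 → ℤ) :
    D.charSum (jVec (D.q : ℤ) D.c v) = 4 * (D.q : ℂ) ^ 3 := by
  have hterm : ∀ r : D.Idx, ee (∑ i, ((jVec (D.q : ℤ) D.c v i : ℤ) : ℂ) *
      yVec (D.q : ℂ) D.c (fun i => (D.toVec r i : ℂ)) i / (2 * D.q)) = 1 := by
    intro r
    rw [← Finset.sum_div]
    simp only [D.jVec_cast]
    rw [jVec_dot_yVec, mul_div_cancel_left₀ _ (by simp [D.qC_ne])]
    convert ee_int (∑ i, v i * D.toVec r i) using 2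
    push_cast; rfl
  rw [charSum, Fintype.sum_congr _ _ hterm]
  simp [Finset.card_univ]
  ring

theorem charSum_eq_zero {j : Fin 4 → ℤ} (hj : j ∉ Set.range (jVec (D.q : ℤ) (D.c : ℤ))) :
    D.charSum j = 0 := by
  by_contra hne
  rw [D.charSum_eq_prod] at hne
  simp only [mul_ne_zero_iff] at hne
  obtain ⟨n0, n1, n2, n3⟩ := hne
  have hq := D.qC_ne
  have e := fun i => congrFun (D.jVec_invJ j) i
  have e0 := e 0; have e1 := e 1; have e2 := e 2; have e3 := e 3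
  simp [jVec] at e0 e1 e2 e3
  obtain ⟨a, ha⟩ := eq_int_of_geom_ne_zero (k := j 0) e0 n0
  obtain ⟨b, hb⟩ := eq_int_of_geom_ne_zero (k := j 1 + a)
    (by push_cast; rw [← ha]; linear_combination e1) n1
  obtain ⟨e', he⟩ := eq_int_of_geom_ne_zero (k := j 2 - D.c * a + 2 * D.c * b)
    (by push_cast; rw [← ha, ← hb]; linear_combination e2) n2
  obtain ⟨d, hd⟩ := eq_int_of_geom_ne_zero (k := j 3 - D.q * D.c * a + D.q * e')
    (by push_cast; rw [← ha, ← he]; linear_combination e3) n3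
  refine hj ⟨![a, b, e', d], funext fun i => Int.cast_injective (α := ℂ) ?_⟩
  rw [D.jVec_cast, ← congrFun (D.jVec_invJ j) i]
  congr 2
  funext k; fin_cases k <;> simp [ha, hb, he, hd]

/-- The Gaussian weights. -/
def alVec (i : Fin 4) : ℝ := D.q * aVec (D.q : ℝ) p i

variable [NeZero p]

theorem alVec_pos (i : Fin 4) : 0 < D.alVec i := by
  have : (0 : ℝ) < D.q := Nat.cast_pos.mpr D.q_pos
  have : (0 : ℝ) < p := Nat.cast_pos.mpr (NeZero.pos p)
  obtain ⟨k, hk⟩ := Nat.exists_eq_succ_of_ne_zero D.q_pos.ne'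
  obtain ⟨l, hl⟩ := Nat.exists_eq_succ_of_ne_zero (NeZero.ne p)
  subst hl
  fin_cases i <;> simp [alVec, aVec, hk] <;> positivity

omit [NeZero p] in
theorem sqrt_prod_alVec : Real.sqrt (∏ i, 2 * D.alVec i) = 4 * (D.q : ℝ) ^ 3 * p := by
  rw [show (∏ i, 2 * D.alVec i) = (4 * (D.q : ℝ) ^ 3 * p) ^ 2 by
    simp [alVec, aVec, Fin.prod_univ_four]; ring]
  exact Real.sqrt_sq (by positivity)

omit [NeZero p] in
theorem prod_gTerm_eq (x : Fin 4 → ℝ) (r : D.Idx) (u : Fin 4 → ℤ) (σ : ℂ) :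
    ∏ i, gTerm (D.alVec i) 0
        (yVec (D.q : ℝ) D.c (fun i => (D.toVec r i : ℝ) + x i) i / (2 * D.q)) σ (u i) =
      ee (D.form ℂ (fun i => ((D.splitEquiv (r, u) i : ℤ) : ℂ) + x i) * σ) := by
  have hq := D.qC_ne
  simp only [gTerm, ← ee_sum, form]
  congr 1
  apply mul_left_cancel₀ (show (4 * (D.q : ℂ)) ≠ 0 by simp [hq])
  conv_rhs => rw [← mul_assoc, qForm_diag (D.hnR ℂ) (D.hmR ℂ)]
  simp only [splitEquiv_apply]
  simp [alVec, aVec, yVec, mPrime, toVec, Fin.sum_univ_four]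
  field_simp
  ring

omit [NeZero p] in
theorem prod_gTermDual_eq (x : Fin 4 → ℝ) (r : D.Idx) (j : Fin 4 → ℤ)
    (τ : ℂ) :
    ∏ i, gTermDual (D.alVec i) 0
        (yVec (D.q : ℝ) D.c (fun i => (D.toVec r i : ℝ) + x i) i / (2 * D.q)) τ (j i) =
      ee (∑ i, ((j i : ℂ) ^ 2 * τ / (4 * (D.alVec i : ℂ)) +
          (j i : ℂ) * yVec (D.q : ℂ) D.c (fun i => (x i : ℂ)) i / (2 * D.q))) *
        ee (∑ i, (j i : ℂ) * yVec (D.q : ℂ) D.c (fun i => (D.toVec r i : ℂ)) i / (2 * D.q)) := by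
  simp only [gTermDual, ← ee_sum, ← ee_add, ← Finset.sum_add_distrib]
  congr 1
  refine Finset.sum_congr rfl fun i _ => ?_
  fin_cases i <;> simp [yVec, toVec] <;> ring

/-- The theta transformation, for every translate. -/
theorem theta_transform (x : Fin 4 → ℝ) {τ : ℂ} (hτ : 0 < τ.im) :
    Summable (fun v : Fin 4 → ℤ =>
      ee (D.form ℂ (phiVec (D.c : ℂ) fun i => (v i : ℂ)) * τ / p + ∑ i, (v i : ℂ) * x i)) ∧
    HasSum (fun v : Fin 4 → ℤ => ee (D.form ℂ (fun i => (v i : ℂ) + x i) * (-1 / τ)))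
      (-τ ^ 2 / p * ∑' v : Fin 4 → ℤ,
        ee (D.form ℂ (phiVec (D.c : ℂ) fun i => (v i : ℂ)) * τ / p + ∑ i, (v i : ℂ) * x i)) := by
  have hτ0 : τ ≠ 0 := fun h => by simp [h] at hτ
  have hp : (p : ℂ) ≠ 0 := Nat.cast_ne_zero.mpr (NeZero.ne p)
  have hq := D.qC_ne
  have him' : 0 < (-1 / τ).im := by
    rw [neg_div, Complex.neg_im, one_div, Complex.inv_im, neg_div, neg_neg]
    exact div_pos hτ (Complex.normSq_pos.mpr hτ0)
  set Y : D.Idx → Fin 4 → ℝ := fun r i =>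
    yVec (D.q : ℝ) D.c (fun i => (D.toVec r i : ℝ) + x i) i / (2 * D.q) with hY
  set P : D.Idx → ℂ := fun r => ∏ i, ∑' u, gTerm (D.alVec i) 0 (Y r i) (-1 / τ) u
  have hprim : HasSum (fun v : Fin 4 → ℤ => ee (D.form ℂ (fun i => (v i : ℂ) + x i) * (-1 / τ)))
      (∑ r, P r) := by
    rw [← D.splitEquiv.hasSum_iff]
    refine (hasSum_fintype_prod fun r => (hasSum_pi_prod _ fun i =>
      summable_norm_gTerm (D.alVec_pos i) 0 (Y r i) him').1).congr_fun fun z => ?_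
    exact (D.prod_gTerm_eq x z.1 z.2 _).symm
  set A : (Fin 4 → ℤ) → ℂ := fun j => ee (∑ i, ((j i : ℂ) ^ 2 * τ / (4 * (D.alVec i : ℂ)) +
          (j i : ℂ) * yVec (D.q : ℂ) D.c (fun i => (x i : ℂ)) i / (2 * D.q)))
  have hdual : HasSum (fun j => A j * D.charSum j)
      (∑ r, (-(4 * (D.q : ℂ) ^ 3 * p) / τ ^ 2 * P r)) := by
    have h : ∀ r, HasSum (fun j : Fin 4 → ℤ => ∏ i, gTermDual (D.alVec i) 0 (Y r i) τ (j i))
        (-(4 * (D.q : ℂ) ^ 3 * p) / τ ^ 2 * P r) := fun r => by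
      have := hasSum_gTermDual_prod D.alVec (fun _ => 0) (Y r) D.alVec_pos hτ
      rw [D.sqrt_prod_alVec] at this
      push_cast at this
      exact this
    refine (hasSum_sum fun r (_ : r ∈ Finset.univ) => h r).congr_fun fun j => ?_
    simp only [hY, D.prod_gTermDual_eq x, ← Finset.mul_sum]
    rfl
  rw [← D.jVec_injective.hasSum_iff] at hdual
  swap
  · intro j hj; simp [D.charSum_eq_zero hj]
  have hA : ∀ v : Fin 4 → ℤ, A (jVec (D.q : ℤ) D.c v) =
      ee (D.form ℂ (phiVec (D.c : ℂ) fun i => (v i : ℂ)) * τ / p + ∑ i, (v i : ℂ) * x i) := by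
    intro v
    simp only [A, D.jVec_cast]
    rw [Finset.sum_add_distrib, ← Finset.sum_div, jVec_dot_yVec,
      mul_div_cancel_left₀ _ (by simp [hq])]
    congr 2
    apply mul_left_cancel₀ (show (4 * (D.q : ℂ) ^ 2) ≠ 0 by simp [hq])
    rw [show 4 * (D.q : ℂ) ^ 2 * (D.form ℂ (phiVec (D.c : ℂ) fun i => (v i : ℂ)) * τ / p) =
      4 * (D.q : ℂ) ^ 2 * qForm (D.n : ℂ) D.m D.c (phiVec (D.c : ℂ) fun i => (v i : ℂ)) * τ / p by
        simp [form]; ring, qForm_phi_diag (D.hnR ℂ) (D.hmR ℂ)]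
    simp [alVec, aVec, Fin.sum_univ_four]
    field_simp
  simp only [Function.comp_def, D.charSum_jVec, hA] at hdual
  have hd := hdual.mul_right (4 * (D.q : ℂ) ^ 3)⁻¹
  simp only [mul_inv_cancel_right₀ (show (4 * (D.q : ℂ) ^ 3) ≠ 0 by simp [hq])] at hd
  refine ⟨hd.summable, ?_⟩
  convert hprim using 1
  rw [hd.tsum_eq, ← Finset.mul_sum]
  field_simp

end ThetaData

end FLTAgent.Eisen
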