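import Fermat.Agent.Eisen.Scale
import Fermat.Prelude.Thm_ModularForm_levelOne_eq_zero_of_lt_order_qExpansion
import Fermat.Prelude.Thm_CongruenceSubgroup_one_mem_strictPeriods_Gamma0
import Fermat.Prelude.Def_FLTPrelim_Modularity

/-!
# The trace from level `p` to level one

`traceSum` and its expansion `hasQ_traceSum`. In weight below twelve the trace of a form vanishing
at both cusps is zero (`trace_coeff_eq_zero`); in weight two this gives `f | W = -U f` on
coefficients (`coeff_frickeSeries`).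
-/

set_option autoImplicit false

open UpperHalfPlane CongruenceSubgroup Matrix.SpecialLinearGroup ModularFormClass
open scoped MatrixGroups ModularForm Manifold

noncomputable section

namespace FLTAgent.Eisen

variable (p : ℕ) [Fact p.Prime]

/-- The sum of all translates. -/
def traceSum (k : ℤ) (f : ℍ → ℂ) : ℍ → ℂ := ∑ x : PLine p, f ∣[k] rep p x

theorem traceSum_invariant {k : ℤ} {f : ℍ → ℂ} (hf : ∀ γ ∈ Gamma0 p, f ∣[k] γ = f)
    (γ : SL(2, ℤ)) : traceSum p k f ∣[k] γ = traceSum p k f := by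
  unfold traceSum
  rw [SlashAction.sum_slash]
  exact Fintype.sum_equiv (classPerm p γ) _ _ fun x => slash_rep p hf γ x

/-- The series `a_m + p Q_{pm}` of the trace. -/
def traceSeries (P Q : PowerSeries ℂ) : PowerSeries ℂ :=
  PowerSeries.mk fun m =>
    PowerSeries.coeff m P + (p : ℂ) * PowerSeries.coeff (p * m) Q

theorem HasQ.of_expand {h : ℝ} {f : ℍ → ℂ} {R : PowerSeries ℂ} (M : ℕ) (hM : M ≠ 0)
    (hf : HasQ (h * M) f (PowerSeries.expand M hM R)) : HasQ h f R := by
  intro τ
  have h1 := hf τ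
  rw [← Function.Injective.hasSum_iff (mul_right_injective₀ hM)] at h1
  · refine h1.congr_fun fun m => ?_
    simp only [Function.comp_apply, PowerSeries.coeff_expand_mul]
    congr 1
    rw [pow_mul]
    congr 1
    simp only [Function.Periodic.qParam, ← Complex.exp_nat_mul]
    congr 1
    push_cast
    have : (M : ℂ) ≠ 0 := Nat.cast_ne_zero.mpr hM
    field_simp
  · intro m hm
    have : ¬ M ∣ m := fun ⟨c, hc⟩ => hm ⟨c, hc.symm⟩
    simp [PowerSeries.coeff_expand_of_not_dvd M hM R this]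

theorem sum_qParam_pow (m : ℕ) :
    ∑ j : ZMod p, Function.Periodic.qParam (p : ℝ) (((j.val : ℤ) : ℝ) : ℂ) ^ m =
      if p ∣ m then (p : ℂ) else 0 := by
  have hp : p.Prime := Fact.out
  have hroot := Complex.isPrimitiveRoot_exp p hp.ne_zero
  set ζ := Complex.exp (2 * Real.pi * Complex.I / p)
  have hterm : ∀ j : ZMod p, Function.Periodic.qParam (p : ℝ) (((j.val : ℤ) : ℝ) : ℂ) ^ m =
      (ζ ^ m) ^ j.val := by
    intro j
    simp only [Function.Periodic.qParam, ζ, ← Complex.exp_nat_mul]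
    congr 1
    push_cast
    field_simp
  simp only [hterm]
  have hsum : ∑ j : ZMod p, (ζ ^ m) ^ j.val = ∑ i ∈ Finset.range p, (ζ ^ m) ^ i := by
    refine Finset.sum_bij (fun j _ => j.val) (fun j _ => Finset.mem_range.mpr (ZMod.val_lt j))
      (fun a _ b _ h => ZMod.val_injective p h) (fun i hi => ⟨(i : ZMod p), Finset.mem_univ _, ?_⟩)
      (fun _ _ => rfl)
    exact ZMod.val_cast_of_lt (Finset.mem_range.mp hi)
  rw [hsum]
  split_ifs with h
  · rw [(hroot.pow_eq_one_iff_dvd m).mpr h]; simp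
  · have h1 : ζ ^ m ≠ 1 := fun e => h ((hroot.pow_eq_one_iff_dvd m).mp e)
    rw [geom_sum_eq h1, ← pow_mul, mul_comm, pow_mul, hroot.pow_eq_one, one_pow, sub_self, zero_div]

/-- The expansion of the trace to level one, from those of `f` and `f | S`. -/
theorem hasQ_traceSum {k : ℤ} {f : ℍ → ℂ} {P Q : PowerSeries ℂ} (h0 : HasQ 1 f P)
    (h1 : HasQ p (f ∣[k] ModularGroup.S) Q) :
    HasQ 1 (traceSum p k f) (traceSeries p P Q) := by
  refine HasQ.of_expand p (NeZero.ne p) ?_
  rw [one_mul]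
  have hnone : HasQ p f (PowerSeries.expand p (NeZero.ne p) P) := by
    simpa using h0.expand p (NeZero.ne p)
  have hsome : ∀ j : ZMod p, HasQ p (f ∣[k] rep p (some j))
      (PowerSeries.rescale (Function.Periodic.qParam (p : ℝ) (((j.val : ℤ) : ℝ) : ℂ)) Q) := fun j =>
    (h1.vadd ((j.val : ℤ) : ℝ)).congr (funext fun τ => by
      rw [rep_some, SlashAction.slash_mul, slash_T_zpow_apply])
  have hall := (hnone.add (HasQ.sum Finset.univ fun j _ => hsome j))
  have hf : traceSum p k f = f + ∑ j : ZMod p, f ∣[k] rep p (some j) := by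
    rw [traceSum, Fintype.sum_option, rep_none, SlashAction.slash_one]
  rw [hf]
  suffices e : PowerSeries.expand p (NeZero.ne p) (traceSeries p P Q) =
      PowerSeries.expand p (NeZero.ne p) P + ∑ j : ZMod p,
        PowerSeries.rescale (Function.Periodic.qParam (p : ℝ) (((j.val : ℤ) : ℝ) : ℂ)) Q by
    rw [e]; exact hall
  ext m
  simp only [map_add, map_sum, PowerSeries.coeff_rescale, ← Finset.sum_mul, sum_qParam_pow,
    PowerSeries.coeff_expand]
  split_ifs with h
  · rw [traceSeries, PowerSeries.coeff_mk, Nat.mul_div_cancel' h]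
  · simp

/-- In weight `< 12` the trace of a form vanishing at both cusps is zero. -/
theorem trace_coeff_eq_zero {k : ℤ} (hk : k < 12) {f : ℍ → ℂ}
    (hf : ∀ γ ∈ Gamma0 p, f ∣[k] γ = f) {P R : PowerSeries ℂ} (h0 : HasQ 1 f P)
    (h1 : HasQ 1 (fricke p k f) R) (hP : PowerSeries.constantCoeff P = 0)
    (hR : PowerSeries.constantCoeff R = 0) (m : ℕ) :
    PowerSeries.coeff m P + (p : ℂ) ^ (2 - k) * PowerSeries.coeff (p * m) R = 0 := by
  have hS := HasQ.slash_S_of_fricke p h1
  have hT := hasQ_traceSum p h0 hS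
  set F := mkFormOne (traceSum p k f) (traceSum_invariant p hf) (hT.mdiff one_pos)
    (hT.isBoundedAtImInfty one_pos) with hF
  have hconst : PowerSeries.coeff 0 (traceSeries p P ((p : ℂ) ^ (1 - k) • R)) = 0 := by
    simp [traceSeries, hP, hR]
  have hzero : F = 0 := by
    refine ModularForm.levelOne_eq_zero_of_lt_order_qExpansion 1 one_pos F ?_
    have hq : qExpansion (((1 : ℕ) : ℝ)) (F : ℍ → ℂ) =
        traceSeries p P ((p : ℂ) ^ (1 - k) • R) := by
      rw [Nat.cast_one]; exact hT.qExpansion_eq one_pos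
    rw [hq, show 1 * (k.toNat / 12) = 0 by omega, Nat.cast_zero]
    refine lt_of_lt_of_le (ENat.natCast_lt_natCast.mpr Nat.one_pos) (PowerSeries.le_order _ 1 ?_)
    intro i hi
    have : i = 0 := by simpa using hi
    rw [this]; exact hconst
  have hfun : traceSum p k f = 0 := by
    have := congrArg (fun G : ModularForm 𝒮ℒ k => (⇑G : ℍ → ℂ)) hzero
    rw [hF] at this
    simpa [mkFormOne_coe] using this
  have h2 : HasQ 1 (0 : ℍ → ℂ) (traceSeries p P ((p : ℂ) ^ (1 - k) • R)) := hfun ▸ hT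
  have := congrArg (PowerSeries.coeff m) (h2.unique one_pos (HasQ.zero 1))
  simp only [traceSeries, PowerSeries.coeff_mk, map_smul, smul_eq_mul, map_zero] at this
  rw [← this, ← mul_assoc]
  congr 2
  have hp : (p : ℂ) ≠ 0 := Nat.cast_ne_zero.mpr (NeZero.ne p)
  rw [← zpow_one_add₀ hp]
  ring_nf

section CuspForms

variable {k : ℤ} (f : CuspForm (Gamma0 p) k)

theorem invariant_of_cuspForm {γ : SL(2, ℤ)} (hγ : γ ∈ Gamma0 p) : ⇑f ∣[k] γ = ⇑f :=
  f.slash_action_eq' _ ⟨γ, hγ, rfl⟩

/-- The `q`-expansion of a cusp form. -/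
def cuspSeries : PowerSeries ℂ := qExpansion 1 (f : ℍ → ℂ)

theorem hasQ_cuspForm : HasQ 1 f (cuspSeries p f) := by
  have : Fact (IsCusp OnePoint.infty ((Gamma0 p : Subgroup SL(2, ℤ)).map (mapGL ℝ))) :=
    ⟨Subgroup.isCusp_of_mem_strictPeriods one_pos (one_mem_strictPeriods_Gamma0 p)⟩
  exact hasQ_modularForm f one_pos (one_mem_strictPeriods_Gamma0 p)

theorem constantCoeff_cuspSeries : PowerSeries.constantCoeff (cuspSeries p f) = 0 := by
  rw [← PowerSeries.coeff_zero_eq_constantCoeff_apply]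
  exact CuspFormClass.qExpansion_coeff_zero f one_pos (one_mem_strictPeriods_Gamma0 p)

theorem isZero_slash (γ : SL(2, ℤ)) : IsZeroAtImInfty (⇑f ∣[k] γ) := by
  have hc : IsCusp (mapGL ℝ γ • (OnePoint.infty : OnePoint ℝ))
      ((Gamma0 p : Subgroup SL(2, ℤ)).map (mapGL ℝ)) := by
    rw [Subgroup.IsArithmetic.isCusp_iff_isCusp_SL2Z, isCusp_SL2Z_iff']
    exact ⟨γ, rfl⟩
  exact CuspFormClass.zero_at_cusps f hc (mapGL ℝ γ) rfl

theorem periodic_slash_S :
    Function.Periodic ((⇑f ∣[k] ModularGroup.S) ∘ ofComplex) (p : ℝ) := by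
  have hT : (⇑f ∣[k] ModularGroup.S) ∣[k] (ModularGroup.T ^ (p : ℤ)) = ⇑f ∣[k] ModularGroup.S := by
    rw [← SlashAction.slash_mul]
    have hmem : ModularGroup.S * ModularGroup.T ^ (p : ℤ) * ModularGroup.S⁻¹ ∈ Gamma0 p := by
      rw [cross_eq_zero_iff p (ModularGroup.S * ModularGroup.T ^ (p : ℤ)) ModularGroup.S]
      have e := S_mul_T_zpow_coe (p : ℤ)
      rw [e, ModularGroup.coe_S]
      simp
    rw [show ModularGroup.S * ModularGroup.T ^ (p : ℤ) =
      (ModularGroup.S * ModularGroup.T ^ (p : ℤ) * ModularGroup.S⁻¹) * ModularGroup.S by group,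
      SlashAction.slash_mul, invariant_of_cuspForm p f hmem]
  intro w
  rcases le_or_gt w.im 0 with hw | hw
  · have : (w + (p : ℝ)).im ≤ 0 := by simpa using hw
    simp only [Function.comp_apply, ofComplex_apply_of_im_nonpos hw,
      ofComplex_apply_of_im_nonpos this]
  · have hw' : 0 < (w + (p : ℝ)).im := by simpa using hw
    simp only [Function.comp_apply, ofComplex_apply_of_im_pos hw, ofComplex_apply_of_im_pos hw']
    conv_rhs => rw [← hT, slash_T_zpow_apply]
    exact congrArg _ (UpperHalfPlane.ext (by simp [add_comm]))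

/-- The `q`-expansion of the Fricke transform. -/
def frickeSeries : PowerSeries ℂ :=
  (p : ℂ) ^ (k - 1) • qExpansion (p : ℝ) (⇑f ∣[k] ModularGroup.S)

theorem hasQ_fricke : HasQ 1 (fricke p k f) (frickeSeries p f) := by
  have hpos := natCast_posR p
  have h := hasQ_qExpansion hpos (periodic_slash_S p f)
    (CuspForm.translate f (mapGL ℝ ModularGroup.S)).holo'
    ((isZero_slash p f ModularGroup.S).isBoundedAtImInfty)
  have h2 := (h.scale (p : ℝ) hpos).smul ((p : ℂ) ^ (k - 1))
  rw [div_self hpos.ne'] at h2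
  exact h2.congr rfl

theorem constantCoeff_frickeSeries : PowerSeries.constantCoeff (frickeSeries p f) = 0 := by
  have hpos := natCast_posR p
  have h := hasQ_qExpansion hpos (periodic_slash_S p f)
    (CuspForm.translate f (mapGL ℝ ModularGroup.S)).holo'
    ((isZero_slash p f ModularGroup.S).isBoundedAtImInfty)
  have h0 := tendsto_nhds_unique (h.tendsto hpos) (isZero_slash p f ModularGroup.S)
  simp [frickeSeries, h0]

end CuspForms

theorem fricke_fricke (f : ℍ → ℂ) : fricke p 2 (fricke p 2 f) = f := by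
  funext τ
  have hp : (p : ℂ) ≠ 0 := Nat.cast_ne_zero.mpr (NeZero.ne p)
  have hτ : (τ : ℂ) ≠ 0 := UpperHalfPlane.ne_zero τ
  have hS : ∀ z : ℍ, ((ModularGroup.S • z : ℍ) : ℂ) = -1 / (z : ℂ) := fun z => by
    rw [modular_S_smul]; simp [neg_div, inv_neg]
  have h1 : scaleH p (natCast_posR p)
      (ModularGroup.S • scaleH p (natCast_posR p) τ) = ModularGroup.S • τ := by
    apply UpperHalfPlane.ext
    rw [coe_scaleH, hS, hS, coe_scaleH]
    push_cast
    field_simp
  have h2 : ModularGroup.S • ModularGroup.S • τ = τ := by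
    apply UpperHalfPlane.ext
    rw [hS, hS]
    field_simp
  have hsl : ∀ (g : ℍ → ℂ) (z : ℍ), (g ∣[(2 : ℤ)] ModularGroup.S) z =
      g (ModularGroup.S • z) * ((z : ℂ) ^ 2)⁻¹ := fun g z => by
    rw [ModularForm.SL_slash_apply]
    simp [UpperHalfPlane.denom, ModularGroup.coe_S]
  simp only [fricke, hsl, h1, h2, hS, coe_scaleH]
  rw [show (2 : ℤ) - 1 = 1 by norm_num]
  simp only [zpow_one]
  push_cast
  field_simp

/-- `f | W = -U f` on coefficients for weight two cusp forms of prime level. -/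
theorem coeff_frickeSeries (f : CuspForm (Gamma0 p) 2) (m : ℕ) :
    PowerSeries.coeff m (frickeSeries p f) = -qCoeff f (p * m) := by
  have hinv := fun γ (hγ : γ ∈ Gamma0 p) => invariant_of_cuspForm p f hγ
  have h := trace_coeff_eq_zero p (k := 2) (by norm_num) (fun γ hγ => fricke_invariant p hinv hγ)
    (hasQ_fricke p f) (R := cuspSeries p f) (by rw [fricke_fricke]; exact hasQ_cuspForm p f)
    (constantCoeff_frickeSeries p f) (constantCoeff_cuspSeries p f) m
  rw [sub_self, zpow_zero, one_mul] at h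
  exact eq_neg_of_add_eq_zero_left h

end FLTAgent.Eisen
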