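import Fermat.Agent.Eisen.Duality
import Fermat.Agent.Eisen.Criterion
import Fermat.Agent.IntStr.Main

/-!
# A basis of the integral lattice stays independent modulo two

`exists_reduction_basis`: a `ℤ`-basis of `intLattice p 2` (at least `dim S₂(Γ₀(p))` many vectors)
has independent reductions over every field of characteristic two, because a lattice form with
even coefficients is twice a lattice form (`exists_half`).
-/

set_option autoImplicit false

open CongruenceSubgroup ModularFormClass CuspForm

noncomputable section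

namespace FLTAgent.Eisen

variable (p : ℕ) [Fact p.Prime]

theorem exists_half {h : ↥(intLattice p 2)} (hh : ∀ m, (2 : ℤ) ∣ coeffInt p m h) :
    ∃ h' : ↥(intLattice p 2), h = (2 : ℤ) • h' := by
  have hmem : ((2 : ℂ)⁻¹ • (h : CuspForm (Gamma0 p) 2)) ∈ intLattice p 2 := by
    refine Submodule.subset_span fun n => ?_
    obtain ⟨c, hc⟩ := hh n
    refine ⟨c, ?_⟩
    rw [IntStr.qCoeff_smul', coeffInt_spec, hc]
    push_cast
    ring
  refine ⟨⟨_, hmem⟩, Subtype.ext ?_⟩
  rw [Submodule.coe_smul, ← Int.cast_smul_eq_zsmul ℂ, smul_smul]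
  norm_num

/-- The reductions of a basis are independent over every field of characteristic two. -/
theorem exists_reduction_basis :
    ∃ (n : ℕ) (b : Fin n → ↥(intLattice p 2)),
      Module.finrank ℂ (CuspForm (Gamma0 p) 2) ≤ n ∧
      ∀ (k : Type) [Field k] [CharP k 2] (c : Fin n → k),
        (∀ m : ℕ, ∑ i, c i * (coeffInt p m (b i) : k) = 0) → c = 0 := by
  classical
  have := intLattice.moduleFinite p
  have := intLattice.moduleFree p
  let B := Module.finBasis ℤ ↥(intLattice p 2)
  refine ⟨_, B, ?_, fun k _ _ c hc => ?_⟩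
  · have hspan : Submodule.span ℂ (Set.range fun i =>
        ((B i : ↥(intLattice p 2)) : CuspForm (Gamma0 p) 2)) = ⊤ := by
      rw [eq_top_iff, ← IntStr.hasIntegralStructure_weight_two p, Submodule.span_le]
      intro x hx
      have h := congrArg Subtype.val (B.sum_repr ⟨x, hx⟩)
      rw [SetLike.mem_coe, show x = ((⟨x, hx⟩ : ↥(intLattice p 2)) : CuspForm (Gamma0 p) 2) from rfl,
        ← h, Submodule.coe_sum]
      refine sum_mem fun i _ => ?_
      rw [Submodule.coe_smul, ← Int.cast_smul_eq_zsmul ℂ]
      exact Submodule.smul_mem _ _ (Submodule.subset_span ⟨i, rfl⟩)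
    have h := finrank_range_le_card (R := ℂ)
      fun i => ((B i : ↥(intLattice p 2)) : CuspForm (Gamma0 p) 2)
    rw [Set.finrank, hspan, finrank_top, Fintype.card_fin] at h
    exact h
  · let : Algebra (ZMod 2) k := ZMod.algebra k 2
    funext i
    refine (Module.forall_dual_apply_eq_zero_iff (ZMod 2) (c i)).mp fun ψ => ?_
    set h : ↥(intLattice p 2) := ∑ j, ((ψ (c j)).val : ℤ) • B j with hdef
    have hh : ∀ m, (2 : ℤ) ∣ coeffInt p m h := by
      intro m
      refine (ZMod.intCast_zmod_eq_zero_iff_dvd _ 2).mp ?_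
      have h0 := congrArg ψ (hc m)
      rw [map_sum, map_zero] at h0
      rw [← coeffIntLin_apply, hdef, map_sum, Int.cast_sum, ← h0]
      refine Finset.sum_congr rfl fun j _ => ?_
      rw [map_smul, coeffIntLin_apply, smul_eq_mul, Int.cast_mul, Int.cast_natCast,
        ZMod.natCast_zmod_val, mul_comm (c j), ← zsmul_eq_mul, map_zsmul, zsmul_eq_mul, mul_comm]
    obtain ⟨h', hh'⟩ := exists_half p hh
    have hr := congrArg (fun v => B.repr v i) hh'
    simp only [hdef, B.repr_sum_self, map_smul, Finsupp.smul_apply, smul_eq_mul] at hr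
    have h2 : (((ψ (c i)).val : ℤ) : ZMod 2) = 0 := by
      rw [hr, Int.cast_mul]
      exact mul_eq_zero_of_left (by decide) _
    simpa using h2

end FLTAgent.Eisen
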