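import Fermat.Agent.FF.Differentials

/-!
# Square roots and a local estimate in characteristic two

A separable function field is `F² + F² x` (`exists_sq_add_sq_mul`), series with square in it lie in
it (`mem_of_sq_mem`), and `local_bound` bounds the order of the differential of `J` at a zero of `J`
when `S² + S = ε² / J`.
-/

set_option autoImplicit false
set_option linter.unusedSectionVars false

open AlgebraicCurve IntermediateField

noncomputable section

namespace FLTAgent.Eisen

variable {k : Type*} [Field k] [IsAlgClosed k]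

section Squares

variable {F : Type*} [Field F] [Algebra k F] [CharP F 2]

/-- In characteristic two a separable extension of `k(x)` is `F² + F² x`. -/
theorem exists_sq_add_sq_mul (x : F) [Algebra.IsSeparable k⟮x⟯ F] [FiniteDimensional k⟮x⟯ F]
    (f : F) : ∃ a b : F, f = a ^ 2 + b ^ 2 * x := by
  let E : IntermediateField k F :=
    { carrier := {f | ∃ a b : F, f = a ^ 2 + b ^ 2 * x}
      mul_mem' := by
        rintro u v ⟨a, b, rfl⟩ ⟨c, d, rfl⟩
        refine ⟨a * c + b * d * x, a * d + b * c, ?_⟩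
        rw [CharTwo.add_sq, CharTwo.add_sq]
        ring
      one_mem' := ⟨1, 0, by ring⟩
      add_mem' := by
        rintro u v ⟨a, b, rfl⟩ ⟨c, d, rfl⟩
        exact ⟨a + c, b + d, by rw [CharTwo.add_sq, CharTwo.add_sq]; ring⟩
      zero_mem' := ⟨0, 0, by ring⟩
      algebraMap_mem' := fun c => by
        obtain ⟨a, ha⟩ := IsAlgClosed.exists_pow_nat_eq c (n := 2) two_pos
        exact ⟨algebraMap k F a, 0, by rw [← map_pow, ha]; ring⟩
      inv_mem' := by
        rintro u ⟨a, b, hu⟩
        rcases eq_or_ne u 0 with rfl | hu0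
        · exact ⟨0, 0, by simp⟩
        · refine ⟨a / u, b / u, ?_⟩
          rw [div_pow, div_pow, div_mul_eq_mul_div, ← add_div, ← hu]
          field_simp }
  have hx : x ∈ E := ⟨0, 1, by ring⟩
  have hle : k⟮x⟯ ≤ E := adjoin_simple_le_iff.mpr hx
  set E' := IntermediateField.extendScalars hle
  suffices f ∈ E' by exact this
  have : Algebra.IsSeparable E' F := Algebra.isSeparable_tower_top_of_isSeparable k⟮x⟯ E' F
  have : CharP E' 2 := (algebraMap E' F).charP (algebraMap E' F).injective 2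
  have hsq : f ^ (2 ^ 1) ∈ (algebraMap E' F).range :=
    ⟨⟨f ^ 2, show f ^ 2 ∈ E from ⟨f, 0, by ring⟩⟩, by simp⟩
  have : ExpChar E' 2 := ExpChar.prime Nat.prime_two
  have hsep : IsSeparable E' f := Algebra.IsSeparable.isSeparable E' f
  have h1 : (f ^ (2 ^ 1) : F) ∈ (⊥ : IntermediateField E' F) := by
    obtain ⟨c, hc⟩ := hsq
    exact IntermediateField.mem_bot.mpr ⟨c, hc⟩
  have h2 : E'⟮f⟯ = E'⟮f ^ (2 ^ 1)⟯ :=
    IntermediateField.adjoin_simple_eq_adjoin_pow_expChar_pow_of_isSeparable E' F hsep 2 1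
  rw [adjoin_simple_eq_bot_iff.mpr h1] at h2
  obtain ⟨c, hc⟩ := IntermediateField.mem_bot.mp (h2 ▸ mem_adjoin_simple_self E' f)
  rw [← hc]
  exact c.2

/-- An element of `LaurentSeries k` whose square lies in a separable function field lies there. -/
theorem mem_of_sq_mem [CharP k 2] {F : IntermediateField k (LaurentSeries k)} {x : F}
    [Algebra.IsSeparable k⟮x⟯ F] [FiniteDimensional k⟮x⟯ F]
    (hx : LaurentSeries.derivative k (x : LaurentSeries k) ≠ 0) {w : LaurentSeries k}
    (hw : w ^ 2 ∈ F) : w ∈ F := by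
  have : CharP (LaurentSeries k) 2 :=
    charP_of_injective_ringHom (algebraMap k (LaurentSeries k)).injective 2
  have : CharP F 2 := charP_of_injective_ringHom (algebraMap k F).injective 2
  have hd : ∀ u : LaurentSeries k, LaurentSeries.derivative k (u ^ 2) = 0 := fun u => by
    rw [pow_two, FF.laurentDeriv_mul, mul_comm u, CharTwo.add_self_eq_zero]
  obtain ⟨a, b, hab⟩ := exists_sq_add_sq_mul (k := k) x ⟨w ^ 2, hw⟩
  have hab' : w ^ 2 = (a : LaurentSeries k) ^ 2 + (b : LaurentSeries k) ^ 2 * x :=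
    congrArg Subtype.val hab
  have h := congrArg (LaurentSeries.derivative k) hab'
  rw [map_add, hd, hd, FF.laurentDeriv_mul, hd, zero_mul, zero_add, zero_add] at h
  have hb : (b : LaurentSeries k) = 0 := by
    rcases mul_eq_zero.mp h.symm with h' | h'
    · exact pow_eq_zero_iff two_ne_zero |>.mp h'
    · exact absurd h' hx
  rw [hb, zero_pow two_ne_zero, zero_mul, add_zero] at hab'
  have : w = a := by
    have h' : (w + a) ^ 2 = 0 := by rw [CharTwo.add_sq, hab', CharTwo.add_self_eq_zero]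
    exact CharTwo.add_eq_zero.mp (pow_eq_zero_iff two_ne_zero |>.mp h')
  exact this ▸ a.2

end Squares

section Local

variable {F : Type*} [Field F] [Algebra k F] [CharP F 2] [FF.IsFF k F]

local notation "D" => KaehlerDifferential.D k F

/-- The local estimate at a zero of `J`. -/
theorem local_bound (Q : Place k F) {J S ε w : F} (he : 0 < Q.ord J)
    (hS : 0 ≤ 6 * Q.ord S + Q.ord J) (hrel : S ^ 2 + S = J⁻¹ * ε ^ 2) (hu : 1 + ε = J * w ^ 2)
    (hε : ε ≠ 0) (hDJ : D J ≠ 0) :
    0 ≤ Q.ordDifferential (D J) - Q.ord J ∧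
      (6 ≤ Q.ord J → Q.ord J / 6 + 1 ≤ Q.ordDifferential (D J) - Q.ord J) := by
  have hJ : J ≠ 0 := fun h => hDJ (by rw [h, map_zero])
  have hne : S ^ 2 + S ≠ 0 := hrel ▸ mul_ne_zero (inv_ne_zero hJ) (pow_ne_zero _ hε)
  have hS0 : S ≠ 0 := fun h => hne (by rw [h]; ring)
  have h1 := FF.ord_add_ge Q (pow_ne_zero 2 hS0) hS0 hne
  rw [hrel, Q.ord_mul (inv_ne_zero hJ) (pow_ne_zero _ hε), Q.ord_inv, ← zpow_natCast,
    ← zpow_natCast, Q.ord_zpow, Q.ord_zpow] at h1
  push_cast at h1
  have hεbd : Q.ord J ≤ 3 * Q.ord ε := by omega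
  have hu0 : (1 : F) + ε ≠ 0 := fun h => by
    rw [← CharTwo.add_eq_zero.mp h, Q.ord_one] at hεbd
    omega
  have hordu : Q.ord (1 + ε) = 0 := by
    have ha := FF.ord_add_ge Q one_ne_zero hε hu0
    rw [Q.ord_one] at ha
    have e : (1 + ε) + ε = 1 := by rw [add_assoc, CharTwo.add_self_eq_zero, add_zero]
    have hb := FF.ord_add_ge Q hu0 hε (e.symm ▸ one_ne_zero)
    rw [e, Q.ord_one] at hb
    omega
  have hw : w ≠ 0 := fun h => hu0 (by rw [hu, h]; ring)
  have hDε : D ε = w ^ 2 • D J := by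
    have h := congrArg D hu
    rw [map_add, Derivation.map_one_eq_zero, zero_add, Derivation.leibniz, pow_two,
      Derivation.leibniz, ← add_smul, CharTwo.add_self_eq_zero, zero_smul, smul_zero, zero_add] at h
    rw [h, pow_two]
  have hDε0 : D ε ≠ 0 := hDε ▸ smul_ne_zero (pow_ne_zero _ hw) hDJ
  have hord : Q.ordDifferential (D ε) = Q.ordDifferential (D J) - Q.ord J := by
    rw [hDε, FF.ordDifferential_smul_of_ne_zero Q (pow_ne_zero _ hw) hDJ]
    have h := congrArg Q.ord hu
    rw [hordu, Q.ord_mul hJ (pow_ne_zero _ hw)] at h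
    omega
  have hA := FF.ordDifferential_D_nonneg Q (f := ε) (by omega)
  have hB := FF.ord_sub_one_le_ordDifferential_D Q hDε0
  have hC : Even (Q.ord ε) → Q.ord ε ≤ Q.ordDifferential (D ε) := by
    rintro ⟨i, hi⟩
    obtain ⟨π, hπ, hπ1⟩ := FF.exists_ord_eq Q i
    have hπ2 : (π * π) ≠ 0 := mul_ne_zero hπ hπ
    have e : ε = π * π * (ε / (π * π)) := by field_simp
    have hD : D ε = (π * π) • D (ε / (π * π)) := by
      conv_lhs => rw [e, Derivation.leibniz, Derivation.leibniz, ← add_smul,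
        CharTwo.add_self_eq_zero, zero_smul, smul_zero, add_zero]
    have hD0 : D (ε / (π * π)) ≠ 0 := fun h => hDε0 (by rw [hD, h, smul_zero])
    have hord0 : Q.ord (ε / (π * π)) = 0 := by
      rw [div_eq_mul_inv, Q.ord_mul hε (inv_ne_zero hπ2), Q.ord_inv, Q.ord_mul hπ hπ]
      omega
    rw [hD, FF.ordDifferential_smul_of_ne_zero Q hπ2 hD0, Q.ord_mul hπ hπ]
    have := FF.ordDifferential_D_nonneg Q (f := ε / (π * π)) hord0.ge
    omega
  refine ⟨by omega, fun h6 => ?_⟩
  rcases Int.even_or_odd (Q.ord ε) with hev | ⟨i, hi⟩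
  · have := hC hev
    omega
  · omega

end Local

end FLTAgent.Eisen
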