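import Fermat.Agent.Eisen.TwoField
import Fermat.Agent.Eisen.TwoLocal
import Fermat.Agent.Eisen.TwoBasis
import Fermat.Agent.Mazur.CuspPlaces
import Fermat.Agent.FF.RiemannRoch

/-!
# The argument on `X₀(p)` in characteristic two for `p ≡ 7 (mod 8)`

`not_isEisCongr_two`: given that the genus of the curve in characteristic two is at most the
dimension of the cusp forms, no integral cusp form is congruent to the Eisenstein series modulo `2`.
The reductions of forms in the function field are compared with the root of `Δ(τ) Δ(pτ)` by orders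
at the zeros of `j` and at the two cusps.
-/

set_option autoImplicit false
set_option linter.unusedSectionVars false

open AlgebraicCurve ModularCurve IntermediateField
open FLTAgent.ModularCosets FLTAgent.Reduction

noncomputable section

namespace FLTAgent.Eisen

variable {p : ℕ} [Fact p.Prime] {k : Type} [Field k] [IsAlgClosed k] [CharP k 2]
  (φ : Reduction.zetaRing p →+* k)

local notation "F" => modularFunctionFieldFullC k p
local notation "Jv" => jF p k

theorem ofPS_map_map (A : PowerSeries ℤ) :
    HahnSeries.ofPowerSeries ℤ k ((A.map (Int.castRingHom (Reduction.zetaRing p))).map φ) =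
      toK k A := by
  rw [toK, RingHom.comp_apply]
  congr 1
  ext m
  simp

theorem etaSerInv_eq : etaSerInv k = jqModC k := by
  rw [← mul_one (jqModC k), ← etaSer_mul_inv k, ← mul_assoc, jqModC_mul_etaSer, one_mul]

theorem jqModC_inv : (jqModC k)⁻¹ = etaSer k := inv_eq_of_mul_eq_one_right (jqModC_mul_etaSer k)

theorem coe_jF_inv : (((Jv)⁻¹ : F) : LaurentSeries k) = etaSer k := jqModC_inv

theorem odd_of_seven (hp : p % 8 = 7) : Odd p := Nat.odd_iff.mpr (by omega)

include φ in
theorem natCast_p_eq_one (hp : p % 8 = 7) : φ (p : Reduction.zetaRing p) = 1 := by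
  rw [map_natCast, CharP.natCast_eq_natCast (R := k) 2 (a := p) (b := 1) |>.mpr ?_, Nat.cast_one]
  show p % 2 = 1 % 2
  omega

theorem map_pInv (hp : p % 8 = 7) : φ (pInv p) = 1 := by
  have h := congrArg φ (p_mul_pInv p)
  rwa [map_mul, map_one, natCast_p_eq_one φ hp, one_mul] at h

theorem neg_eq_self_laurent (a : LaurentSeries k) : -a = a := by
  linear_combination (-a) * two_eq_zero_laurent k

theorem one_le_order_toK {A : PowerSeries ℤ} (h : toK k A ≠ 0) : 0 ≤ (toK k A).order := by
  by_contra hc
  exact h (HahnSeries.coeff_order_eq_zero.mp (toK_coeff_neg k A (not_le.mp hc)))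

theorem order_toK_nonneg (A : PowerSeries ℤ) : 0 ≤ (toK k A).order := by
  rcases eq_or_ne (toK k A) 0 with h | h
  · simp [h]
  · exact one_le_order_toK h

variable (f : ↥(CuspForm.intLattice p 2))

/-- The weight twelve form `f E₄ E₆`. -/
theorem rForm_twelve : ∃ Q, RForm p ((12 * 1 : ℕ) : ℤ)
    (⇑(f : CuspForm (CongruenceSubgroup.Gamma0 p) 2) * (⇑ModularForm.E₄ * ⇑ModularForm.E₆))
    ((fSeries p f).map (Int.castRingHom _) *
      (eisenstein4.map (Int.castRingHom _) * e6Series.map (Int.castRingHom _))) Q ∧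
    ∀ {K : Type} [Field K] [CharP K 2] (ψ : Reduction.zetaRing p →+* K), p % 8 = 7 →
      HahnSeries.ofPowerSeries ℤ K (Q.map ψ) = toK K (fSeries' p f) := by
  refine ⟨_, ((rForm_cuspForm p f).mul ((rForm_E4 p).mul (rForm_E6 p))).cast (by norm_num), ?_⟩
  intro K _ _ ψ hp
  have hψp : ψ (p : Reduction.zetaRing p) = 1 := by
    rw [map_natCast, CharP.natCast_eq_natCast (R := K) 2 (a := p) (b := 1) |>.mpr
      (show p % 2 = 1 % 2 by omega), Nat.cast_one]
  have e : ∀ A : PowerSeries ℤ,
      HahnSeries.ofPowerSeries ℤ K ((A.map (Int.castRingHom (Reduction.zetaRing p))).map ψ) =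
        toK K A := fun A => by
    rw [toK, RingHom.comp_apply]
    congr 1
    ext m
    simp
  simp only [map_mul, map_neg, PowerSeries.map_C, map_pow, hψp, one_pow, map_one, one_mul, e]
  rw [← qScale_toK K eisenstein4 p (NeZero.ne p), ← qScale_toK K e6Series p (NeZero.ne p), toK_e4,
    toK_e6, map_one, mul_one, mul_one]
  linear_combination (-(toK K (fSeries' p f))) * two_eq_zero_laurent K

include φ in
theorem redLat_mem : toK k (fSeries p f) ∈ F := by
  obtain ⟨Q, h, -⟩ := rForm_twelve f
  have h1 := mul_mem (redSer_mem φ one_ne_zero h) (SetLike.coe_mem ((Jv)⁻¹ : F))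
  rw [coe_jF_inv, redSer, map_mul, map_mul, map_mul, map_mul, ofPS_map_map, ofPS_map_map,
    ofPS_map_map, toK_e4, toK_e6, mul_one, mul_one, pow_one, mul_assoc, mul_comm (etaSerInv k),
    etaSer_mul_inv, mul_one] at h1
  exact h1

/-- The reduction of a lattice element in the function field. -/
def redLat : F := ⟨toK k (fSeries p f), redLat_mem φ f⟩

theorem redLat_regular (v : Place k F) (hv : 0 ≤ v.ord Jv) (hf : redLat φ f ≠ 0) :
    0 ≤ 6 * v.ord (redLat φ f) + v.ord Jv := by
  have h := ((rForm_cuspForm p f).pow_succ 5).cast (l := ((12 * 1 : ℕ) : ℤ)) (by norm_num)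
  have hm := FF.ord_nonneg_of_mem_placeRing v (redF_mem_placeRing φ one_ne_zero h v hv)
  have e : redF φ one_ne_zero h = redLat φ f ^ 6 * Jv := by
    apply Subtype.ext
    show redSer φ 1 _ = toK k (fSeries p f) ^ 6 * jqModC k
    rw [redSer, map_pow, map_pow, ofPS_map_map, pow_one, etaSerInv_eq]
  rw [e, v.ord_mul (pow_ne_zero _ hf) (fun h0 => transcendental_jF p k (by rw [h0]; exact isAlgebraic_zero)),
    ← zpow_natCast, v.ord_zpow] at hm
  exact_mod_cast hm

include φ in
theorem rootSer_mem (hp : p % 8 = 7) : rootSer k p ∈ F := by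
  have := isSeparable_jF (k := k) φ
  have := finiteDimensional_jF (k := k) φ
  have hd : LaurentSeries.derivative k ((Jv : F) : LaurentSeries k) ≠ 0 := by
    refine (FF.laurentDeriv_order_of_cast_ne_zero ?_).1
    show (((jqModC k).order : ℤ) : k) ≠ 0
    rw [order_jqModC]
    simp
  refine mem_of_sq_mem (x := Jv) hd (mem_of_sq_mem (x := Jv) hd ?_)
  rw [← pow_mul, rootSer_pow_four k p (by omega)]
  have hx : etaSer k ∈ F := coe_jF_inv (p := p) (k := k) ▸ SetLike.coe_mem ((Jv)⁻¹ : F)
  refine mul_mem hx ?_
  have h1 := mul_mem (redSer_mem φ one_ne_zero (r := 1) (rForm_deltaScaled p)) hx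
  rw [redSer, ofPS_map_map, pow_one, mul_assoc, mul_comm (etaSerInv k), etaSer_mul_inv, mul_one,
    ← qScale_toK k _ p (NeZero.ne p), toK_dSer] at h1
  exact h1

include φ in
/-- The two cusps. -/
theorem exists_cusps (hp : p % 8 = 7) :
    ∃ P₀ P₁ : Place k F, P₀ ≠ P₁ ∧ P₀.ord Jv = -1 ∧ P₁.ord Jv = -(p : ℤ) ∧
      (∀ v : Place k F, v.ord Jv < 0 → v = P₀ ∨ v = P₁) ∧
      ∀ f : ↥(CuspForm.intLattice p 2),
        0 ≤ P₀.ord (redLat φ f) ∧ 0 ≤ P₁.ord (redLat φ f) := by
  classical
  have := isFF_fullC (k := k) φ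
  have := isSeparable_jF (k := k) φ
  have := finiteDimensional_jF (k := k) φ
  have hpp : p.Prime := Fact.out
  obtain ⟨σ, hσJ, hσT, hσR⟩ := exists_zeroExpansion φ
  obtain ⟨P₀, hP₀⟩ := Mazur.exists_seriesPlace (modularFunctionFieldFullC k p).val Jv
    (order_jqModC (k := k))
  obtain ⟨P₁, hP₁⟩ := Mazur.exists_seriesPlace σ (jTopF p k) (by rw [hσT, order_jqModC])
  have h0 : P₀.ord Jv = -1 := (hP₀ _).trans (order_jqModC (k := k))
  have h1 : P₁.ord Jv = -(p : ℤ) := by
    rw [hP₁, hσJ, order_qScale (NeZero.ne p) (jqModC_ne_zero_of_nontrivial k), order_jqModC]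
    ring
  have hne : P₀ ≠ P₁ := fun e => by
    rw [e, h1] at h0
    have := hpp.two_le
    omega
  refine ⟨P₀, P₁, hne, h0, h1, fun v hv => ?_, fun f => ⟨?_, ?_⟩⟩
  · by_contra hc
    push Not at hc
    have hdeg : Divisor.degree (FF.poleDivisor Jv : Divisor k F) = (p : ℤ) + 1 := by
      rw [FF.degree_poleDivisor (transcendental_jF p k), finrank_jF φ, Mazur.dedekindPsi_prime]
      push_cast
      ring
    rw [FF.degree_eq_sum, Finsupp.sum] at hdeg
    have hmem : ∀ w : Place k F, w.ord Jv < 0 → w ∈ (FF.poleDivisor Jv : Divisor k F).support :=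
      fun w hw => by
        rw [Finsupp.mem_support_iff, FF.poleDivisor_apply]
        omega
    have hsub : ({v, P₀, P₁} : Finset (Place k F)) ⊆ (FF.poleDivisor Jv : Divisor k F).support := by
      simp only [Finset.insert_subset_iff, Finset.singleton_subset_iff]
      exact ⟨hmem v hv, hmem _ (by omega), hmem _ (by omega)⟩
    have hle := Finset.sum_le_sum_of_subset_of_nonneg hsub
      (f := fun w => (FF.poleDivisor Jv : Divisor k F) w) fun w _ _ => by
        rw [FF.poleDivisor_apply]; omega
    rw [Finset.sum_insert (by simp [hc.1, hc.2]), Finset.sum_pair hne, hdeg, FF.poleDivisor_apply,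
      FF.poleDivisor_apply, FF.poleDivisor_apply, h0, h1] at hle
    omega
  · rw [hP₀]
    exact order_toK_nonneg _
  · obtain ⟨Q, h, hQ⟩ := rForm_twelve f
    have e : redLat φ f = redF φ one_ne_zero h * (Jv)⁻¹ := by
      apply Subtype.ext
      show toK k (fSeries p f) = redSer φ 1 _ * (((Jv)⁻¹ : F) : LaurentSeries k)
      rw [coe_jF_inv, redSer, map_mul, map_mul, map_mul, map_mul, ofPS_map_map, ofPS_map_map,
        ofPS_map_map, toK_e4, toK_e6, mul_one, mul_one, pow_one, mul_assoc,
        mul_comm (etaSerInv k), etaSer_mul_inv, mul_one]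
    have hσS : σ (redLat φ f) = toK k (fSeries' p f) := by
      rw [e, map_mul, map_inv₀, hσR, hσJ, redSerZero, map_mul, map_mul, PowerSeries.map_C, map_pow φ,
        map_pInv φ hp, one_pow, map_one, map_one, one_mul, hQ φ hp, pow_one, ← map_inv₀, jqModC_inv,
        mul_assoc, ← map_mul, mul_comm (etaSerInv k), etaSer_mul_inv, map_one, mul_one]
    rw [hP₁, hσS]
    exact order_toK_nonneg _

include φ in
/-- No Eisenstein congruence modulo two when `p ≡ 7 mod 8`, given the genus comparison. -/
theorem not_isEisCongr_two (hp : p % 8 = 7)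
    (hgen : genusFF k F ≤ Module.finrank ℂ (CuspForm (CongruenceSubgroup.Gamma0 p) 2))
    (g : ↥(CuspForm.intLattice p 2)) : ¬ IsEisCongr p 2 g := by
  classical
  intro hg
  have := isFF_fullC (k := k) φ
  have := isSeparable_jF (k := k) φ
  have := finiteDimensional_jF (k := k) φ
  have : CharP F 2 := charP_of_injective_ringHom (algebraMap k F).injective 2
  have : CharP (LaurentSeries k) 2 :=
    charP_of_injective_ringHom (algebraMap k (LaurentSeries k)).injective 2
  have hpp : p.Prime := Fact.out
  have hsep : FF.IsSep k Jv := ⟨transcendental_jF p k, inferInstance, inferInstance⟩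
  have hDJ := FF.D_ne_zero_of_isSep hsep
  have hJ0 : (Jv : F) ≠ 0 := fun h => transcendental_jF p k (h ▸ isAlgebraic_zero)
  obtain ⟨P₀, P₁, hne, h0, h1, hpoles, hcusp⟩ := exists_cusps φ hp
  set S := redLat φ g with hSdef
  have hSser : (S : LaurentSeries k) = sSer k p := by
    refine toK_congr k fun m => ?_
    rw [fSeries, PowerSeries.coeff_mk, PowerSeries.coeff_mk]
    rcases eq_or_ne m 0 with rfl | hm
    · rw [coeffInt_zero, sigmaP_zero]; simp
    · exact hg m hm
  -- the square roots
  obtain ⟨w, hw⟩ : ∃ w : F, (w : LaurentSeries k) = rootSer k p :=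
    ⟨⟨_, rootSer_mem φ hp⟩, rfl⟩
  set ε : F := 1 + Jv * w ^ 2 with hεdef
  have hu : 1 + ε = Jv * w ^ 2 := by
    rw [hεdef, ← add_assoc, CharTwo.add_self_eq_zero, zero_add]
  have hkey : Jv ^ 2 * w ^ 4 * (Jv)⁻¹ = Jv * w ^ 4 := by field_simp
  have hrel : S ^ 2 + S = (Jv)⁻¹ * ε ^ 2 := by
    apply Subtype.ext
    have e : (Jv)⁻¹ * ε ^ 2 = (Jv)⁻¹ + Jv * w ^ 4 := by
      rw [hεdef, CharTwo.add_sq, one_pow, mul_add, mul_one, ← hkey]
      ring
    rw [e]
    show (S : LaurentSeries k) ^ 2 + (S : LaurentSeries k) =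
      (((Jv)⁻¹ : F) : LaurentSeries k) + jqModC k * (w : LaurentSeries k) ^ 4
    rw [hSser, sSer_sq_add k p (odd_of_seven hp), coe_jF_inv, hw, rootSer_pow_four k p (by omega),
      ← mul_assoc, jqModC_mul_etaSer, one_mul]
  have hε : ε ≠ 0 := by
    intro h
    rw [h, zero_pow two_ne_zero, mul_zero] at hrel
    have h' := congrArg (Subtype.val : F → LaurentSeries k) hrel
    change (S : LaurentSeries k) ^ 2 + (S : LaurentSeries k) = 0 at h'
    rw [hSser, sSer_sq_add k p (odd_of_seven hp)] at h'
    have h2 := congrArg HahnSeries.order (CharTwo.add_eq_zero.mp h')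
    rw [order_qScale (NeZero.ne p) (fun h => by simpa [h] using jqModC_mul_etaSer k),
      order_etaSer] at h2
    omega
  -- zeros of `J`
  set T : Finset (Place k F) :=
    (FF.finite_ord_ne_zero (K := k) (Jv : F)).toFinset.filter fun v => 0 < v.ord Jv with hT
  have hmemT : ∀ v, v ∈ T ↔ 0 < v.ord Jv := fun v => by
    simp only [hT, Finset.mem_filter, Set.Finite.mem_toFinset, Set.mem_ofPred_eq]
    exact ⟨fun h => h.2, fun h => ⟨h.ne', h⟩⟩
  set m : Place k F → ℤ := fun v =>
    v.ordDifferential (KaehlerDifferential.D k F Jv) - v.ord Jv with hm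
  have hloc : ∀ v ∈ T, 0 ≤ m v ∧ (6 ≤ v.ord Jv → v.ord Jv / 6 + 1 ≤ m v) := by
    intro v hv
    rw [hmemT] at hv
    refine local_bound v hv ?_ hrel hu hε hDJ
    refine redLat_regular φ g v hv.le fun h => ?_
    have h' : sSer k p = 0 := by
      rw [← hSser]
      show ((redLat φ g : F) : LaurentSeries k) = 0
      rw [h]; rfl
    have := congrArg (fun z : LaurentSeries k => z.coeff ((1 : ℕ) : ℤ)) h'
    simp only [sSer, toK_coeff_natCast, PowerSeries.coeff_mk, sigmaP_one hpp] at this
    simp at this
  -- the canonical divisor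
  have hsum : ∑ v ∈ T, m v ≤ 2 * (genusFF k F : ℤ) := by
    set W : Divisor k F := canonicalDivisorOf hDJ - FF.divisorOf Jv with hW
    set E : Divisor k F := (∑ v ∈ T, Finsupp.single v (m v)) -
      (Finsupp.single P₀ 1 + Finsupp.single P₁ 1) with hE
    have hWv : ∀ v, W v = m v := fun v => by
      rw [hW, Finsupp.sub_apply, canonicalDivisorOf_apply, FF.divisorOf_apply]
    have hEW : ∀ v, 0 ≤ (W - E) v := by
      intro v
      rw [Finsupp.sub_apply, hWv, hE, Finsupp.sub_apply, Finsupp.add_apply, Finset.sum_apply',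
        Finsupp.single_apply, Finsupp.single_apply]
      simp only [Finsupp.single_apply, Finset.sum_ite_eq']
      by_cases hv : v ∈ T
      · rw [if_pos hv]
        split_ifs <;> omega
      · rw [if_neg hv]
        have hb := FF.ord_sub_one_le_ordDifferential_D v hDJ
        by_cases hJ : v.ord Jv < 0
        · rcases hpoles v hJ with rfl | rfl
          · rw [if_pos rfl, if_neg (Ne.symm hne)]; simp only [hm]; omega
          · rw [if_neg hne, if_pos rfl]; simp only [hm]; omega
        · have hz : v.ord Jv = 0 := by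
            rw [hmemT] at hv; omega
          have := FF.ordDifferential_D_nonneg v (f := Jv) hz.ge
          simp only [hm]
          split_ifs <;> omega
    have hnn : 0 ≤ Divisor.degree (W - E) := by
      rw [FF.degree_eq_sum]
      exact Finset.sum_nonneg fun v _ => hEW v
    rw [map_sub, hW, map_sub, FF.degree_canonicalDivisorOf, FF.degree_divisorOf, hE, map_sub,
      map_sum, map_add] at hnn
    simp only [Divisor.degree_single, FF.deg_eq_one, Nat.cast_one, mul_one] at hnn
    omega
  -- the space of reductions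
  set Dv : Divisor k F := ∑ v ∈ T, Finsupp.single v (v.ord Jv / 6) with hDv
  have hDapp : ∀ v, Dv v = if v ∈ T then v.ord Jv / 6 else 0 := fun v => by
    rw [hDv, Finset.sum_apply']
    simp only [Finsupp.single_apply, Finset.sum_ite_eq']
  have hDnn : ∀ v, 0 ≤ Dv v := fun v => by
    rw [hDapp]
    split_ifs with hv
    · rw [hmemT] at hv; omega
    · rfl
  have hLat : ∀ f, redLat φ f ∈ riemannRochSpace Dv := by
    intro f
    refine mem_riemannRochSpace_iff.mpr fun v => ?_
    rcases eq_or_ne (redLat φ f) 0 with h | h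
    · exact Or.inl h
    refine Or.inr ?_
    rw [hDapp]
    by_cases hneg : v.ord Jv < 0
    · have hvT : v ∉ T := fun hv => by rw [hmemT] at hv; omega
      rw [if_neg hvT, neg_zero]
      rcases hpoles v hneg with rfl | rfl
      · exact (hcusp f).1
      · exact (hcusp f).2
    · have h6 := redLat_regular φ f v (not_lt.mp hneg) h
      split_ifs with hv
      · omega
      · rw [hmemT] at hv; omega
  obtain ⟨n, b, hn, hind⟩ := exists_reduction_basis p
  have hell : n + 1 ≤ FF.ell Dv := by
    have : FiniteDimensional k ↥(riemannRochSpace Dv) :=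
      FF.finiteDimensional_riemannRochSpace Dv
    have hone : (1 : F) ∈ riemannRochSpace Dv := FF.mem_riemannRochSpace_of_ord fun v => by
      rw [v.ord_one]; have := hDnn v; omega
    let vecs : Option (Fin n) → ↥(riemannRochSpace Dv) := fun o =>
      o.elim ⟨1, hone⟩ fun i => ⟨redLat φ (b i), hLat (b i)⟩
    have hli : LinearIndependent k vecs := by
      rw [Fintype.linearIndependent_iff]
      intro c hc
      have hc' := congrArg (fun z : ↥(riemannRochSpace Dv) => ((z : F) : LaurentSeries k)) hc
      simp only [Fintype.sum_option, vecs, Option.elim, Submodule.coe_add, Submodule.coe_sum,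
        Submodule.coe_smul, IntermediateField.coe_add, IntermediateField.coe_sum,
        IntermediateField.coe_smul, ZeroMemClass.coe_zero] at hc'
      have hm' : ∀ j : ℕ, c none * (if j = 0 then 1 else 0) +
          ∑ i, c (some i) * (coeffInt p j (b i) : k) = 0 := by
        intro j
        have h := congrArg (fun z : LaurentSeries k => z.coeff (j : ℤ)) hc'
        simp only [HahnSeries.coeff_add, HahnSeries.coeff_sum, Algebra.smul_def, ModularCosets.coeff_algebraMap_mul, redLat,
          toK_coeff_natCast, fSeries, PowerSeries.coeff_mk, OneMemClass.coe_one,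
          HahnSeries.coeff_one, Nat.cast_eq_zero, HahnSeries.coeff_zero] at h
        exact h
      have hnone : c none = 0 := by
        have h := hm' 0
        simpa [coeffInt_zero] using h
      have hrest := hind k (fun i => c (some i)) fun j => by simpa [hnone] using hm' j
      rintro (_ | i)
      · exact hnone
      · exact congrFun hrest i
    have h := hli.fintype_card_le_finrank
    rw [Fintype.card_option, Fintype.card_fin] at h
    exact h
  have hzero : FF.hOne Dv = 0 := by
    by_contra h
    have := FF.ell_le_genusFF_of_hOne_pos (Nat.pos_of_ne_zero h)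
    omega
  have hRR := FF.riemann_roch Dv
  have hdeg : Divisor.degree Dv = ∑ v ∈ T, v.ord Jv / 6 := by
    rw [hDv, map_sum]
    exact Finset.sum_congr rfl fun v _ => by simp [Divisor.degree_single, FF.deg_eq_one]
  by_cases hbig : ∃ v ∈ T, 6 ≤ v.ord Jv
  · obtain ⟨v, hv, hv6⟩ := hbig
    have hlt : ∑ v ∈ T, v.ord Jv / 6 < ∑ v ∈ T, m v := by
      refine Finset.sum_lt_sum (fun u hu' => ?_) ⟨v, hv, ?_⟩
      · obtain ⟨ha, hb⟩ := hloc u hu'
        rw [hmemT] at hu'
        rcases le_or_gt 6 (u.ord Jv) with h6 | h6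
        · have := hb h6; omega
        · omega
      · have := (hloc v hv).2 hv6; omega
    omega
  · push Not at hbig
    have hD0 : Dv = 0 := Finsupp.ext fun v => by
      rw [hDapp, Finsupp.zero_apply]
      split_ifs with hv
      · have h1 := hbig v hv
        rw [hmemT] at hv
        omega
      · rfl
    have hSmem : S ∈ riemannRochSpace (0 : Divisor k F) := hD0 ▸ hLat g
    obtain ⟨c, hc⟩ := FF.mem_riemannRochSpace_zero.mp hSmem
    have h' : algebraMap k (LaurentSeries k) c = sSer k p := by
      rw [← hSser, ← hc]; rfl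
    have := congrArg (fun z : LaurentSeries k => z.coeff ((1 : ℕ) : ℤ)) h'
    simp only [sSer, toK_coeff_natCast, PowerSeries.coeff_mk, sigmaP_one hpp,
      algebraMap_eq_C, HahnSeries.C_apply, HahnSeries.coeff_single] at this
    simp at this

end FLTAgent.Eisen
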