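import Fermat.Agent.Eisen.TwoForms

/-!
# The families `(G / Δ^r) ∘ γ` for forms of weight `12 r`

`formFamily` with its expansions at the cusps `∞` and `0` (`formFamily_ser_inf`,
`formFamily_ser_zero`).
-/

set_option autoImplicit false

open UpperHalfPlane CongruenceSubgroup Matrix.SpecialLinearGroup ModularCurve
open FLTAgent.ModularCosets FLTAgent.Reduction FLTAgent.Modular
open scoped MatrixGroups ModularForm Manifold

noncomputable section

namespace FLTAgent.Eisen

theorem map_rescale_apply {A B : Type*} [CommRing A] [CommRing B] (f : A →+* B) (a : A)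
    (Q : PowerSeries A) :
    (PowerSeries.rescale a Q).map f = PowerSeries.rescale (f a) (Q.map f) := by
  ext m
  simp [PowerSeries.coeff_rescale]

theorem coeffMap_etaSerInv {A B : Type*} [CommRing A] [CommRing B] (f : A →+* B) :
    coeffMap f (etaSerInv A) = etaSerInv B := by
  rw [etaSerInv, etaSerInv, map_mul, coeffMap_single, map_one, coeffMap_ofPowerSeries,
    ← RingHom.comp_apply (PowerSeries.map f) (PowerSeries.map (Int.castRingHom A)),
    ← PowerSeries.map_comp, RingHom.ext_int (f.comp (Int.castRingHom A)) (Int.castRingHom B)]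

variable (p : ℕ) [Fact p.Prime]

local notation "R" => Reduction.zetaRing p

theorem qParam_natCast (j : ℕ) :
    Function.Periodic.qParam (p : ℝ) (((j : ℤ) : ℝ) : ℂ) = ((zetaU p : ℂˣ) : ℂ) ^ j := by
  rw [zetaU, Units.val_mk0, ← Complex.exp_nat_mul]
  simp only [Function.Periodic.qParam]
  congr 1
  push_cast
  ring

/-- The expansion of the family at a class of cosets. -/
def famSer (r : ℕ) (P Q : PowerSeries R) : PLine p → LaurentSeries R
  | none => qScale R p (HahnSeries.ofPowerSeries ℤ R P) * qScale R p (etaSerInv R ^ r)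
  | some j => HahnSeries.ofPowerSeries ℤ R (PowerSeries.C (pInv p ^ (12 * r - 1)) *
      PowerSeries.rescale ((zetaB p : R) ^ j.val) Q) * qScale R p (etaSerInv R ^ r)

variable {p}
variable {r : ℕ} {G : ℍ → ℂ} {P Q : PowerSeries (Reduction.zetaRing p)}

theorem deltaInv_mem (r : ℕ) :
    ((fun z : ℍ => (ModularForm.discriminant z)⁻¹) ^ r,
      coeffMap (Reduction.zetaRing p).subtype (qScale R p (etaSerInv R ^ r))) ∈
      holPairs (p : ℝ) (nat_pos_real p) := by
  have h1 : HasQExp 1 (fun z : ℍ => (ModularForm.discriminant z)⁻¹) (etaSerInv ℂ) := by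
    have h := Modular.hasQExp_discriminant.inv one_pos
    rw [Modular.discriminant_series_inv] at h
    exact h
  have h2 := (h1.pow r).qExpand p
  rw [mul_one] at h2
  refine ⟨?_, ?_⟩
  · have hd : DifferentiableOn ℂ ((fun z : ℍ => (ModularForm.discriminant z)⁻¹) ∘ ofComplex)
        {z : ℂ | 0 < z.im} :=
      Reduction.discriminant_diff.fun_inv fun w _ => ModularForm.discriminant_ne_zero _
    exact hd.fun_pow r
  · rw [coeffMap_qScale, map_pow, coeffMap_etaSerInv, qScale_eq]
    exact h2

theorem rep_pair_mem (hr : r ≠ 0) (h : RForm p ((12 * r : ℕ) : ℤ) G P Q) (x : PLine p) :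
    ((G ∣[((12 * r : ℕ) : ℤ)] rep p x) * (fun z : ℍ => (ModularForm.discriminant z)⁻¹) ^ r,
      coeffMap (Reduction.zetaRing p).subtype (famSer p r P Q x)) ∈
      holPairs (p : ℝ) (nat_pos_real p) := by
  have hpos := natCast_posR p
  rcases x with _ | j
  · have h1 : HasQ p (G ∣[((12 * r : ℕ) : ℤ)] rep p none)
        (PowerSeries.expand p (NeZero.ne p) (P.map (Reduction.zetaRing p).subtype)) := by
      rw [rep_none, SlashAction.slash_one]
      simpa using h.qInf.expand p (NeZero.ne p)
    rw [famSer, map_mul]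
    refine mul_mem (s := holPairs (p : ℝ) (nat_pos_real p))
      (a := (_, _)) (b := (_, _)) ⟨?_, ?_⟩ (deltaInv_mem r)
    · exact UpperHalfPlane.mdifferentiable_iff.mp (h1.mdiff hpos)
    · have h2 := Modular.hasQExp_ofPowerSeries (Filter.Eventually.of_forall h1)
      suffices e : Modular.psC (PowerSeries.expand p (NeZero.ne p)
          (P.map (Reduction.zetaRing p).subtype)) = coeffMap (Reduction.zetaRing p).subtype
            (qScale R p (HahnSeries.ofPowerSeries ℤ R P)) by rwa [e] at h2
      rw [coeffMap_qScale, coeffMap_ofPowerSeries, qScale_ofPowerSeries _ _ p (NeZero.ne p)]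
      rfl
  · have h1 : HasQ p (G ∣[((12 * r : ℕ) : ℤ)] rep p (some j))
        (PowerSeries.rescale (Function.Periodic.qParam (p : ℝ) (((j.val : ℤ) : ℝ) : ℂ))
          ((p : ℂ) ^ (1 - ((12 * r : ℕ) : ℤ)) • Q.map (Reduction.zetaRing p).subtype)) :=
      ((HasQ.slash_S_of_fricke p h.qFricke).vadd ((j.val : ℤ) : ℝ)).congr (funext fun τ => by
        rw [rep_some, SlashAction.slash_mul, slash_T_zpow_apply])
    rw [famSer, map_mul]
    refine mul_mem (s := holPairs (p : ℝ) (nat_pos_real p))
      (a := (_, _)) (b := (_, _)) ⟨?_, ?_⟩ (deltaInv_mem r)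
    · exact UpperHalfPlane.mdifferentiable_iff.mp (h1.mdiff hpos)
    · have h2 := Modular.hasQExp_ofPowerSeries (Filter.Eventually.of_forall h1)
      suffices e : PowerSeries.rescale (Function.Periodic.qParam (p : ℝ) (((j.val : ℤ) : ℝ) : ℂ))
          ((p : ℂ) ^ (1 - ((12 * r : ℕ) : ℤ)) • Q.map (Reduction.zetaRing p).subtype) =
          (PowerSeries.C (pInv p ^ (12 * r - 1)) *
            PowerSeries.rescale ((zetaB p : R) ^ j.val) Q).map (Reduction.zetaRing p).subtype by
        rw [coeffMap_ofPowerSeries, ← e]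
        exact h2
      rw [map_subtype_C_mul, map_rescale_apply, qParam_natCast]
      ext m
      simp only [PowerSeries.coeff_rescale, PowerSeries.coeff_smul, smul_eq_mul, map_pow,
        SubmonoidClass.coe_pow, pInv]
      rw [show (1 : ℤ) - ((12 * r : ℕ) : ℤ) = -((12 * r - 1 : ℕ) : ℤ) by omega, zpow_neg,
        zpow_natCast, inv_pow]
      rw [show (Reduction.zetaRing p).subtype (zetaB p : R) = ((zetaU p : ℂˣ) : ℂ) from rfl]
      ring

variable (p) in
/-- The family of `G / Δ^r`. -/
def formFamily (hr : r ≠ 0) (h : RForm p ((12 * r : ℕ) : ℤ) G P Q) : CosetFamily p where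
  F γ z := (G ∣[((12 * r : ℕ) : ℤ)] γ) z * (ModularForm.discriminant z)⁻¹ ^ r
  ser c := famSer p r P Q (rowClass p c.rep)
  smul γ γ' z := by
    have hd := congrFun (invariant_discriminant γ') z
    rw [ModularForm.SL_slash_apply] at hd
    rw [SlashAction.slash_mul,
      ModularForm.SL_slash_apply (f := G ∣[((12 * r : ℕ) : ℤ)] γ), ← hd, mul_inv, mul_pow, zpow_neg,
      zpow_neg, inv_inv, zpow_natCast]
    have hne := denom_ne_zero (γ' : GL (Fin 2) ℝ) z
    rw [show ((12 : ℤ)) = ((12 : ℕ) : ℤ) by norm_num, zpow_natCast, ← pow_mul]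
    field_simp
  inv hδ γ := by
    funext z
    show (G ∣[((12 * r : ℕ) : ℤ)] _) z * _ = _
    rw [SlashAction.slash_mul, h.inv _ hδ]
  mem c := by
    have e : G ∣[((12 * r : ℕ) : ℤ)] c.rep =
        G ∣[((12 * r : ℕ) : ℤ)] rep p (rowClass p c.rep) := by
      have h1 := slash_rep p h.inv c.rep none
      rw [rep_none, SlashAction.slash_one] at h1
      rw [h1, classAct, rep_none, one_mul]
    rw [e]
    exact rep_pair_mem hr h _

variable (p) in
/-- The coset of the cusp `0`. -/
def cosetZero : CosetIdx p :=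
  ⟨(1, 0), mem_cosetReps.mpr ⟨one_dvd p, by rw [Nat.div_one]; exact NeZero.pos p, by simp⟩⟩

theorem rowClass_cosetInf : rowClass p (cosetInf p).rep = none :=
  (rowClass_eq_none_iff p _).mpr cosetInf_rep_mem

theorem rowClass_cosetZero : rowClass p (cosetZero p).rep = some 0 := by
  have ha : (cosetZero p).a = 1 := rfl
  have hb : (cosetZero p).b = 0 := rfl
  have hD : (cosetZero p).D = p := Nat.div_one p
  have h10 : (cosetZero p).rep 1 0 = 1 := by simp [CosetIdx.rep, ha]
  have h11 : (cosetZero p).rep 1 1 = ((p * (cosetZero p).shift : ℕ) : ℤ) := by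
    simp [CosetIdx.rep, hb, hD]
  unfold rowClass
  rw [h10, h11]
  simp

theorem formFamily_ser_inf (hr : r ≠ 0) (h : RForm p ((12 * r : ℕ) : ℤ) G P Q) :
    (formFamily p hr h).ser (cosetInf p) =
      qScale R p (HahnSeries.ofPowerSeries ℤ R P * etaSerInv R ^ r) := by
  show famSer p r P Q (rowClass p (cosetInf p).rep) = _
  rw [rowClass_cosetInf, famSer, map_mul]

theorem formFamily_ser_zero (hr : r ≠ 0) (h : RForm p ((12 * r : ℕ) : ℤ) G P Q) :
    (formFamily p hr h).ser (cosetZero p) =
      HahnSeries.ofPowerSeries ℤ R (PowerSeries.C (pInv p ^ (12 * r - 1)) * Q) *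
        qScale R p (etaSerInv R ^ r) := by
  show famSer p r P Q (rowClass p (cosetZero p).rep) = _
  rw [rowClass_cosetZero, famSer, ZMod.val_zero, pow_zero]
  congr 3
  ext m
  simp

end FLTAgent.Eisen
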