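import Fermat.Agent.Eisen.TwoFamily
import Fermat.Agent.BadQ.TwoInstUnit
import Fermat.Agent.FF.PlacesMain

/-!
# Reductions of `G / Δ^r` in the function field of `X₀(p)`

`redF` is the reduction of `G / Δ^r` in the function field over a field `k`; it is regular away from
the poles of `j` (`redF_mem_placeRing`), and `exists_zeroExpansion` is the expansion at the second
cusp.
-/

set_option autoImplicit false
set_option linter.unusedSectionVars false

open AlgebraicCurve ModularCurve IntermediateField Polynomial
open FLTAgent.ModularCosets FLTAgent.Reduction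

noncomputable section

namespace FLTAgent.Eisen

variable {p : ℕ} [Fact p.Prime] {k : Type*} [Field k] (φ : Reduction.zetaRing p →+* k)

local notation "F" => modularFunctionFieldFullC k p
local notation "K0" => k⟮jF p k⟯

/-- The reduction of the series of `G / Δ^r`. -/
def redSer (r : ℕ) (P : PowerSeries (Reduction.zetaRing p)) : LaurentSeries k :=
  HahnSeries.ofPowerSeries ℤ k (P.map φ) * etaSerInv k ^ r

/-- The reduction of the series at the cusp `0`. -/
def redSerZero (r : ℕ) (Q : PowerSeries (Reduction.zetaRing p)) : LaurentSeries k :=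
  HahnSeries.ofPowerSeries ℤ k ((PowerSeries.C (pInv p ^ (12 * r - 1)) * Q).map φ) *
    qScale k p (etaSerInv k ^ r)

variable {r : ℕ} {G : UpperHalfPlane → ℂ} {P Q : PowerSeries (Reduction.zetaRing p)}

theorem coeffMap_ser_inf (hr : r ≠ 0) (h : RForm p ((12 * r : ℕ) : ℤ) G P Q) :
    coeffMap φ ((formFamily p hr h).ser (cosetInf p)) = upHom p k (redSer φ r P) := by
  rw [formFamily_ser_inf, coeffMap_qScale, map_mul, map_pow, coeffMap_ofPowerSeries,
    coeffMap_etaSerInv, upHom_apply, redSer]

theorem coeffMap_ser_zero (hr : r ≠ 0) (h : RForm p ((12 * r : ℕ) : ℤ) G P Q) :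
    coeffMap φ ((formFamily p hr h).ser (cosetZero p)) = redSerZero φ r Q := by
  rw [formFamily_ser_zero, map_mul, coeffMap_qScale, map_pow (coeffMap φ), coeffMap_ofPowerSeries,
    coeffMap_etaSerInv, redSerZero]

theorem redSer_mem (hr : r ≠ 0) (h : RForm p ((12 * r : ℕ) : ℤ) G P Q) :
    redSer φ r P ∈ F :=
  BadQ.TwoInst.mem_fullC_of_family φ _ (coeffMap_ser_inf φ hr h)

/-- The reduction of `G / Δ^r` in the function field. -/
def redF (hr : r ≠ 0) (h : RForm p ((12 * r : ℕ) : ℤ) G P Q) : F :=
  ⟨redSer φ r P, redSer_mem φ hr h⟩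

variable (p k) in
/-- Functions on the base in the variable of the cusp family. -/
def baseHom : K0 →+* LaurentSeries k :=
  (upHom p k).toRingHom.comp
    (((modularFunctionFieldFullC k p).val : F →+* LaurentSeries k).comp (algebraMap K0 F))

theorem baseHom_apply (a : K0) :
    baseHom p k a = upHom p k (((a : F) : LaurentSeries k)) := rfl

theorem exists_base_of_polyJ {x : LaurentSeries k} (hx : x ∈ polyJ (jUp p k)) :
    ∃ a : K0, baseHom p k a = x ∧
      ∀ v : Place k F, 0 ≤ v.ord (jF p k) → (a : F) ∈ v.toValuationSubring := by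
  obtain ⟨P, rfl⟩ := mem_polyJ_iff.mp hx
  refine ⟨aeval (⟨jF p k, mem_adjoin_simple_self k _⟩ : K0) P, ?_, fun v hv => ?_⟩
  · rw [Polynomial.aeval_def, Polynomial.hom_eval₂]
    congr 1
    · refine RingHom.ext fun c => ?_
      rw [RingHom.comp_apply, baseHom_apply, ← algebraMap_eq_C]
      exact (upHom p k).commutes c
    · rw [baseHom_apply, jUp, ← upHom_apply]
      rfl
  · rw [show ((aeval (⟨jF p k, mem_adjoin_simple_self k _⟩ : K0) P : K0) : F) =
      aeval (jF p k) P from (Polynomial.aeval_algHom_apply (K0).val _ P).symm,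
      Polynomial.aeval_eq_sum_range]
    refine sum_mem fun i _ => ?_
    rw [Algebra.smul_def]
    exact mul_mem (v.algebraMap_mem' _) (pow_mem ((FF.mem_iff v _).mpr (Or.inr hv)) _)

theorem exists_lift_base {f : Polynomial (LaurentSeries k)}
    (hf : ∀ i, f.coeff i ∈ polyJ (jUp p k)) : ∃ P : Polynomial K0, P.map (baseHom p k) = f :=
  (Polynomial.mem_lifts f).mp ((Polynomial.lifts_iff_coeff_lifts f).mpr fun i => by
    obtain ⟨a, ha, -⟩ := exists_base_of_polyJ (hf i)
    exact ⟨a, ha⟩)

theorem upHom_aeval (P : Polynomial K0) (y : F) :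
    upHom p k ((aeval y P : F) : LaurentSeries k) =
      (P.map (baseHom p k)).eval (upHom p k (y : LaurentSeries k)) := by
  rw [Polynomial.eval_map, Polynomial.aeval_def]
  exact Polynomial.hom_eval₂ _ _
    ((upHom p k).toRingHom.comp ((modularFunctionFieldFullC k p).val : F →+* LaurentSeries k)) _

/-- Reductions of `G / Δ^r` are regular away from the poles of `j`. -/
theorem redF_mem_placeRing (hr : r ≠ 0) (h : RForm p ((12 * r : ℕ) : ℤ) G P Q)
    (v : Place k F) (hv : 0 ≤ v.ord (jF p k)) :
    redF φ hr h ∈ v.toValuationSubring := by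
  have hsym := isSymFamily_map φ (formFamily p hr h)
  let ι : v.toValuationSubring →+* LaurentSeries k :=
    (upHom p k).toRingHom.comp
      (((modularFunctionFieldFullC k p).val : F →+* LaurentSeries k).comp
        v.toValuationSubring.subtype)
  have hlift : famPoly (coeffMap φ ∘ (formFamily p hr h).ser) ∈ Polynomial.lifts ι := by
    rw [Polynomial.lifts_iff_coeff_lifts]
    intro i
    obtain ⟨a, ha, hav⟩ := exists_base_of_polyJ (hsym.coeff_poly i)
    exact ⟨⟨(a : F), hav v hv⟩, ha⟩
  obtain ⟨P', hP', -, hm⟩ :=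
    Polynomial.lifts_and_natDegree_eq_and_monic hlift (famPoly_monic _)
  have h0 : Polynomial.eval₂ v.toValuationSubring.subtype (redF φ hr h) P' = 0 := by
    apply Subtype.val_injective
    apply (upHom p k).toRingHom.injective
    show ((upHom p k).toRingHom.comp
        ((modularFunctionFieldFullC k p).val : F →+* LaurentSeries k)) _ =
      ((upHom p k).toRingHom.comp
        ((modularFunctionFieldFullC k p).val : F →+* LaurentSeries k)) 0
    rw [Polynomial.hom_eval₂, map_zero, ← Polynomial.eval_map]
    show (P'.map ι).eval _ = 0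
    rw [hP', show ((upHom p k).toRingHom.comp
        ((modularFunctionFieldFullC k p).val : F →+* LaurentSeries k)) (redF φ hr h) =
      (coeffMap φ ∘ (formFamily p hr h).ser) (cosetInf p) from (coeffMap_ser_inf φ hr h).symm]
    exact famPoly_eval_self _ _
  obtain ⟨y, hy⟩ := IsIntegrallyClosed.isIntegral_iff.mp
    (show IsIntegral v.toValuationSubring (redF φ hr h) from ⟨P', hm, h0⟩)
  exact hy ▸ y.2

variable (k) in
/-- A root of the modular polynomial. -/
theorem map_minpoly_jTopF :
    (minpoly K0 (jTopF p k)).map (baseHom p k) = famPoly (rootsOf φ) := by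
  classical
  obtain ⟨hint, hdeg⟩ := minpoly_jTopF φ
  obtain ⟨P', hP'⟩ := exists_lift_base (isSymFamily_map φ (jTopFamily p)).coeff_root
  have hinj : Function.Injective (baseHom p k) := (baseHom p k).injective
  have hm : P'.Monic := Polynomial.monic_of_injective hinj (hP' ▸ famPoly_monic _)
  have h0 : aeval (jTopF p k) P' = 0 := by
    apply Subtype.val_injective
    apply (upHom p k).toRingHom.injective
    show upHom p k _ = upHom p k 0
    rw [upHom_aeval, hP', map_zero,
      show upHom p k ((jTopF p k : F) : LaurentSeries k) = rootsOf φ (cosetInf p) by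
        rw [rootsOf_cosetInf]; exact upHom_jTopC, famPoly_eval_self]
  have hd : P'.natDegree = dedekindPsi p := by
    rw [← Polynomial.natDegree_map_eq_of_injective hinj, hP', famPoly,
      Polynomial.natDegree_finsetProd_X_sub_C_eq_card, Finset.card_univ, card_cosetIdx]
  have he := Polynomial.eq_of_monic_of_dvd_of_natDegree_le (minpoly.monic hint) hm
    (minpoly.dvd _ _ h0) (by rw [hd, hdeg])
  rw [← he, hP']

include φ in
/-- The expansion at the cusp `0`. -/
theorem exists_zeroExpansion : ∃ σ : F →ₐ[k] LaurentSeries k,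
    σ (jF p k) = qScale k p (jqModC k) ∧ σ (jTopF p k) = jqModC k ∧
    ∀ (r : ℕ) (G : UpperHalfPlane → ℂ) (P Q : PowerSeries (Reduction.zetaRing p)) (hr : r ≠ 0)
      (h : RForm p ((12 * r : ℕ) : ℤ) G P Q), σ (redF φ hr h) = redSerZero φ r Q := by
  classical
  obtain ⟨hint, -⟩ := minpoly_jTopF φ
  have hroot : (minpoly K0 (jTopF p k)).eval₂ (baseHom p k) (rootsOf φ (cosetZero p)) = 0 := by
    rw [← Polynomial.eval_map, map_minpoly_jTopF k φ]
    exact famPoly_eval_self _ _
  let e := IntermediateField.adjoinRootEquivAdjoin K0 hint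
  let i : F →+* K0⟮jTopF p k⟯ := (RingHom.id F).codRestrict
    (K0⟮jTopF p k⟯).toSubfield.toSubring fun x => by
      show x ∈ K0⟮jTopF p k⟯
      rw [adjoin_jTopF_eq_top φ]
      trivial
  let θ : F →+* LaurentSeries k :=
    (AdjoinRoot.lift (baseHom p k) (rootsOf φ (cosetZero p)) hroot).comp
      ((e.symm : K0⟮jTopF p k⟯ →+* AdjoinRoot (minpoly K0 (jTopF p k))).comp i)
  have hbase : ∀ a : K0, θ (a : F) = baseHom p k a := by
    intro a
    show AdjoinRoot.lift (baseHom p k) (rootsOf φ (cosetZero p)) hroot (e.symm (i (a : F))) = _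
    rw [show i (a : F) = algebraMap K0 K0⟮jTopF p k⟯ a from Subtype.ext rfl, e.symm.commutes]
    exact AdjoinRoot.lift_of _
  have htop : θ (jTopF p k) = rootsOf φ (cosetZero p) := by
    show AdjoinRoot.lift (baseHom p k) (rootsOf φ (cosetZero p)) hroot (e.symm (i (jTopF p k))) = _
    rw [show i (jTopF p k) = AdjoinSimple.gen K0 (jTopF p k) from Subtype.ext rfl,
      IntermediateField.adjoinRootEquivAdjoin_symm_apply_gen]
    exact AdjoinRoot.lift_root hroot
  have heval : ∀ P' : Polynomial K0,
      θ (aeval (jTopF p k) P') = (P'.map (baseHom p k)).eval (rootsOf φ (cosetZero p)) := by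
    intro P'
    rw [Polynomial.eval_map, Polynomial.aeval_def, Polynomial.hom_eval₂, htop]
    congr 1
    exact RingHom.ext hbase
  refine ⟨{ toRingHom := θ, commutes' := fun c => ?_ }, ?_, ?_, ?_⟩
  · show θ (((algebraMap k K0 c : K0) : F)) = _
    rw [hbase, baseHom_apply]
    exact (upHom p k).commutes c
  · show θ ((⟨jF p k, mem_adjoin_simple_self k _⟩ : K0) : F) = _
    rw [hbase, baseHom_apply, upHom_apply]
    rfl
  · show θ (jTopF p k) = _
    rw [htop, rootsOf, show (cosetZero p).a = 1 from rfl, show (cosetZero p).b = 0 from rfl, jConj,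
      Nat.mul_zero, Nat.mul_one, Nat.cast_zero, zpow_zero, twist_one, qScale_one]
  · intro r G P Q hr h
    show θ (redF φ hr h) = _
    have hsym := isSymFamily_map φ (formFamily p hr h)
    obtain ⟨L, hL⟩ := exists_lift_base hsym.coeff_lagrange
    have hD := map_minpoly_jTopF k φ
    set D := derivative (minpoly K0 (jTopF p k)) with hDdef
    have hDmap : D.map (baseHom p k) = derivative (famPoly (rootsOf φ)) := by
      rw [hDdef, ← Polynomial.derivative_map, hD]
    have hinfRoot : upHom p k ((jTopF p k : F) : LaurentSeries k) = rootsOf φ (cosetInf p) := by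
      rw [rootsOf_cosetInf]; exact upHom_jTopC
    have hkey : redF φ hr h * aeval (jTopF p k) D = aeval (jTopF p k) L := by
      apply Subtype.val_injective
      apply (upHom p k).toRingHom.injective
      show upHom p k _ = upHom p k _
      rw [IntermediateField.coe_mul, map_mul, upHom_aeval, upHom_aeval, hinfRoot, hDmap, hL,
        famLagrange_eval]
      congr 1
      exact (coeffMap_ser_inf φ hr h).symm
    have h2 := congrArg θ hkey
    rw [map_mul, heval, heval, hDmap, hL, famLagrange_eval, Function.comp_apply,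
      coeffMap_ser_zero φ hr h] at h2
    refine mul_right_cancel₀ ?_ h2
    rw [famPoly_derivative_eval]
    exact Finset.prod_ne_zero_iff.mpr fun δ hδ =>
      sub_ne_zero.mpr fun e' => (Finset.mem_erase.mp hδ).1 (rootsOf_injective φ e').symm

end FLTAgent.Eisen
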