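import Fermat.Agent.Eisen.Eisenstein
import Fermat.Agent.Eisen.Trace
import Fermat.Agent.Eisen.AuxForm
import Fermat.Agent.Eisen.Criterion

/-!
# The divisibility coming from the trace

For `gForm = 24 (E - f)` the trace of `gForm · f` vanishes (`trace_identity`), whence
`24 d ∣ (p² - 1) a₁` (`dvd_sq_sub_one_mul`).
-/

set_option autoImplicit false
set_option linter.unusedSectionVars false

open UpperHalfPlane CongruenceSubgroup Matrix.SpecialLinearGroup ModularFormClass CuspForm
open scoped MatrixGroups ModularForm Manifold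

noncomputable section

namespace FLTAgent.Eisen

variable (p : ℕ) [Fact p.Prime] (f : ↥(intLattice p 2))

/-- `24 (E - f)`. -/
def gForm : ℍ → ℂ := (24 : ℂ) • (eisP p - ⇑(f : CuspForm (Gamma0 p) 2))

/-- Coefficients of `24 (E - f)`. -/
def gSeries : PowerSeries ℤ :=
  PowerSeries.mk fun m =>
    if m = 0 then (p : ℤ) - 1 else 24 * (sigmaP p m - coeffInt p m f)

/-- Coefficients of `24 (E - U f)`. -/
def gSeries' : PowerSeries ℤ :=
  PowerSeries.mk fun m =>
    if m = 0 then (p : ℤ) - 1 else 24 * (sigmaP p m - coeffInt p (p * m) f)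

/-- Coefficients of `f` and of `U f`. -/
def fSeries : PowerSeries ℤ := PowerSeries.mk fun m => coeffInt p m f

/-- Coefficients of `U f`. -/
def fSeries' : PowerSeries ℤ := PowerSeries.mk fun m => coeffInt p (p * m) f

theorem map_fSeries :
    (fSeries p f).map (Int.castRingHom ℂ) = cuspSeries p (f : CuspForm (Gamma0 p) 2) := by
  ext m
  simp only [fSeries, PowerSeries.coeff_map, PowerSeries.coeff_mk, eq_intCast, cuspSeries]
  exact (coeffInt_spec p m f).symm

theorem map_fSeries' :
    (fSeries' p f).map (Int.castRingHom ℂ) = -frickeSeries p (f : CuspForm (Gamma0 p) 2) := by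
  ext m
  simp only [fSeries', PowerSeries.coeff_map, PowerSeries.coeff_mk, eq_intCast, map_neg,
    coeff_frickeSeries, neg_neg]
  exact (coeffInt_spec p (p * m) f).symm

theorem hasQ_fSeries : HasQZ 1 (⇑(f : CuspForm (Gamma0 p) 2)) (fSeries p f) := by
  unfold HasQZ; rw [map_fSeries]; exact hasQ_cuspForm p _

theorem coeff_gSeries_cast (m : ℕ) :
    (((PowerSeries.coeff m (gSeries p f) : ℤ)) : ℂ) =
      24 * (PowerSeries.coeff m (eisSeries p) -
        qCoeff (f : CuspForm (Gamma0 p) 2) m) := by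
  simp only [gSeries, eisSeries, PowerSeries.coeff_mk]
  rcases eq_or_ne m 0 with rfl | hm
  · simp only [if_pos]; rw [IntStr.qCoeff_index_zero]; push_cast; ring
  · simp only [if_neg hm]; rw [coeffInt_spec]; push_cast; ring

theorem hasQ_gForm : HasQZ 1 (gForm p f) (gSeries p f) := by
  have h := ((hasQ_eisP p).sub (hasQ_cuspForm p (f : CuspForm (Gamma0 p) 2))).smul (24 : ℂ)
  suffices e : (gSeries p f).map (Int.castRingHom ℂ) =
      (24 : ℂ) • (eisSeries p - cuspSeries p (f : CuspForm (Gamma0 p) 2)) by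
    unfold HasQZ; rw [e]; exact h
  ext m
  simp only [PowerSeries.coeff_map, eq_intCast, coeff_gSeries_cast, map_smul, map_sub, smul_eq_mul]
  rfl

theorem gForm_invariant {γ : SL(2, ℤ)} (hγ : γ ∈ Gamma0 p) :
    gForm p f ∣[(2 : ℤ)] γ = gForm p f := by
  simp only [gForm, ModularForm.SL_smul_slash, sub_eq_add_neg, SlashAction.add_slash,
    SlashAction.neg_slash, eisP_invariant p hγ, invariant_of_cuspForm p _ hγ]

theorem fricke_linear (c : ℂ) (u v : ℍ → ℂ) (k : ℤ) :
    fricke p k (c • (u - v)) = c • (fricke p k u - fricke p k v) := by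
  funext τ
  simp only [fricke, ModularForm.SL_smul_slash, sub_eq_add_neg, SlashAction.add_slash,
    SlashAction.neg_slash, Pi.smul_apply, Pi.add_apply, Pi.neg_apply, smul_eq_mul]
  ring

theorem hasQ_fricke_gForm :
    HasQ 1 (fricke p 2 (gForm p f)) (-((gSeries' p f).map (Int.castRingHom ℂ))) := by
  unfold gForm
  rw [fricke_linear, fricke_eisP]
  have h := (((hasQ_eisP p).neg).sub (hasQ_fricke p (f : CuspForm (Gamma0 p) 2))).smul (24 : ℂ)
  suffices e : -((gSeries' p f).map (Int.castRingHom ℂ)) =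
      (24 : ℂ) • (-eisSeries p - frickeSeries p (f : CuspForm (Gamma0 p) 2)) by
    rw [e]; exact h
  ext m
  simp only [gSeries', eisSeries, map_neg, map_smul, map_sub, PowerSeries.coeff_map,
    PowerSeries.coeff_mk, eq_intCast, smul_eq_mul, coeff_frickeSeries]
  rw [coeffInt_spec]
  rcases eq_or_ne m 0 with rfl | hm
  · simp only [if_pos, mul_zero]
    rw [coeffInt_zero]; push_cast; ring
  · simp only [if_neg hm]; push_cast; ring

/-- `U² = 1` on forms of prime level. -/
theorem coeffInt_sq_mul (m : ℕ) : coeffInt p (p * (p * m)) f = coeffInt p m f := by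
  have h := trace_coeff_eq_zero p (k := 2) (by norm_num)
    (fun γ hγ => invariant_of_cuspForm p (f : CuspForm (Gamma0 p) 2) hγ)
    (hasQ_cuspForm p _) (hasQ_fricke p _) (constantCoeff_cuspSeries p _)
    (constantCoeff_frickeSeries p _) m
  rw [sub_self, zpow_zero, one_mul, coeff_frickeSeries] at h
  have h1 : qCoeff (f : CuspForm (Gamma0 p) 2) m = qCoeff (f : CuspForm (Gamma0 p) 2) (p * (p * m)) :=
    add_neg_eq_zero.mp h
  rw [coeffInt_spec, coeffInt_spec] at h1
  exact_mod_cast h1.symm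

theorem fricke_mul (k l : ℤ) (u v : ℍ → ℂ) :
    fricke p (k + l) (u * v) = (p : ℂ) • (fricke p k u * fricke p l v) := by
  have hp : (p : ℂ) ≠ 0 := Nat.cast_ne_zero.mpr (NeZero.ne p)
  funext τ
  simp only [fricke, ModularForm.mul_slash_SL2, Pi.mul_apply, Pi.smul_apply, smul_eq_mul]
  rw [show k + l - 1 = 1 + ((k - 1) + (l - 1)) by ring, zpow_add₀ hp, zpow_add₀ hp, zpow_one]
  ring

/-- The trace identity for `24(E - f) · f`. -/
theorem trace_identity (m : ℕ) :
    (p : ℤ) * PowerSeries.coeff m (gSeries p f * fSeries p f) +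
      PowerSeries.coeff (p * m) (gSeries' p f * fSeries' p f) = 0 := by
  set u := gForm p f * ⇑(f : CuspForm (Gamma0 p) 2) with hu
  have hinv : ∀ γ ∈ Gamma0 p, u ∣[((2 : ℤ) + 2)] γ = u := fun γ hγ => by
    rw [hu, ModularForm.mul_slash_SL2, gForm_invariant p f hγ, invariant_of_cuspForm p _ hγ]
  have h0 : HasQZ 1 u (gSeries p f * fSeries p f) :=
    (hasQ_gForm p f).mul one_pos (hasQ_fSeries p f)
  have h1 : HasQ 1 (fricke p (2 + 2) u)
      ((p : ℂ) • (gSeries' p f * fSeries' p f).map (Int.castRingHom ℂ)) := by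
    rw [hu, fricke_mul]
    have h := ((hasQ_fricke_gForm p f).mul one_pos
      (hasQ_fricke p (f : CuspForm (Gamma0 p) 2))).smul (p : ℂ)
    rwa [← neg_neg (frickeSeries p _), ← map_fSeries', neg_mul_neg, ← map_mul] at h
  have h := trace_coeff_eq_zero p (k := 2 + 2) (by norm_num) hinv h0 h1
    (by rw [map_mul, map_mul, map_fSeries, constantCoeff_cuspSeries, mul_zero])
    (by
      rw [← PowerSeries.coeff_zero_eq_constantCoeff_apply, map_smul,
        PowerSeries.coeff_zero_eq_constantCoeff_apply, map_mul, map_mul, map_fSeries', map_neg,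
        constantCoeff_frickeSeries, neg_zero, mul_zero, smul_zero]) m
  rw [map_smul, smul_eq_mul, PowerSeries.coeff_map, PowerSeries.coeff_map, eq_intCast,
    eq_intCast] at h
  have hp : (p : ℂ) ≠ 0 := Nat.cast_ne_zero.mpr (NeZero.ne p)
  rw [show (2 : ℤ) - (2 + 2) = -2 by norm_num, zpow_neg] at h
  have h' : ((p : ℤ) : ℂ) * (((PowerSeries.coeff m (gSeries p f * fSeries p f) : ℤ)) : ℂ) +
      (((PowerSeries.coeff (p * m) (gSeries' p f * fSeries' p f) : ℤ)) : ℂ) = 0 := by
    push_cast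
    field_simp at h
    linear_combination h
  exact_mod_cast h'

variable {d : ℤ}

theorem dvd_coeff_gSeries (hf : IsEisCongr p d f) {m : ℕ} (hm : m ≠ 0) :
    24 * d ∣ PowerSeries.coeff m (gSeries p f) := by
  simp only [gSeries, PowerSeries.coeff_mk, if_neg hm]
  exact mul_dvd_mul_left 24 (by simpa using (hf m hm).neg_right)

theorem dvd_coeff_gSeries' (hf : IsEisCongr p d f) {m : ℕ} (hm : m ≠ 0) :
    24 * d ∣ PowerSeries.coeff m (gSeries' p f) := by
  simp only [gSeries', PowerSeries.coeff_mk, if_neg hm]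
  have h := (hf (p * m) (mul_ne_zero (NeZero.ne p) hm)).neg_right
  rw [sigmaP_self_mul (Fact.out : p.Prime), neg_sub] at h
  exact mul_dvd_mul_left 24 h

theorem dvd_coeff_mul_sub {M c : ℤ} {G : PowerSeries ℤ} (hG : ∀ m, m ≠ 0 → M ∣ PowerSeries.coeff m G)
    (hc : PowerSeries.coeff 0 G = c) (F : PowerSeries ℤ) (m : ℕ) :
    M ∣ PowerSeries.coeff m (G * F) - c * PowerSeries.coeff m F := by
  rw [PowerSeries.coeff_mul, ← Finset.add_sum_erase _ _
    (Finset.HasAntidiagonal.mem_antidiagonal.mpr (zero_add m) :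
      ((0, m) : ℕ × ℕ) ∈ Finset.HasAntidiagonal.antidiagonal m), hc, add_sub_cancel_left]
  refine Finset.dvd_sum fun x hx => Dvd.dvd.mul_right (hG _ fun h0 => ?_) _
  rw [Finset.mem_erase, Finset.HasAntidiagonal.mem_antidiagonal] at hx
  exact hx.1 (Prod.ext h0 (by omega))

/-- `24 d ∣ (p² - 1) a₁`. -/
theorem dvd_sq_sub_one_mul (hf : IsEisCongr p d f) :
    24 * d ∣ ((p : ℤ) ^ 2 - 1) * coeffInt p 1 f := by
  obtain ⟨a, ha⟩ := dvd_coeff_mul_sub (c := (p : ℤ) - 1)
    (fun m hm => dvd_coeff_gSeries p f hf hm) (by simp [gSeries]) (fSeries p f) 1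
  obtain ⟨b, hb⟩ := dvd_coeff_mul_sub (c := (p : ℤ) - 1)
    (fun m hm => dvd_coeff_gSeries' p f hf hm) (by simp [gSeries']) (fSeries' p f) (p * 1)
  have h := trace_identity p f 1
  simp only [fSeries, fSeries', PowerSeries.coeff_mk] at ha hb
  rw [coeffInt_sq_mul] at hb
  simp only [fSeries, fSeries'] at h
  exact ⟨-((p : ℤ) * a + b), by linear_combination h - (p : ℤ) * ha - hb⟩

end FLTAgent.Eisen
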