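import Fermat.Agent.Eisen.TwoSeries
import Fermat.Agent.Eisen.UpperTrace
import Fermat.Agent.Reduction.GaussFamily

/-!
# Forms on `Γ₀(p)` with expansions at both cusps over `ℤ[ζ, 1/p]`

`RForm`, closed under products, with the examples from cusp forms, level one forms and their scaled
versions (`rForm_cuspForm`, `rForm_levelOne`, `rForm_scaled`, `rForm_deltaScaled`).
-/

set_option autoImplicit false

open UpperHalfPlane CongruenceSubgroup Matrix.SpecialLinearGroup
open scoped MatrixGroups ModularForm Manifold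

noncomputable section

namespace FLTAgent.Eisen

variable (p : ℕ) [Fact p.Prime]

local notation "R" => Reduction.zetaRing p

/-- An invariant function of weight `k` with expansions `P` at `∞` and `Q` after the Fricke
operator. -/
structure RForm (k : ℤ) (G : ℍ → ℂ) (P Q : PowerSeries R) : Prop where
  inv : ∀ γ ∈ Gamma0 p, G ∣[k] γ = G
  qInf : HasQ 1 G (P.map (Reduction.zetaRing p).subtype)
  qFricke : HasQ 1 (fricke p k G) (Q.map (Reduction.zetaRing p).subtype)

/-- The inverse of `p`. -/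
def pInv : R := ⟨((p : ℂ))⁻¹, Reduction.natCast_inv_mem p⟩

theorem p_mul_pInv : (p : R) * pInv p = 1 :=
  Subtype.ext (by simp [pInv, NeZero.ne p])

theorem map_subtype_map (A : PowerSeries ℤ) :
    (A.map (Int.castRingHom R)).map (Reduction.zetaRing p).subtype =
      A.map (Int.castRingHom ℂ) := by
  ext m
  simp

theorem map_subtype_C_mul (c : R) (P : PowerSeries R) :
    (PowerSeries.C c * P).map (Reduction.zetaRing p).subtype =
      (c : ℂ) • P.map (Reduction.zetaRing p).subtype := by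
  rw [map_mul, PowerSeries.map_C, PowerSeries.smul_eq_C_mul]
  rfl

variable {p}

theorem RForm.mul {k l : ℤ} {u v : ℍ → ℂ} {P Q P' Q' : PowerSeries R}
    (hu : RForm p k u P Q) (hv : RForm p l v P' Q') :
    RForm p (k + l) (u * v) (P * P') (PowerSeries.C (p : R) * (Q * Q')) := by
  refine ⟨fun γ hγ => ?_, ?_, ?_⟩
  · rw [ModularForm.mul_slash_SL2, hu.inv γ hγ, hv.inv γ hγ]
  · rw [map_mul]
    exact hu.qInf.mul one_pos hv.qInf
  · rw [fricke_mul, map_subtype_C_mul, map_mul]
    simpa using (hu.qFricke.mul one_pos hv.qFricke).smul (p : ℂ)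

theorem RForm.cast {k l : ℤ} {G : ℍ → ℂ} {P Q : PowerSeries R} (h : RForm p k G P Q)
    (e : k = l) : RForm p l G P Q := e ▸ h

theorem RForm.pow_succ {k : ℤ} {G : ℍ → ℂ} {P Q : PowerSeries R} (h : RForm p k G P Q) :
    ∀ n : ℕ, RForm p ((n + 1 : ℕ) * k) (G ^ (n + 1)) (P ^ (n + 1))
      (PowerSeries.C (p : R) ^ n * Q ^ (n + 1))
  | 0 => by simpa using h
  | n + 1 => by
    have h' := ((RForm.pow_succ h n).mul h).cast (l := ((n + 1 + 1 : ℕ) : ℤ) * k)
      (by push_cast; ring)
    rw [← _root_.pow_succ, ← _root_.pow_succ] at h'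
    convert h' using 1
    ring

variable (p)

/-- Cusp forms with integral coefficients. -/
theorem rForm_cuspForm (f : ↥(CuspForm.intLattice p 2)) :
    RForm p 2 (⇑(f : CuspForm (Gamma0 p) 2)) ((fSeries p f).map (Int.castRingHom R))
      (-((fSeries' p f).map (Int.castRingHom R))) := by
  refine ⟨fun γ hγ => invariant_of_cuspForm p _ hγ, ?_, ?_⟩
  · rw [map_subtype_map]
    exact hasQ_fSeries p f
  · rw [map_neg, map_subtype_map, map_fSeries', neg_neg]
    exact hasQ_fricke p _

theorem scaleH_S_smul (τ : ℍ) :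
    scaleH p (natCast_posR p) (ModularGroup.S • scaleH p (natCast_posR p) τ) =
      ModularGroup.S • τ := by
  have hτ : (τ : ℂ) ≠ 0 := UpperHalfPlane.ne_zero τ
  have hp : (p : ℂ) ≠ 0 := Nat.cast_ne_zero.mpr (NeZero.ne p)
  apply UpperHalfPlane.ext
  rw [coe_scaleH, S_smul_coe, S_smul_coe, coe_scaleH]
  push_cast
  field_simp

variable {k : ℕ} {g : ℍ → ℂ} {A : PowerSeries ℤ}

/-- A form of level one, seen in level `p`. -/
theorem rForm_levelOne (hk : k ≠ 0) (hinv : ∀ γ : SL(2, ℤ), g ∣[(k : ℤ)] γ = g)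
    (hA : HasQZ 1 g A) :
    RForm p k g (A.map (Int.castRingHom R))
      (PowerSeries.C ((p : R) ^ (k - 1)) *
        (PowerSeries.expand p (NeZero.ne p) A).map (Int.castRingHom R)) := by
  refine ⟨fun γ _ => hinv γ, ?_, ?_⟩
  · rw [map_subtype_map]; exact hA
  · rw [map_subtype_C_mul, map_subtype_map]
    have h := (HasQ.scaleNat (h := 1) one_ne_zero hA p).smul ((p : ℂ) ^ ((k : ℤ) - 1))
    rw [PowerSeries.map_expand]
    have e : (((p : R) ^ (k - 1) : R) : ℂ) = (p : ℂ) ^ ((k : ℤ) - 1) := by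
      rw [show (k : ℤ) - 1 = ((k - 1 : ℕ) : ℤ) by omega, zpow_natCast]
      push_cast
      rfl
    rw [e]
    refine h.congr (funext fun τ => ?_)
    simp only [fricke, hinv, Pi.smul_apply, smul_eq_mul]

/-- The same form in the variable `p τ`. -/
theorem rForm_scaled (hinv : ∀ γ : SL(2, ℤ), g ∣[(k : ℤ)] γ = g) (hA : HasQZ 1 g A) :
    RForm p k (fun τ => g (scaleH p (natCast_posR p) τ))
      ((PowerSeries.expand p (NeZero.ne p) A).map (Int.castRingHom R))
      (PowerSeries.C (pInv p) * A.map (Int.castRingHom R)) := by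
  refine ⟨fun γ hγ => ?_, ?_, ?_⟩
  · obtain ⟨γ', h00, h01, h10, h11⟩ := exists_scaled p hγ
    funext τ
    rw [ModularForm.SL_slash_apply]
    show g (scaleH p (natCast_posR p) (γ • τ)) * denom γ τ ^ (-(k : ℤ)) = _
    rw [smul_scaleH p γ γ' h00 h01 h10 h11, ← denom_scaleH p γ γ' h10 h11,
      ← ModularForm.SL_slash_apply, hinv]
  · rw [map_subtype_map, PowerSeries.map_expand]
    exact HasQ.scaleNat (h := 1) one_ne_zero hA p
  · rw [map_subtype_C_mul, map_subtype_map]
    refine (HasQ.smul ((p : ℂ))⁻¹ hA).congr (funext fun τ => ?_)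
    have hp : (p : ℂ) ≠ 0 := Nat.cast_ne_zero.mpr (NeZero.ne p)
    have hτ : (τ : ℂ) ≠ 0 := UpperHalfPlane.ne_zero τ
    have hS := congrFun (hinv ModularGroup.S) τ
    rw [ModularForm.SL_slash_apply, ModularGroup.denom_S, zpow_neg, zpow_natCast] at hS
    have hd : denom ModularGroup.S (scaleH p (natCast_posR p) τ) = (p : ℂ) * τ := by
      rw [ModularGroup.denom_S, coe_scaleH]
      push_cast
      rfl
    simp only [fricke, ModularForm.SL_slash_apply, scaleH_S_smul, Pi.smul_apply, smul_eq_mul, hd,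
      zpow_neg, zpow_natCast]
    rw [← hS, zpow_sub_one₀ hp, zpow_natCast, mul_pow]
    field_simp

theorem invariant_E {k : ℕ} (hk : 3 ≤ k) (γ : SL(2, ℤ)) :
    (⇑(ModularForm.E hk) : ℍ → ℂ) ∣[(k : ℤ)] γ = ⇑(ModularForm.E hk) :=
  SlashInvariantForm.slash_action_eqn (ModularForm.E hk) (mapGL ℝ γ) ⟨γ, rfl⟩

theorem invariant_discriminant (γ : SL(2, ℤ)) :
    ModularForm.discriminant ∣[(12 : ℤ)] γ = ModularForm.discriminant := by
  rw [← CuspForm.coe_discriminant]
  exact SlashInvariantForm.slash_action_eqn CuspForm.discriminant (mapGL ℝ γ) ⟨γ, rfl⟩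

theorem rForm_E4 :
    RForm p 4 ModularForm.E₄ (ModularCurve.eisenstein4.map (Int.castRingHom R))
      (PowerSeries.C ((p : R) ^ 3) * (PowerSeries.expand p (NeZero.ne p)
        ModularCurve.eisenstein4).map (Int.castRingHom R)) :=
  rForm_levelOne p (k := 4) (by norm_num) (fun γ => invariant_E (by norm_num) γ) hasQZ_E4

theorem rForm_E6 :
    RForm p 6 ModularForm.E₆ (e6Series.map (Int.castRingHom R))
      (PowerSeries.C ((p : R) ^ 5) * (PowerSeries.expand p (NeZero.ne p)
        e6Series).map (Int.castRingHom R)) :=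
  rForm_levelOne p (k := 6) (by norm_num) (fun γ => invariant_E (by norm_num) γ) hasQZ_E6

theorem rForm_deltaScaled :
    RForm p 12 (fun τ => ModularForm.discriminant (scaleH p (natCast_posR p) τ))
      ((PowerSeries.expand p (NeZero.ne p) dSer).map (Int.castRingHom R))
      (PowerSeries.C (pInv p) * dSer.map (Int.castRingHom R)) :=
  rForm_scaled p (k := 12) (fun γ => invariant_discriminant γ) hasQZ_discriminant

end FLTAgent.Eisen
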