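import Fermat.Agent.Eisen.TwoCurve
import Fermat.Agent.Reduction.GaussGenus
import Fermat.Agent.ModularDiff.Genus
import Fermat.Agent.GalCommon.Basic

/-!
# No Eisenstein congruence modulo two for `p ≡ 7 (mod 8)`

`not_isEisCongr_two_of_seven`: `not_isEisCongr_two` with the genus comparison supplied.
-/

set_option autoImplicit false
set_option linter.style.haveILetI false

open AlgebraicCurve ModularCurve

noncomputable section

namespace FLTAgent.Eisen

/-- No Eisenstein congruence modulo `2` for `p ≡ 7 (mod 8)`. -/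
theorem not_isEisCongr_two_of_seven (p : ℕ) [Fact p.Prime] (hp : p % 8 = 7)
    (g : ↥(CuspForm.intLattice p 2)) : ¬ IsEisCongr p 2 g := by
  haveI : Fact (Nat.Prime 2) := ⟨Nat.prime_two⟩
  obtain ⟨A, hA⟩ := GalCommon.exists_liesOverPrime Nat.prime_two
  have h2p : ¬ (2 : ℕ) ∣ p := fun h => by omega
  haveI := GalCommon.isAlgClosed_residueField A Nat.prime_two hA
  haveI := GalCommon.charP_residueField Nat.prime_two hA
  refine not_isEisCongr_two (Reduction.zetaToResidue p A hA h2p) hp ?_ g
  refine (Reduction.genusFF_fullC_residue_le p A hA h2p).trans ?_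
  have h1 := ModularDiff.finrank_cuspForm_eq_genusFormula p
  have h2 := ModularPlaces.genusFF_bar p
  have h3 : (genusFF (AlgebraicClosure ℚ) ↥(modularFunctionFieldBar p) : ℚ) =
      (Module.finrank ℂ (CuspForm (CongruenceSubgroup.Gamma0 p) 2) : ℚ) := h2.trans h1.symm
  exact le_of_eq (by exact_mod_cast h3)

end FLTAgent.Eisen
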