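import Fermat.Agent.Eisen.AuxForm
import Fermat.Agent.Modular.JFun
import Fermat.Agent.Reduction.GaussUnit

/-!
# Level one series modulo `2`

In characteristic `2` the series of `E₄` and `E₆` reduce to `1` (`toK_e4`, `toK_e6`) and that
of `Δ` to `η = Reduction.etaSer` (`toK_dSer`), with `η = W + W²` for `W = ∑ σ(m) qᵐ`
(`etaSer_eq_parity`). Likewise `S² + S = η(q) + η(qᵖ)` for `S = ∑ σ'(m) qᵐ` (`sSer_sq_add`),
and `rootSer` is a fourth root of the series of `Δ(τ) Δ(pτ)` (`rootSer_pow_four`).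
-/

set_option autoImplicit false

open UpperHalfPlane ModularCurve
open scoped MatrixGroups ArithmeticFunction.sigma

noncomputable section

namespace FLTAgent.Eisen

/-- The series of `Δ`. -/
def dSer : PowerSeries ℤ := PowerSeries.X * dedekindEtaUnit

/-- `1 - 504 ∑ σ₅(m) qᵐ`. -/
def e6Series : PowerSeries ℤ :=
  PowerSeries.mk fun m => if m = 0 then 1 else -504 * (ArithmeticFunction.sigma 5 m : ℤ)

/-- `∑ σ_i(m) qᵐ`. -/
def sigSeries (i : ℕ) : PowerSeries ℤ :=
  PowerSeries.mk fun m => (ArithmeticFunction.sigma i m : ℤ)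

theorem hasQZ_E4 : HasQZ 1 ModularForm.E₄ eisenstein4 := by
  have : Fact (IsCusp OnePoint.infty 𝒮ℒ) :=
    ⟨Subgroup.isCusp_of_mem_strictPeriods one_pos one_mem_strictPeriods_SL⟩
  have h := hasQ_modularForm ModularForm.E₄ one_pos one_mem_strictPeriods_SL
  unfold HasQZ
  suffices e : eisenstein4.map (Int.castRingHom ℂ) = qExpansion 1 (ModularForm.E₄ : ℍ → ℂ) by
    rw [e]; exact h
  ext m
  exact (Modular.coeff_E₄ m).symm

theorem hasQZ_E6 : HasQZ 1 ModularForm.E₆ e6Series := by
  have : Fact (IsCusp OnePoint.infty 𝒮ℒ) :=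
    ⟨Subgroup.isCusp_of_mem_strictPeriods one_pos one_mem_strictPeriods_SL⟩
  have h := hasQ_modularForm ModularForm.E₆ one_pos one_mem_strictPeriods_SL
  unfold HasQZ
  suffices e : e6Series.map (Int.castRingHom ℂ) = qExpansion 1 (ModularForm.E₆ : ℍ → ℂ) by
    rw [e]; exact h
  ext m
  rw [PowerSeries.coeff_map, e6Series, PowerSeries.coeff_mk,
    EisensteinSeries.E_qExpansion_coeff (by norm_num : 3 ≤ 6) ⟨3, rfl⟩]
  rcases eq_or_ne m 0 with rfl | hm
  · simp
  · simp only [if_neg hm]
    have hb : bernoulli 6 = 1 / 42 := by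
      rw [bernoulli_eq_bernoulli'_of_ne_one (by norm_num)]
      decide +kernel
    rw [hb]
    norm_num

theorem hasQZ_discriminant : HasQZ 1 ModularForm.discriminant dSer := by
  have : Fact (IsCusp OnePoint.infty 𝒮ℒ) :=
    ⟨Subgroup.isCusp_of_mem_strictPeriods one_pos one_mem_strictPeriods_SL⟩
  have h := hasQ_modularForm CuspForm.discriminant one_pos one_mem_strictPeriods_SL
  rw [CuspForm.coe_discriminant] at h
  have h1 := (Modular.hasQExp_ofPowerSeries (Filter.Eventually.of_forall h)).unique one_pos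
    Modular.hasQExp_discriminant
  unfold HasQZ
  suffices e : dSer.map (Int.castRingHom ℂ) =
      qExpansion 1 (ModularForm.discriminant : ℍ → ℂ) by rw [e]; exact h
  apply HahnSeries.ofPowerSeries_injective (Γ := ℤ) (R := ℂ)
  show Modular.psC _ = Modular.psC _
  rw [h1, dSer, map_mul, PowerSeries.map_X, map_mul]
  congr 1
  exact HahnSeries.ofPowerSeries_X

theorem discriminant_series_identity :
    1728 * dSer = eisenstein4 ^ 3 - e6Series ^ 2 := by
  have h1 := ((HasQ.const 1 (1728 : ℂ)).mul one_pos hasQZ_discriminant)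
  have h2 : HasQ 1 ((⇑ModularForm.E₄) ^ 3 - (⇑ModularForm.E₆) ^ 2)
      ((eisenstein4.map (Int.castRingHom ℂ)) ^ 3 - (e6Series.map (Int.castRingHom ℂ)) ^ 2) :=
    (HasQ.pow one_pos hasQZ_E4 3).sub (HasQ.pow one_pos hasQZ_E6 2)
  have e : ((fun _ => (1728 : ℂ)) * ModularForm.discriminant : ℍ → ℂ) =
      (⇑ModularForm.E₄) ^ 3 - (⇑ModularForm.E₆) ^ 2 := by
    funext z
    simp only [Pi.mul_apply, Pi.sub_apply, Pi.pow_apply]
    rw [ModularForm.discriminant_eq_E₄_cube_sub_E₆_sq]
    ring
  rw [e] at h1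
  have h3 := h1.unique one_pos h2
  apply PowerSeries.map_injective (Int.castRingHom ℂ) Int.cast_injective
  rw [map_mul, map_sub, map_pow, map_pow, map_ofNat, ← map_ofNat PowerSeries.C 1728]
  exact h3

theorem eisenstein4_eq : eisenstein4 = 1 + 240 * sigSeries 3 := by
  ext m
  rw [eisenstein4, sigSeries, PowerSeries.coeff_mk, map_add, PowerSeries.coeff_one,
    ← map_ofNat PowerSeries.C 240, PowerSeries.coeff_C_mul, PowerSeries.coeff_mk]
  rcases eq_or_ne m 0 with rfl | hm
  · simp
  · simp [if_neg hm, ArithmeticFunction.sigma_apply]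

theorem e6Series_eq : e6Series = 1 - 504 * sigSeries 5 := by
  ext m
  rw [e6Series, sigSeries, PowerSeries.coeff_mk, map_sub, PowerSeries.coeff_one,
    ← map_ofNat PowerSeries.C 504, PowerSeries.coeff_C_mul, PowerSeries.coeff_mk]
  rcases eq_or_ne m 0 with rfl | hm
  · simp
  · simp [if_neg hm]

theorem five_seven_congr (d : ℕ) : (24 : ℤ) ∣ 5 * (d : ℤ) ^ 3 + 7 * (d : ℤ) ^ 5 - 12 * d := by
  refine (ZMod.intCast_zmod_eq_zero_iff_dvd _ 24).mp ?_
  push_cast
  exact (by decide : ∀ z : ZMod 24, 5 * z ^ 3 + 7 * z ^ 5 - 12 * z = 0) _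

theorem two_dvd_pow_five_sub (d : ℕ) : (2 : ℤ) ∣ (d : ℤ) ^ 5 - d := by
  refine (ZMod.intCast_zmod_eq_zero_iff_dvd _ 2).mp ?_
  push_cast
  exact (by decide : ∀ z : ZMod 2, z ^ 5 - z = 0) _

theorem two_dvd_sigma_five_sub (m : ℕ) :
    (2 : ℤ) ∣ (ArithmeticFunction.sigma 5 m : ℤ) - (ArithmeticFunction.sigma 1 m : ℤ) := by
  simp only [ArithmeticFunction.sigma_apply, pow_one, Nat.cast_sum, Nat.cast_pow,
    ← Finset.sum_sub_distrib]
  exact Finset.dvd_sum fun d _ => two_dvd_pow_five_sub d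

section Target

variable (k : Type*) [CommRing k]

/-- Integral power series as Laurent series over `k`. -/
def toK : PowerSeries ℤ →+* LaurentSeries k :=
  (HahnSeries.ofPowerSeries ℤ k).comp (PowerSeries.map (Int.castRingHom k))

theorem toK_coeff_natCast (A : PowerSeries ℤ) (m : ℕ) :
    (toK k A).coeff m = ((PowerSeries.coeff m A : ℤ) : k) := by
  rw [toK, RingHom.comp_apply, HahnSeries.ofPowerSeries_apply_coeff, PowerSeries.coeff_map,
    eq_intCast]

theorem toK_coeff_neg (A : PowerSeries ℤ) {m : ℤ} (hm : m < 0) : (toK k A).coeff m = 0 :=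
  ofPowerSeries_coeff_of_neg _ hm

theorem toK_X : toK k PowerSeries.X = HahnSeries.single 1 1 := by
  rw [toK, RingHom.comp_apply, PowerSeries.map_X, HahnSeries.ofPowerSeries_X]

theorem toK_dSer : toK k dSer = Reduction.etaSer k := by
  rw [dSer, map_mul, toK_X]
  rfl

theorem qScale_ofPowerSeries (A : PowerSeries k) (n : ℕ) (hn : n ≠ 0) :
    ModularCosets.qScale k n (HahnSeries.ofPowerSeries ℤ k A) =
      HahnSeries.ofPowerSeries ℤ k (PowerSeries.expand n hn A) := by
  ext j
  rcases lt_or_ge j 0 with hj | hj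
  · rw [ofPowerSeries_coeff_of_neg _ hj]
    by_cases hd : (n : ℤ) ∣ j
    · obtain ⟨i, rfl⟩ := hd
      rw [ModularCosets.qScale_coeff_mul hn, ofPowerSeries_coeff_of_neg]
      have : (0 : ℤ) < n := by exact_mod_cast Nat.pos_of_ne_zero hn
      by_contra h
      nlinarith
    · rw [ModularCosets.qScale_coeff_of_not_dvd hn _ hd]
  · lift j to ℕ using hj
    rw [HahnSeries.ofPowerSeries_apply_coeff, PowerSeries.coeff_expand]
    by_cases hd : n ∣ j
    · obtain ⟨i, rfl⟩ := hd
      rw [if_pos (dvd_mul_right n i), Nat.cast_mul, ModularCosets.qScale_coeff_mul hn,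
        HahnSeries.ofPowerSeries_apply_coeff, Nat.mul_div_cancel_left i (Nat.pos_of_ne_zero hn)]
    · rw [if_neg hd, ModularCosets.qScale_coeff_of_not_dvd hn _ (fun h => hd (by exact_mod_cast h))]

theorem qScale_toK (A : PowerSeries ℤ) (n : ℕ) (hn : n ≠ 0) :
    ModularCosets.qScale k n (toK k A) = toK k (PowerSeries.expand n hn A) := by
  rw [toK, RingHom.comp_apply, RingHom.comp_apply, qScale_ofPowerSeries, PowerSeries.map_expand]

variable [CharP k 2]

theorem intCast_eq_of_two_dvd {a b : ℤ} (h : (2 : ℤ) ∣ a - b) : (a : k) = b := by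
  rw [CharP.intCast_eq_intCast k 2]
  exact (Int.modEq_iff_dvd.mpr h).symm

theorem toK_congr {A B : PowerSeries ℤ}
    (h : ∀ m, (2 : ℤ) ∣ PowerSeries.coeff m A - PowerSeries.coeff m B) : toK k A = toK k B := by
  rw [toK, RingHom.comp_apply, RingHom.comp_apply]
  congr 1
  ext m
  rw [PowerSeries.coeff_map, PowerSeries.coeff_map, eq_intCast, eq_intCast]
  exact intCast_eq_of_two_dvd k (h m)

theorem toK_two_mul (A : PowerSeries ℤ) : toK k (2 * A) = 0 := by
  rw [← map_zero (toK k)]
  exact toK_congr k fun m => by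
    rw [← map_ofNat PowerSeries.C 2, PowerSeries.coeff_C_mul, map_zero, sub_zero]
    exact dvd_mul_right _ _

theorem toK_e4 : toK k eisenstein4 = 1 := by
  rw [eisenstein4_eq, show (240 : PowerSeries ℤ) * sigSeries 3 = 2 * (120 * sigSeries 3) by ring,
    map_add, map_one, toK_two_mul, add_zero]

theorem toK_e6 : toK k e6Series = 1 := by
  rw [e6Series_eq, show (504 : PowerSeries ℤ) * sigSeries 5 = 2 * (252 * sigSeries 5) by ring,
    map_sub, map_one, toK_two_mul, sub_zero]

theorem two_eq_zero_laurent : (2 : LaurentSeries k) = 0 := by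
  have h := toK_two_mul k 1
  rwa [mul_one, map_ofNat] at h

/-- `W = ∑ σ(m) qᵐ` modulo `2`. -/
def wSer : LaurentSeries k := toK k (sigSeries 1)

theorem etaSer_eq_parity : Reduction.etaSer k = wSer k + wSer k ^ 2 := by
  set a := sigSeries 3 with ha
  set b := sigSeries 5 with hb
  set T := dSer - 100 * a ^ 2 - 8000 * a ^ 3 + 147 * b ^ 2 with hT
  have h12 : 12 * T = 5 * a + 7 * b := by
    have h := discriminant_series_identity
    rw [eisenstein4_eq, e6Series_eq, ← ha, ← hb] at h
    have h' : (144 : PowerSeries ℤ) * (12 * T) = 144 * (5 * a + 7 * b) := by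
      rw [hT]; linear_combination h
    exact mul_left_cancel₀ (fun h0 => by
      have h1 := congrArg PowerSeries.constantCoeff h0
      rw [map_ofNat, map_zero] at h1
      norm_num at h1) h'
  have hcoef : ∀ m, (2 : ℤ) ∣ PowerSeries.coeff m T - PowerSeries.coeff m (sigSeries 1) := by
    intro m
    have h := congrArg (PowerSeries.coeff m) h12
    simp only [map_add, ← map_ofNat PowerSeries.C 12, ← map_ofNat PowerSeries.C 5,
      ← map_ofNat PowerSeries.C 7, PowerSeries.coeff_C_mul, ha, hb, sigSeries,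
      PowerSeries.coeff_mk] at h
    have h24 : (24 : ℤ) ∣ 5 * (ArithmeticFunction.sigma 3 m : ℤ) +
        7 * (ArithmeticFunction.sigma 5 m : ℤ) - 12 * (ArithmeticFunction.sigma 1 m : ℤ) := by
      simp only [ArithmeticFunction.sigma_apply, pow_one, Nat.cast_sum, Nat.cast_pow,
        Finset.mul_sum, ← Finset.sum_add_distrib, ← Finset.sum_sub_distrib]
      exact Finset.dvd_sum fun d _ => five_seven_congr d
    rw [← h] at h24
    obtain ⟨c, hc⟩ := h24
    refine ⟨c, ?_⟩
    simp only [sigSeries, PowerSeries.coeff_mk]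
    linarith
  have h5 : toK k b = wSer k := toK_congr k fun m => by
    simp only [hb, sigSeries, PowerSeries.coeff_mk]
    exact two_dvd_sigma_five_sub m
  have hT' : toK k T = wSer k := toK_congr k hcoef
  have e : dSer = T + b ^ 2 + 2 * (50 * a ^ 2 + 4000 * a ^ 3 - 74 * b ^ 2) := by
    rw [hT]; ring
  rw [← toK_dSer, e, map_add, map_add, map_pow, toK_two_mul, add_zero, hT', h5]

theorem jqModC_mul_etaSer : jqModC k * Reduction.etaSer k = 1 := by
  have h : jqModC k = Reduction.etaSerInv k * toK k eisenstein4 ^ 3 := by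
    rw [jqModC, Reduction.etaSerInv, jNum, toK, RingHom.comp_apply, ← map_pow,
      map_mul (PowerSeries.map (Int.castRingHom k)), map_mul, map_pow]
    ring
  rw [h, toK_e4, one_pow, mul_one, mul_comm, Reduction.etaSer_mul_inv]

variable (p : ℕ) [Fact p.Prime]

/-- `∑ σ'(m) qᵐ`. -/
def sSer : LaurentSeries k := toK k (PowerSeries.mk (sigmaP p))

theorem sSer_eq (hp2 : Odd p) : sSer k p = wSer k + ModularCosets.qScale k p (wSer k) := by
  rw [wSer, qScale_toK k _ p (NeZero.ne p), ← map_add]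
  refine toK_congr k fun m => ?_
  rw [map_add, PowerSeries.coeff_expand, sigSeries, PowerSeries.coeff_mk, PowerSeries.coeff_mk,
    sigma_one_eq p m, PowerSeries.coeff_mk]
  obtain ⟨j, hj⟩ := hp2
  split_ifs with hd
  · refine ⟨-((j : ℤ) + 1) * (ArithmeticFunction.sigma 1 (m / p) : ℤ), ?_⟩
    rw [hj]; push_cast; ring
  · simp

theorem sSer_sq_add (hp2 : Odd p) :
    sSer k p ^ 2 + sSer k p =
      Reduction.etaSer k + ModularCosets.qScale k p (Reduction.etaSer k) := by
  rw [sSer_eq k p hp2, etaSer_eq_parity, map_add, map_pow, add_sq, mul_assoc, two_eq_zero_laurent k]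
  ring

end Target

section Root

variable (k : Type*) [CommRing k] (p : ℕ) [Fact p.Prime]

/-- A fourth root of the series of `Δ(τ) Δ(pτ)`. -/
def rootSer : LaurentSeries k :=
  toK k (PowerSeries.X ^ ((p + 1) / 4) *
    (etaProd * PowerSeries.expand p (NeZero.ne p) etaProd) ^ 6)

theorem rootSer_pow_four (hp : 4 ∣ p + 1) :
    rootSer k p ^ 4 = Reduction.etaSer k * ModularCosets.qScale k p (Reduction.etaSer k) := by
  rw [← toK_dSer, qScale_toK k _ p (NeZero.ne p), rootSer, ← map_mul, ← map_pow]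
  congr 1
  rw [dSer, map_mul, PowerSeries.expand_X, dedekindEtaUnit, map_pow, mul_pow, ← pow_mul, ← pow_mul,
    Nat.div_mul_cancel hp, mul_pow]
  ring

end Root

end FLTAgent.Eisen
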