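import Fermat.Agent.Eisen.UpperHecke

/-!
# The upper bound on congruence moduli

`upper_bound_of`: every Eisenstein congruence modulus divides the Eisenstein numerator, given the
statement at two for `p ≡ 7 (mod 8)`. It combines `dd ∣ p - 1` (`dvd_sub_one`) and
`24 dd ∣ p² - 1` (`dvd_sq_sub_one`), which come from the Hecke and trace divisibilities.
-/

set_option autoImplicit false
set_option linter.unusedSectionVars false

open CongruenceSubgroup ModularFormClass CuspForm ModularCurve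

noncomputable section

namespace FLTAgent.Eisen

variable (p : ℕ) [Fact p.Prime] (f : ↥(intLattice p 2))

theorem dvd_of_coprime {dd : ℕ} (hd : 0 < dd) (hf : IsEisCongr p dd f) :
    ∀ r : ℕ, Nat.Coprime r (24 * dd * p) →
      (24 * dd : ℤ) ∣ ((p : ℤ) - 1) * ((r : ℤ) ^ 2 - 1) := by
  intro r
  induction r using Nat.recOnMul with
  | zero =>
    intro h
    rw [Nat.coprime_zero_left] at h
    have h2 : 24 * dd * p ≥ 2 := by
      have := (Fact.out : p.Prime).two_le
      nlinarith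
    omega
  | one => intro _; simp
  | prime q hq =>
    intro h
    have h' := hq.coprime_iff_not_dvd.mp h
    refine dvd_prime_sq_sub_one p f hd hf hq (fun e => h' (e ▸ dvd_mul_left q _))
      (fun e => h' (e.mul_right p))
  | mul a b iha ihb =>
    intro h
    obtain ⟨x, hx⟩ := iha (Nat.Coprime.coprime_dvd_left (dvd_mul_right a b) h)
    obtain ⟨y, hy⟩ := ihb (Nat.Coprime.coprime_dvd_left (dvd_mul_left b a) h)
    exact ⟨(b : ℤ) ^ 2 * x + y, by push_cast; linear_combination ((b : ℤ) ^ 2) * hx + hy⟩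

/-- An integer `r`, prime to `M`, with `ℓ^e ∣ c (r² - 1) ⟹ ℓ^e ∣ 24 c`. -/
theorem prime_pow_dvd_twentyFour_mul {ℓ e : ℕ} (hℓ : ℓ.Prime) {c : ℤ} {M : ℕ} (hM : M ≠ 0)
    (h : ∀ r : ℕ, Nat.Coprime r M → ((ℓ ^ e : ℕ) : ℤ) ∣ c * ((r : ℤ) ^ 2 - 1)) :
    ((ℓ ^ e : ℕ) : ℤ) ∣ 24 * c := by
  set R := ordCompl[ℓ] M with hR
  have hcop : Nat.Coprime (ℓ ^ 5) R :=
    Nat.Coprime.pow_left _ (Nat.coprime_ordCompl hℓ hM)
  set t : ℕ := if ℓ = 2 then 3 else 2 with ht
  obtain ⟨r, hr1, hr2⟩ := Nat.chineseRemainder hcop t 1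
  have htℓ : ¬ ℓ ∣ t := by
    rw [ht]; split_ifs with h2
    · subst h2; decide
    · exact fun hd => h2 ((Nat.prime_dvd_prime_iff_eq hℓ Nat.prime_two).mp hd)
  have hrℓ : Nat.Coprime r ℓ := by
    rw [Nat.coprime_comm, hℓ.coprime_iff_not_dvd]
    intro hd
    exact htℓ ((Nat.ModEq.dvd_iff (Nat.ModEq.of_dvd (dvd_pow_self ℓ (by norm_num)) hr1) dvd_rfl).mp hd)
  have hrR : Nat.Coprime r R := by
    have := hr2.gcd_eq
    rwa [Nat.gcd_one_left] at this
  have hrM : Nat.Coprime r M := by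
    rw [← Nat.ordProj_mul_ordCompl_eq_self M ℓ]
    exact Nat.Coprime.mul_right (hrℓ.pow_right _) hrR
  have h1 := h r hrM
  -- `r² - 1` differs from `t² - 1` by a multiple of `ℓ ^ 5`
  obtain ⟨k, hk⟩ : ((ℓ ^ 5 : ℕ) : ℤ) ∣ ((t : ℤ) ^ 2 - 1) - ((r : ℤ) ^ 2 - 1) := by
    have := Nat.modEq_iff_dvd.mp hr1
    obtain ⟨j, hj⟩ := this
    exact ⟨j * ((t : ℤ) + r), by linear_combination ((t : ℤ) + r) * hj⟩
  rcases le_or_gt e 5 with he | he
  · have hd : ((ℓ ^ e : ℕ) : ℤ) ∣ ((ℓ ^ 5 : ℕ) : ℤ) :=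
      Int.natCast_dvd_natCast.mpr (pow_dvd_pow ℓ he)
    have h2 : ((ℓ ^ e : ℕ) : ℤ) ∣ c * ((t : ℤ) ^ 2 - 1) := by
      have : c * ((t : ℤ) ^ 2 - 1) = c * ((r : ℤ) ^ 2 - 1) + c * ((ℓ ^ 5 : ℕ) : ℤ) * k := by
        linear_combination c * hk
      rw [this]
      exact dvd_add h1 ((hd.mul_left c).mul_right k)
    rw [ht] at h2
    split_ifs at h2
    · push_cast at h2 ⊢
      exact h2.trans ⟨3, by ring⟩
    · push_cast at h2 ⊢
      exact h2.trans ⟨8, by ring⟩
  · -- `(r² - 1)/gcd` is prime to `ℓ`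
    have hs : ∃ u : ℤ, (r : ℤ) ^ 2 - 1 ∣ 24 * u ∧ IsCoprime ((ℓ : ℤ)) u := by
      by_cases hℓ2 : ℓ = 2
      · subst hℓ2
        simp only [ht, if_pos] at hk
        refine ⟨1 - 4 * k, ⟨3, ?_⟩, ⟨2 * k, 1, by push_cast; ring⟩⟩
        push_cast at hk
        linear_combination 3 * hk
      · by_cases hℓ3 : ℓ = 3
        · subst hℓ3
          simp only [ht, if_neg hℓ2] at hk
          refine ⟨1 - 81 * k, ⟨8, ?_⟩, ⟨27 * k, 1, by push_cast; ring⟩⟩
          push_cast at hk
          linear_combination 8 * hk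
        · simp only [ht, if_neg hℓ2] at hk
          refine ⟨3 - ((ℓ ^ 5 : ℕ) : ℤ) * k, ⟨24, ?_⟩, ?_⟩
          · push_cast at hk ⊢
            linear_combination 24 * hk
          · have h3 : IsCoprime (ℓ : ℤ) 3 := by
              rw [show (3 : ℤ) = ((3 : ℕ) : ℤ) by norm_num, Nat.isCoprime_iff_coprime]
              exact (Nat.coprime_primes hℓ Nat.prime_three).mpr hℓ3
            have := h3.add_mul_left_right (-((ℓ : ℤ) ^ 4 * k))
            push_cast
            rw [show (3 : ℤ) - (ℓ : ℤ) ^ 5 * k = 3 + (ℓ : ℤ) * -((ℓ : ℤ) ^ 4 * k) by ring]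
            exact this
    obtain ⟨u, hu, hcu⟩ := hs
    have h2 : ((ℓ ^ e : ℕ) : ℤ) ∣ (24 * c) * u := by
      refine h1.trans ?_
      obtain ⟨w, hw⟩ := hu
      exact ⟨w, by linear_combination c * hw⟩
    refine IsCoprime.dvd_of_dvd_mul_right ?_ h2
    push_cast
    exact hcu.pow_left

/-- `d ∣ p - 1`. -/
theorem dvd_sub_one {dd : ℕ} (hd : 0 < dd) (hf : IsEisCongr p dd f) : (dd : ℤ) ∣ (p : ℤ) - 1 := by
  have hp : p.Prime := Fact.out
  have h : ((24 * dd : ℕ) : ℤ) ∣ 24 * ((p : ℤ) - 1) := by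
    rw [Int.natCast_dvd]
    refine (Nat.dvd_iff_prime_pow_dvd_dvd _ _).mpr fun ℓ e hℓ he => ?_
    rw [← Int.natCast_dvd]
    refine prime_pow_dvd_twentyFour_mul hℓ (M := 24 * dd * p)
      (mul_ne_zero (by omega) hp.ne_zero) fun r hr => ?_
    refine (Int.natCast_dvd_natCast.mpr he).trans ?_
    push_cast
    exact dvd_of_coprime p f hd hf r hr
  push_cast at h
  exact (mul_dvd_mul_iff_left (by norm_num : (24 : ℤ) ≠ 0)).mp h

/-- `24 d ∣ p² - 1` for `p ≥ 5`. -/
theorem dvd_sq_sub_one {dd : ℕ} (hf : IsEisCongr p dd f) (h5 : 5 ≤ p) :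
    24 * dd ∣ p ^ 2 - 1 := by
  have hp : p.Prime := Fact.out
  have h24 : 24 ∣ p ^ 2 - 1 := by
    have h2 : ¬ 2 ∣ p := fun h => by
      have := (Nat.prime_dvd_prime_iff_eq Nat.prime_two hp).mp h
      omega
    have h3 : ¬ 3 ∣ p := fun h => by
      have := (Nat.prime_dvd_prime_iff_eq Nat.prime_three hp).mp h
      omega
    have hmod : p ^ 2 % 24 = 1 := by
      rw [Nat.pow_mod]
      have : p % 24 < 24 := Nat.mod_lt _ (by norm_num)
      have h2' : p % 24 % 2 ≠ 0 := by omega
      have h3' : p % 24 % 3 ≠ 0 := by omega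
      generalize p % 24 = k at this h2' h3'
      interval_cases k <;> simp_all
    omega
  obtain ⟨m, hm⟩ := h24
  have h := dvd_sq_sub_one_mul p f hf
  have hcast : ((p : ℤ) ^ 2 - 1) = 24 * (m : ℤ) := by
    have : 1 ≤ p ^ 2 := Nat.one_le_pow _ _ hp.pos
    have := congrArg (Nat.cast (R := ℤ)) hm
    push_cast [Nat.cast_sub ‹1 ≤ p ^ 2›] at this
    exact this
  rw [hcast, mul_assoc] at h
  have h2 : (dd : ℤ) ∣ (m : ℤ) * coeffInt p 1 f :=
    (mul_dvd_mul_iff_left (by norm_num : (24 : ℤ) ≠ 0)).mp h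
  have h1 := hf 1 one_ne_zero
  rw [sigmaP_one hp] at h1
  have hcop : IsCoprime (dd : ℤ) (coeffInt p 1 f) := by
    obtain ⟨j, hj⟩ := h1
    exact ⟨-j, 1, by linear_combination hj⟩
  rw [hm]
  exact mul_dvd_mul_left 24 (Int.natCast_dvd_natCast.mp (hcop.dvd_of_dvd_mul_right h2))

theorem dvd_numerator_of_dvd {a d : ℕ} (ha : a ≠ 0) (hev : Even a) (h1 : d ∣ a)
    (h2 : 24 * d ∣ a * (a + 2)) (h3 : (a + 1) % 8 = 7 → ¬ 2 ∣ d) :
    d ∣ a / Nat.gcd a 12 := by
  apply Nat.dvd_div_of_mul_dvd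
  have hd : d ≠ 0 := fun h => ha (Nat.eq_zero_of_zero_dvd (h ▸ h1))
  have hg : Nat.gcd a 12 ≠ 0 := Nat.gcd_ne_zero_right (by norm_num)
  have h24 : 24 * d ≠ 0 := by omega
  rw [← Nat.factorization_le_iff_dvd (mul_ne_zero hg hd) ha]
  intro ℓ
  by_cases hℓ : ℓ.Prime
  swap
  · simp [Nat.factorization_eq_zero_of_not_prime _ hℓ]
  have e2 := (Nat.factorization_le_iff_dvd h24 (mul_ne_zero ha (by omega))).mpr h2 ℓ
  have e1 := (Nat.factorization_le_iff_dvd hd ha).mpr h1 ℓ
  rw [Nat.factorization_mul (by norm_num) hd, Nat.factorization_mul ha (by omega)] at e2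
  simp only [Nat.factorization_mul hg hd, Finsupp.coe_add, Pi.add_apply] at e2 ⊢
  rw [Nat.factorization_gcd ha (by norm_num), Finsupp.inf_apply]
  rcases eq_or_ne ℓ 2 with rfl | hℓ2
  · have h24' : Nat.factorization 24 2 = 3 := by
      rw [show (24 : ℕ) = 2 ^ 3 * 3 by norm_num,
        Nat.factorization_mul (by norm_num) (by norm_num), Nat.prime_two.factorization_pow,
        Nat.prime_three.factorization]
      simp
    have h12' : Nat.factorization 12 2 = 2 := by
      rw [show (12 : ℕ) = 2 ^ 2 * 3 by norm_num,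
        Nat.factorization_mul (by norm_num) (by norm_num), Nat.prime_two.factorization_pow,
        Nat.prime_three.factorization]
      simp
    rw [h12']
    rw [h24'] at e2
    by_cases h4 : 4 ∣ a
    · have hA : 2 ≤ a.factorization 2 := (Nat.prime_two.pow_dvd_iff_le_factorization ha).mp h4
      have hB : ¬ 2 ^ 2 ∣ a + 2 := by omega
      rw [Nat.prime_two.pow_dvd_iff_le_factorization (by omega)] at hB
      change min (a.factorization 2) 2 + d.factorization 2 ≤ a.factorization 2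
      omega
    · have hA : ¬ 2 ≤ a.factorization 2 := fun h =>
        h4 ((Nat.prime_two.pow_dvd_iff_le_factorization (k := 2) ha).mpr h)
      change min (a.factorization 2) 2 + d.factorization 2 ≤ a.factorization 2
      by_cases h7 : (a + 1) % 8 = 7
      · rw [Nat.factorization_eq_zero_of_not_dvd (h3 h7)]; omega
      · have hB : ¬ 2 ^ 3 ∣ a + 2 := by omega
        rw [Nat.prime_two.pow_dvd_iff_le_factorization (by omega)] at hB
        have h2a : 1 ≤ a.factorization 2 :=
          (Nat.prime_two.pow_dvd_iff_le_factorization (k := 1) ha).mp (by simpa using hev.two_dvd)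
        omega
  rcases eq_or_ne ℓ 3 with rfl | hℓ3
  · have h24' : Nat.factorization 24 3 = 1 := by
      rw [show (24 : ℕ) = 2 ^ 3 * 3 by norm_num,
        Nat.factorization_mul (by norm_num) (by norm_num), Nat.prime_two.factorization_pow,
        Nat.prime_three.factorization]
      simp
    have h12' : Nat.factorization 12 3 = 1 := by
      rw [show (12 : ℕ) = 2 ^ 2 * 3 by norm_num,
        Nat.factorization_mul (by norm_num) (by norm_num), Nat.prime_two.factorization_pow,
        Nat.prime_three.factorization]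
      simp
    rw [h12']
    rw [h24'] at e2
    change min (a.factorization 3) 1 + d.factorization 3 ≤ a.factorization 3
    by_cases h3a : 3 ∣ a
    · have : ¬ 3 ∣ a + 2 := by omega
      rw [Nat.factorization_eq_zero_of_not_dvd this] at e2
      omega
    · rw [Nat.factorization_eq_zero_of_not_dvd h3a] at e1 ⊢
      omega
  · have hnd : ¬ ℓ ∣ 12 := by
      intro h
      have hle := Nat.le_of_dvd (by norm_num) h
      interval_cases ℓ <;> simp_all (config := { decide := true })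
    rw [Nat.factorization_eq_zero_of_not_dvd hnd]
    change min (a.factorization ℓ) 0 + d.factorization ℓ ≤ a.factorization ℓ
    omega

/-- The upper bound, given the statement at the prime two for `p ≡ 7 mod 8`. -/
theorem upper_bound_of (htwo : p % 8 = 7 → ∀ g : ↥(intLattice p 2), ¬ IsEisCongr p 2 g)
    {dd : ℕ} (hd : 0 < dd) (hf : IsEisCongr p dd f) : dd ∣ eisensteinNumerator p := by
  have hp : p.Prime := Fact.out
  have h1 : dd ∣ p - 1 := by
    have h := dvd_sub_one p f hd hf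
    rw [show (p : ℤ) - 1 = ((p - 1 : ℕ) : ℤ) by rw [Nat.cast_sub hp.one_le]; simp] at h
    exact Int.natCast_dvd_natCast.mp h
  rcases lt_or_ge p 5 with h5 | h5
  · interval_cases p
    · exact absurd hp Nat.not_prime_zero
    · exact absurd hp Nat.not_prime_one
    · simpa [eisensteinNumerator] using h1
    · have hle : dd ≤ 2 := Nat.le_of_dvd (by norm_num) h1
      interval_cases dd
      · simp
      · exfalso
        have h := dvd_sq_sub_one_mul 3 f hf
        have h' := hf 1 one_ne_zero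
        rw [sigmaP_one hp] at h'
        obtain ⟨j, hj⟩ := h'
        obtain ⟨k, hk⟩ := h
        norm_num at hk hj
        omega
    · exact absurd hp (by norm_num)
  · have hev : Even (p - 1) := hp.even_sub_one (by omega)
    refine dvd_numerator_of_dvd (by omega) hev h1 ?_ fun h7 h2 => ?_
    · have := dvd_sq_sub_one p f hf h5
      rwa [show p ^ 2 - 1 = (p - 1) * (p - 1 + 2) by
        rw [show p - 1 + 2 = p + 1 by omega, ← one_pow 2, Nat.sq_sub_sq, mul_comm, one_pow]] at this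
    · refine htwo (by omega) f fun m hm => ?_
      exact (Int.natCast_dvd_natCast.mpr h2).trans (hf m hm)

end FLTAgent.Eisen
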