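import Fermat.Agent.Eisen.UpperTrace
import Fermat.Prelude.Thm_ModularForm_sturm_bound_Gamma0
import Fermat.Prelude.Def_ModularForm_HeckeOperatorForms
import Fermat.Prelude.Thm_ModularFormClass_qCoeff_heckeT

/-!
# The divisibility coming from the Hecke action on congruences

`dvd_prime_sq_sub_one`: `24 d ∣ (p - 1)(q² - 1)` for primes `q ∤ 24 d p`, from the Hecke operator on
integral expansions of weight six applied to `24(E - f)` times an auxiliary form, using finiteness
of reductions (`finite_reductions`).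
-/

set_option autoImplicit false
set_option linter.unusedSectionVars false

open UpperHalfPlane CongruenceSubgroup Matrix.SpecialLinearGroup ModularFormClass CuspForm
open scoped MatrixGroups ModularForm Manifold

noncomputable section

namespace FLTAgent.Eisen

variable (p : ℕ) [Fact p.Prime]

/-- Integral `q`-expansions of weight `k` forms. -/
def intExpansions (k : ℤ) : Submodule ℤ (ℕ → ℤ) where
  carrier := {a | ∃ F : ModularForm (Gamma0 p) k, ∀ n, (a n : ℂ) = qCoeff F n}
  zero_mem' := ⟨0, fun n => by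
    simp [qCoeff, FunLike.coe_zero, qExpansion_zero]⟩
  add_mem' := by
    rintro a b ⟨F, hF⟩ ⟨G, hG⟩
    refine ⟨F + G, fun n => ?_⟩
    simp only [qCoeff, FunLike.coe_add,
      ModularForm.qExpansion_add one_pos (one_mem_strictPeriods_Gamma0 p) F G, map_add,
      Pi.add_apply, Int.cast_add, hF, hG]
  smul_mem' := by
    rintro c a ⟨F, hF⟩
    refine ⟨(c : ℂ) • F, fun n => ?_⟩
    simp only [qCoeff, FunLike.coe_smul,
      ModularForm.qExpansion_smul one_pos (one_mem_strictPeriods_Gamma0 p) (c : ℂ) F,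
      PowerSeries.coeff_smul, Pi.smul_apply, smul_eq_mul, Int.cast_mul, hF]

theorem fg_intExpansions (k : ℤ) : (intExpansions p k).FG := by
  set r := (k * (Gamma0 p).index).toNat / 12
  let res : ↥(intExpansions p k) →ₗ[ℤ] (Fin (r + 1) → ℤ) :=
    LinearMap.pi fun i => (LinearMap.proj (i : ℕ)).comp (intExpansions p k).subtype
  have hinj : Function.Injective res := by
    refine (injective_iff_map_eq_zero _).mpr fun ⟨a, F, hF⟩ h => Subtype.ext (funext fun n => ?_)
    have h0 : ∀ n ≤ r, qCoeff F n = 0 := fun n hn => by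
      rw [← hF n]
      have : a n = 0 := congrFun h ⟨n, Nat.lt_succ_of_le hn⟩
      rw [this, Int.cast_zero]
    have hz := ModularForm.sturm_bound_Gamma0 p F h0
    have h1 := hF n
    rw [hz] at h1
    simp only [qCoeff, FunLike.coe_zero, qExpansion_zero, map_zero, Int.cast_eq_zero] at h1
    simpa using h1
  rw [← Module.Finite.iff_fg]
  exact Module.Finite.of_injective res hinj

/-- The reductions modulo `M` of the integral expansions form a finite set. -/
theorem finite_reductions (k : ℤ) (M : ℕ) [NeZero M] :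
    ((fun a : ℕ → ℤ => fun n => (a n : ZMod M)) '' (intExpansions p k : Set (ℕ → ℤ))).Finite := by
  obtain ⟨r, v, hv⟩ := Submodule.fg_iff_exists_fin_generating_family.mp (fg_intExpansions p k)
  refine (Set.finite_range fun c : Fin r → ZMod M =>
    fun n => ∑ i, c i * (v i n : ZMod M)).subset ?_
  rintro _ ⟨a, ha, rfl⟩
  rw [SetLike.mem_coe, ← hv, Submodule.mem_span_range_iff_exists_fun] at ha
  obtain ⟨c, rfl⟩ := ha
  exact ⟨fun i => (c i : ZMod M), funext fun n => by
    simp [Finset.sum_apply]⟩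

/-- A modular form on `Γ₀(p)` with an integral expansion. -/
theorem mem_intExpansions {k : ℤ} (F : ModularForm (Gamma0 p) k) {R : PowerSeries ℤ}
    (hF : HasQZ 1 F R) : (fun n => PowerSeries.coeff n R) ∈ intExpansions p k :=
  ⟨F, fun n => by simp [qCoeff, HasQ.qExpansion_eq one_pos hF, PowerSeries.coeff_map]⟩

/-- The Hecke operator on integral expansions in weight six. -/
theorem heckeT_mem {a : ℕ → ℤ} (ha : a ∈ intExpansions p 6) {q : ℕ} (hq : q.Prime)
    (hqp : ¬ q ∣ p) :
    (fun n => a (n * q) + if q ∣ n then (q : ℤ) ^ 5 * a (n / q) else 0) ∈ intExpansions p 6 := by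
  obtain ⟨F, hF⟩ := ha
  refine ⟨ModularForm.heckeTLin 6 hq hqp F, fun n => ?_⟩
  rw [ModularForm.coe_heckeTLin_apply,
    ModularFormClass.qCoeff_heckeT F (one_mem_strictPeriods_Gamma0 p) hq.ne_zero,
    ModularForm.coeffHeckeT_apply, ← hF]
  by_cases h : q ∣ n
  · simp only [if_pos h]
    rw [← hF, show (6 : ℤ) - 1 = ((5 : ℕ) : ℤ) by norm_num, zpow_natCast]
    push_cast
    rfl
  · simp only [if_neg h]
    simp

/-- `σ₃(m/p) - σ₃(m)`. -/
def auxCoeff (m : ℕ) : ℤ := PowerSeries.coeff m (auxSeries p)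

theorem auxCoeff_one : auxCoeff p 1 = -1 := by
  have hp : p.Prime := Fact.out
  simp [auxCoeff, auxSeries, hp.ne_one, ArithmeticFunction.sigma_apply]

theorem sum_divisors_cube_prime_mul {q m : ℕ} (hq : q.Prime) (hm : m ≠ 0) :
    (ArithmeticFunction.sigma 3 (q * m) : ℤ) +
      (if q ∣ m then (q : ℤ) ^ 3 * ArithmeticFunction.sigma 3 (m / q) else 0) =
      (1 + (q : ℤ) ^ 3) * ArithmeticFunction.sigma 3 m := by
  have h := sum_divisors_prime_mul hq hm (fun d => (d : ℤ) ^ 3)
  simp only [Nat.cast_mul, mul_pow, ← Finset.mul_sum] at h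
  simp only [ArithmeticFunction.sigma_apply, Nat.cast_sum, Nat.cast_pow]
  rw [h]
  ring

theorem auxCoeff_hecke {q : ℕ} (hq : q.Prime) (hqp : q ≠ p) (m : ℕ) :
    auxCoeff p (m * q) + (if q ∣ m then (q : ℤ) ^ 3 * auxCoeff p (m / q) else 0) =
      (1 + (q : ℤ) ^ 3) * auxCoeff p m := by
  have hp : p.Prime := Fact.out
  rcases eq_or_ne m 0 with rfl | hm
  · simp [auxCoeff, auxSeries]
  simp only [auxCoeff, auxSeries, PowerSeries.coeff_mk, mul_comm m q]
  have hcop : Nat.Coprime p q := (Nat.coprime_primes hp hq).mpr (Ne.symm hqp)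
  have hpq : p ∣ q * m ↔ p ∣ m := ⟨fun h => hcop.dvd_of_dvd_mul_left h, fun h => h.mul_left q⟩
  have h1 := sum_divisors_cube_prime_mul hq hm
  by_cases hpm : p ∣ m
  · obtain ⟨k, rfl⟩ := hpm
    have hk : k ≠ 0 := fun h => hm (by simp [h])
    have h2 := sum_divisors_cube_prime_mul hq hk
    have hqk : q ∣ p * k ↔ q ∣ k :=
      ⟨fun h => hcop.symm.dvd_of_dvd_mul_left h, fun h => h.mul_left p⟩
    rw [if_pos (hpq.mpr (dvd_mul_right p k)), if_pos (dvd_mul_right p k),
      Nat.mul_div_cancel_left k hp.pos, show q * (p * k) / p = q * k by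
        rw [mul_left_comm, Nat.mul_div_cancel_left _ hp.pos]]
    by_cases hqd : q ∣ k
    · obtain ⟨l, rfl⟩ := hqd
      rw [if_pos (hqk.mpr (dvd_mul_right q l))] at h1 ⊢
      rw [if_pos (dvd_mul_right q l)] at h2
      rw [show p * (q * l) / q = p * l by rw [mul_left_comm, Nat.mul_div_cancel_left _ hq.pos]] at h1 ⊢
      rw [Nat.mul_div_cancel_left l hq.pos] at h2
      rw [if_pos (dvd_mul_right p l), Nat.mul_div_cancel_left l hp.pos]
      linear_combination h2 - h1
    · rw [if_neg fun h => hqd (hqk.mp h)] at h1 ⊢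
      rw [if_neg hqd] at h2
      linear_combination h2 - h1
  · rw [if_neg fun h => hpm (hpq.mp h), if_neg hpm]
    by_cases hqd : q ∣ m
    · obtain ⟨l, rfl⟩ := hqd
      rw [if_pos (dvd_mul_right q l), Nat.mul_div_cancel_left l hq.pos] at h1 ⊢
      rw [if_neg fun h => hpm (h.mul_left q)]
      linear_combination -h1
    · rw [if_neg hqd] at h1 ⊢
      linear_combination -h1

variable (f : ↥(intLattice p 2))

/-- The weight six form `24(E - f) · X`. -/
def gAuxForm : ModularForm (Gamma0 p) 6 :=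
  mkFormP p (k := 6) (gForm p f * auxForm p)
    (fun γ hγ => by
      rw [show (6 : ℤ) = 2 + 4 by norm_num, ModularForm.mul_slash_SL2, gForm_invariant p f hγ,
        auxForm_invariant p hγ])
    ((hasQ_gForm p f).mul one_pos (hasQ_auxForm p))
    (by
      rw [show (6 : ℤ) = 2 + 4 by norm_num, ModularForm.mul_slash_SL2]
      exact (HasQ.slash_S_of_fricke p (hasQ_fricke_gForm p f)).mul (natCast_posR p)
        (hasQ_auxForm_S p))

variable {d : ℤ}

/-- The key congruence `24 d ∣ (p - 1)(q² - 1)`. -/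
theorem dvd_prime_sq_sub_one {dd : ℕ} (hd : 0 < dd) (hf : IsEisCongr p dd f) {q : ℕ}
    (hq : q.Prime) (hqp : q ≠ p) (hqM : ¬ q ∣ 24 * dd) :
    (24 * dd : ℤ) ∣ ((p : ℤ) - 1) * ((q : ℤ) ^ 2 - 1) := by
  have hp : p.Prime := Fact.out
  have hqp' : ¬ q ∣ p := fun h => hqp ((Nat.prime_dvd_prime_iff_eq hq hp).mp h)
  set M := 24 * dd with hM
  have : NeZero M := ⟨by omega⟩
  have hMZ : (24 * dd : ℤ) = (M : ℤ) := by rw [hM]; push_cast; rfl
  rw [hMZ, ← ZMod.intCast_zmod_eq_zero_iff_dvd]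
  set 𝒮 := (fun a : ℕ → ℤ => fun n => (a n : ZMod M)) '' (intExpansions p 6 : Set (ℕ → ℤ)) with h𝒮
  have hfin : 𝒮.Finite := finite_reductions p 6 M
  have hT : ∀ u ∈ 𝒮, (fun n => u (n * q) + if q ∣ n then (q : ZMod M) ^ 5 * u (n / q) else 0) ∈ 𝒮 := by
    rintro _ ⟨a, ha, rfl⟩
    refine ⟨_, heckeT_mem p ha hq hqp', funext fun n => ?_⟩
    dsimp only
    split_ifs <;> push_cast <;> ring
  have hlin : ∀ u ∈ 𝒮, ∀ v ∈ 𝒮, ∀ c : ℤ, (fun n => v n - (c : ZMod M) * u n) ∈ 𝒮 := by
    rintro _ ⟨a, ha, rfl⟩ _ ⟨b, hb, rfl⟩ c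
    exact ⟨b - c • a, sub_mem hb (Submodule.smul_mem _ c ha), funext fun n => by simp⟩
  set x : ℕ → ZMod M := fun n => (auxCoeff p n : ZMod M) with hx
  set cM : ZMod M := (((p : ℤ) - 1 : ℤ) : ZMod M) with hcM
  let Y : ℕ → ℕ → ZMod M := fun i n => if q ^ i ∣ n then x (n / q ^ i) else 0
  have hbase : (fun n => cM * x n) ∈ 𝒮 := by
    refine ⟨_, mem_intExpansions p (gAuxForm p f) (R := gSeries p f * auxSeries p)
      ((hasQ_gForm p f).mul one_pos (hasQ_auxForm p)), funext fun n => ?_⟩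
    have h := dvd_coeff_mul_sub (c := (p : ℤ) - 1)
      (fun m hm => dvd_coeff_gSeries p f hf hm) (by simp [gSeries]) (auxSeries p) n
    rw [hMZ] at h
    have h2 := (ZMod.intCast_zmod_eq_zero_iff_dvd _ _).mpr h
    push_cast at h2
    simpa [hx, hcM, auxCoeff, sub_eq_zero] using h2
  set lam : ZMod M := cM * ((q : ZMod M) ^ 5 - (q : ZMod M) ^ 3) with hlam
  have hxrec : ∀ n, x (n * q) + (if q ∣ n then (q : ZMod M) ^ 3 * x (n / q) else 0) =
      (1 + (q : ZMod M) ^ 3) * x n := by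
    intro n
    have h := congrArg (Int.cast (R := ZMod M)) (auxCoeff_hecke p hq hqp n)
    simp only [hx]
    split_ifs with h' <;> simp only [if_pos, h', if_false] at h <;> push_cast at h <;>
      linear_combination h
  have hYmul : ∀ i n, Y (i + 1) (n * q) = Y i n := by
    intro i n
    simp only [Y, pow_succ, Nat.mul_dvd_mul_iff_right hq.pos, Nat.mul_div_mul_right _ _ hq.pos]
  have hYdiv : ∀ i n, (if q ∣ n then Y i (n / q) else 0) = Y (i + 1) n := by
    intro i n
    simp only [Y, pow_succ']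
    by_cases h : q ∣ n
    · obtain ⟨k, rfl⟩ := h
      rw [if_pos (dvd_mul_right q k), Nat.mul_div_cancel_left k hq.pos]
      simp only [Nat.mul_dvd_mul_iff_left hq.pos, Nat.mul_div_mul_left _ _ hq.pos]
    · rw [if_neg h, if_neg fun h' => h ((dvd_mul_right q _).trans h')]
  have hY0 : ∀ n, Y 0 n = x n := fun n => by simp [Y]
  have hY1 : (fun n => lam * Y 1 n) ∈ 𝒮 := by
    have h := hlin _ hbase _ (hT _ hbase) (1 + (q : ℤ) ^ 3)
    convert h using 1
    funext n
    rw [← hYdiv 0 n]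
    have := hxrec n
    push_cast
    simp only [hY0, hlam]
    split_ifs at this ⊢ <;> linear_combination (norm := ring_nf) (-cM) * this
  have hstep : ∀ i, (fun n => (q : ZMod M) ^ (5 * i) * (lam * Y (i + 1) n)) ∈ 𝒮 ∧
      (fun n => (q : ZMod M) ^ (5 * i) * (lam * Y i n)) ∈ 𝒮 := by
    intro i
    induction i with
    | zero =>
      refine ⟨by simpa using hY1, ?_⟩
      have h := hlin _ hbase _ (Submodule.zero_mem (intExpansions p 6) |> fun h =>
        (⟨0, h, rfl⟩ : (fun n => (((0 : ℕ → ℤ) n : ℤ) : ZMod M)) ∈ 𝒮))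
        (-((q : ℤ) ^ 5 - (q : ℤ) ^ 3))
      convert h using 1
      funext n
      simp [hY0, hlam, hcM]
      ring
    | succ i ih =>
      obtain ⟨h1, h0⟩ := ih
      have hmul5 : (fun n => (q : ZMod M) ^ (5 * (i + 1)) * (lam * Y (i + 1) n)) ∈ 𝒮 := by
        obtain ⟨a, ha, he⟩ := h1
        refine ⟨((q : ℤ) ^ 5) • a, Submodule.smul_mem _ _ ha, funext fun n => ?_⟩
        have := congrFun he n
        dsimp only at this
        simp [this]
        ring
      refine ⟨?_, hmul5⟩
      have h := hlin _ h0 _ (hT _ h1) 1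
      convert h using 1
      funext n
      rw [hYmul, ← hYdiv (i + 1) n]
      push_cast
      split_ifs <;> ring
  obtain ⟨i, j, hij, hneq⟩ : ∃ i j : ℕ, i < j ∧
      (fun n => (q : ZMod M) ^ (5 * i) * (lam * Y (i + 1) n)) =
        fun n => (q : ZMod M) ^ (5 * j) * (lam * Y (j + 1) n) := by
    obtain ⟨i, -, j, -, hne, he⟩ := Set.Infinite.exists_ne_map_eq_of_mapsTo
      (f := fun i n => (q : ZMod M) ^ (5 * i) * (lam * Y (i + 1) n)) Set.infinite_univ
      (fun i _ => (hstep i).1) hfin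
    rcases lt_or_gt_of_ne hne with h | h
    exacts [⟨i, j, h, he⟩, ⟨j, i, h, he.symm⟩]
  have h := congrFun hneq (q ^ (i + 1))
  have hnd : ¬ q ^ (j + 1) ∣ q ^ (i + 1) := fun h' =>
    absurd ((Nat.pow_dvd_pow_iff_le_right hq.one_lt).mp h') (by omega)
  simp only [Y, if_pos dvd_rfl, if_neg hnd, Nat.div_self (pow_pos hq.pos _), mul_zero, hx,
    auxCoeff_one] at h
  have hqu : IsUnit (q : ZMod M) := (ZMod.isUnit_iff_coprime q M).mpr
    (hq.coprime_iff_not_dvd.mpr hqM)
  have h2 : lam = 0 := by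
    have := (hqu.pow (5 * i)).mul_right_eq_zero.mp h
    simpa using this
  rw [hlam, show cM * ((q : ZMod M) ^ 5 - (q : ZMod M) ^ 3) =
    (q : ZMod M) ^ 3 * (cM * ((q : ZMod M) ^ 2 - 1)) by ring] at h2
  have h3 := (hqu.pow 3).mul_right_eq_zero.mp h2
  rw [hcM] at h3
  push_cast at h3 ⊢
  exact h3

end FLTAgent.Eisen
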